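import Fermat.Agent.Jac.Chart.Star
import Fermat.Agent.Jac.Alg.Coh

/-!
# The frame of a bundle without cohomology

For a generator `G` over `1` the vectors `mu (t ^ i G)` are a basis of the sections over the
intersection over `R[T,T⁻¹]`, with `T` acting as `x`, and the action of `B` in this basis is a
chart hom when `G` is normalised.
-/

set_option autoImplicit false
set_option linter.style.haveILetI false

universe u

noncomputable section

open LaurentPolynomial TensorProduct

namespace Fermat.Agent.Jac.Chart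

variable {k : Type u} [Field k] {D : CurveData.{u} k} {R : Type u} [CommRing R] [Algebra k R]

variable (D R) in
/-- `x` as a unit of the intersection. -/
def xUnit : (D.BR R)ˣ :=
  ⟨xB D R, yB D R, xB_mul_yB, by rw [mul_comm]; exact xB_mul_yB⟩

variable (D R) in
/-- `T ↦ x`. -/
def evT : R[T;T⁻¹] →+* D.BR R :=
  LaurentPolynomial.eval₂ (algebraMap R (D.BR R)) (xUnit D R)

theorem evT_C (r : R) : evT D R (C r) = algebraMap R (D.BR R) r := eval₂_C ..

theorem evT_T_neg (n : ℕ) : evT D R (T (-(n : ℤ))) = yB D R ^ n := eval₂_T_neg_n ..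

theorem evT_T_nat (n : ℕ) : evT D R (T (n : ℤ)) = xB D R ^ n := eval₂_T_n ..

theorem evT_smul (r : R) (f : R[T;T⁻¹]) : evT D R (r • f) = r • evT D R f := by
  rw [smul_eq_C_mul, map_mul, evT_C, Algebra.smul_def]

theorem evT_toLaurent (p : Polynomial R) :
    evT D R (Polynomial.toLaurent p) = algebraMap (D.AR R) (D.BR R) (Polynomial.aeval (D.xR R) p) := by
  rw [evT, eval₂_toLaurent, ← Polynomial.aeval_algebraMap_apply, ← Polynomial.aeval_def]
  rfl

theorem evT_invert_toLaurent (p : Polynomial R) :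
    evT D R (LaurentPolynomial.invert (Polynomial.toLaurent p)) =
      algebraMap (D.AR₁ R) (D.BR R) (Polynomial.aeval (D.yR R) p) := by
  induction p using Polynomial.induction_on' with
  | add p q hp hq => simp only [map_add, hp, hq]
  | monomial n c =>
    rw [Polynomial.toLaurent_C_mul_T, map_mul, invert_C, invert_T, map_mul, evT_C, evT_T_neg,
      Polynomial.aeval_monomial, map_mul, map_pow, ← IsScalarTower.algebraMap_apply]

variable {L : LineData D R} (hL : Function.Bijective L.δ)
  {g : L.N →ₛₗ[(D.evR (R := R)).toRingHom] R} (G : L.N)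

/-- The basis on `C ∖ ε`. -/
def bas₀ (i : Fin D.d) : L.M := mu hL (tR D R ^ (i : ℕ) • G)

/-- The basis at `ε`. -/
def bas₁ (i : Fin D.d) : L.N := star hL (tR D R ^ (i : ℕ) • G)

theorem yB_f₀_bas₀ (i : Fin D.d) : yB D R • L.f₀ (bas₀ hL G i) = L.f₁ (bas₁ hL G i) := by
  have h := rel_star hL (tR D R ^ (i : ℕ) • G)
  unfold LineData.Rel at h
  rw [pow_one] at h
  exact h

/-- The frame map. -/
def theta : (Fin D.d → R[T;T⁻¹]) →ₗ[R] L.P where
  toFun v := ∑ i, evT D R (v i) • L.f₀ (bas₀ hL G i)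
  map_add' v w := by simp only [Pi.add_apply, map_add, add_smul, Finset.sum_add_distrib]
  map_smul' r v := by
    simp only [Pi.smul_apply, evT_smul, RingHom.id_apply, Finset.smul_sum, smul_assoc]

theorem theta_apply (v : Fin D.d → R[T;T⁻¹]) :
    theta hL G v = ∑ i, evT D R (v i) • L.f₀ (bas₀ hL G i) := rfl

theorem theta_mul (f : R[T;T⁻¹]) (v : Fin D.d → R[T;T⁻¹]) :
    theta hL G (fun i => f * v i) = evT D R f • theta hL G v := by
  simp only [theta_apply, map_mul, mul_smul, Finset.smul_sum]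

theorem theta_single (j : Fin D.d) (f : R[T;T⁻¹]) :
    theta hL G (Pi.single j f) = evT D R f • L.f₀ (bas₀ hL G j) := by
  rw [theta_apply, Finset.sum_eq_single j]
  · rw [Pi.single_eq_same]
  · intro i _ hi; rw [Pi.single_eq_of_ne hi, map_zero, zero_smul]
  · intro h; exact absurd (Finset.mem_univ j) h

/-- Polynomial vectors give sections on `C ∖ ε`. -/
theorem theta_pos {v : Fin D.d → R[T;T⁻¹]} (hv : ∀ i, GeSupp 0 (v i)) :
    ∃ m ∈ Submodule.span (D.AR R) (Set.range (bas₀ hL G)), theta hL G v = L.f₀ m := by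
  choose p hp using fun i => exists_toLaurent_of_geSupp (hv i)
  refine ⟨∑ i, Polynomial.aeval (D.xR R) (p i) • bas₀ hL G i, Submodule.sum_mem _ fun i _ =>
    Submodule.smul_mem _ _ (Submodule.subset_span ⟨i, rfl⟩), ?_⟩
  rw [theta_apply, map_sum]
  exact Finset.sum_congr rfl fun i _ => by rw [← hp i, evT_toLaurent, L.f₀_smul]

/-- Negatively supported vectors give sections at `ε`, read off at degree `-1` modulo `y`. -/
theorem theta_neg {v : Fin D.d → R[T;T⁻¹]} (hv : ∀ i, LeSupp (-1) (v i)) :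
    ∃ n, theta hL G v = L.f₁ n ∧
      ModY L n (∑ i, (v i).coeff (-1) • tR D R ^ (i : ℕ) • G) ∧
      n ∈ Submodule.span (D.AR₁ R) (Set.range (bas₁ hL G)) := by
  have hv' : ∀ i, GeSupp 0 (LaurentPolynomial.invert (v i) * T (-1)) := fun i n hn => by
    rw [coeff_mul_T, invert_apply]
    exact hv i _ (by omega)
  choose p hp using fun i => exists_toLaurent_of_geSupp (hv' i)
  have hvi : ∀ i, v i = LaurentPolynomial.invert (Polynomial.toLaurent (p i)) * T (-1) := fun i => by
    rw [hp, map_mul, invert_T, neg_neg, show LaurentPolynomial.invert (LaurentPolynomial.invert (v i))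
      = v i from involutive_invert (v i), mul_assoc, ← T_add, add_neg_cancel, T_zero, mul_one]
  refine ⟨∑ i, Polynomial.aeval (D.yR R) (p i) • bas₁ hL G i, ?_, ModY.sum _ fun i _ => ?_,
    Submodule.sum_mem _ fun i _ => Submodule.smul_mem _ _ (Submodule.subset_span ⟨i, rfl⟩)⟩
  · rw [theta_apply, map_sum]
    refine Finset.sum_congr rfl fun i _ => ?_
    rw [L.f₁_smul, ← yB_f₀_bas₀, smul_smul, hvi i, map_mul, evT_invert_toLaurent,
      show (-1 : ℤ) = -((1 : ℕ) : ℤ) by norm_num, evT_T_neg, pow_one]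
  · have hc : (v i).coeff (-1) = (p i).coeff 0 := by
      have h : (v i).coeff (-1) = (Polynomial.toLaurent (p i)).coeff ((0 : ℕ) : ℤ) := by
        rw [hp i, coeff_mul_T, invert_apply]
        congr 1
      rw [h, Polynomial.toLaurent_apply]
      exact Finsupp.mapDomain_apply Int.ofNat_injective _ _
    rw [hc]
    refine ((modY_star hL _).smul _).trans ?_
    conv_lhs => rw [← Polynomial.X_mul_divX_add (p i)]
    rw [map_add, map_mul, Polynomial.aeval_X, Polynomial.aeval_C, add_smul, algebraMap_smul,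
      mul_smul]
    simpa using (modY_smul_yR (L := L) _).add (ModY.refl ((p i).coeff 0 • tR D R ^ (i : ℕ) • G))

section Basis

variable {G} (hG : g G = 1)
include hG

theorem exists_mu_eq (n : L.N) :
    ∃ c : Fin D.d → R, mu hL n = ∑ i, c i • bas₀ hL G i ∧
      star hL n = ∑ i, c i • bas₁ hL G i := by
  obtain ⟨c, hc⟩ := exists_jet_coords hG n
  obtain ⟨h0, h1⟩ := mu_star_congr hL hc
  refine ⟨c, ?_, ?_⟩
  · rw [h0, map_sum]; exact Finset.sum_congr rfl fun i _ => map_smul _ _ _
  · rw [h1, map_sum]; exact Finset.sum_congr rfl fun i _ => map_smul _ _ _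

omit hG in
theorem theta_coords (c : Fin D.d → R) (m : ℤ) :
    theta hL G (fun i => C (c i) * T m) =
      (xUnit D R ^ m).val • ∑ i, c i • L.f₀ (bas₀ hL G i) := by
  rw [theta_apply, Finset.smul_sum]
  refine Finset.sum_congr rfl fun i _ => ?_
  rw [map_mul, evT_C, mul_smul, algebraMap_smul, smul_comm, evT, eval₂_T]

theorem exists_pos_preimage (m : L.M) :
    ∃ v : Fin D.d → R[T;T⁻¹], (∀ i, GeSupp 0 (v i)) ∧ theta hL G v = L.f₀ m := by
  obtain ⟨l, n, hn⟩ := L.exists_rel m
  induction l generalizing m n with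
  | zero =>
    unfold LineData.Rel at hn
    rw [pow_zero, one_smul] at hn
    have h0 : L.δ (m, n) = L.δ (0, 0) := by
      rw [LineData.δ_apply, LineData.δ_apply, hn, sub_self, map_zero, map_zero, sub_zero]
    have hm : m = 0 := (Prod.ext_iff.mp (hL.1 h0)).1
    exact ⟨0, fun i => geSupp_zero 0, by rw [map_zero, hm, map_zero]⟩
  | succ l ih =>
    unfold LineData.Rel at hn
    set n' := part₁ hL (xB D R • L.f₁ n) with hn'
    have hstar : n = star hL n + D.yR R • n' := by rw [star_apply, sub_add_cancel]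
    obtain ⟨c, hc, -⟩ := exists_mu_eq hL hG n
    have h1 : yB D R ^ l • L.f₀ (m - D.xR R ^ l • mu hL n) = L.f₁ n' := by
      have e : xB D R • L.f₁ n = L.f₀ (mu hL n) + L.f₁ n' := (part_add hL _).symm
      rw [← hn, smul_smul, pow_succ', ← mul_assoc, xB_mul_yB, one_mul] at e
      rw [map_sub, L.f₀_smul, map_pow, smul_sub, smul_smul, ← mul_pow, mul_comm, xB_mul_yB,
        one_pow, one_smul, sub_eq_iff_eq_add', e]
    obtain ⟨v, hv, hv'⟩ := ih _ n' h1
    refine ⟨v + fun i => C (c i) * T (l : ℤ), fun i => (hv i).add ?_, ?_⟩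
    · simpa using (geSupp_C (c i)).mul (geSupp_T (R := R) (le_refl (l : ℤ))) |>.mono (b := 0) (by omega)
    · rw [map_add, hv', theta_coords hL c (l : ℤ), zpow_natCast, Units.val_pow_eq_pow_val,
        map_sub, sub_add_eq_add_sub, sub_eq_iff_eq_add, L.f₀_smul, map_pow, hc, map_sum]
      simp only [map_smul]
      rfl

theorem exists_neg_preimage (n : L.N) :
    ∃ v : Fin D.d → R[T;T⁻¹], (∀ i, LeSupp (-1) (v i)) ∧ theta hL G v = L.f₁ n := by
  obtain ⟨l, m, hm⟩ := L.exists_pow_smul_mem_range_f₀ (L.f₁ n)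
  induction l generalizing m n with
  | zero =>
    rw [pow_zero, one_smul] at hm
    have h0 : L.δ (m, n) = L.δ (0, 0) := by
      rw [LineData.δ_apply, LineData.δ_apply, hm, sub_self, map_zero, map_zero, sub_zero]
    have hn : n = 0 := (Prod.ext_iff.mp (hL.1 h0)).2
    exact ⟨0, fun i => leSupp_zero (-1), by rw [map_zero, hn, map_zero]⟩
  | succ l ih =>
    set n' := part₁ hL (xB D R • L.f₁ n) with hn'
    obtain ⟨c, hc, hc'⟩ := exists_mu_eq hL hG n
    have h1 : xB D R ^ l • L.f₁ n' = L.f₀ (m - D.xR R ^ l • mu hL n) := by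
      have e : xB D R • L.f₁ n = L.f₀ (mu hL n) + L.f₁ n' := (part_add hL _).symm
      have e' : L.f₁ n' = xB D R • L.f₁ n - L.f₀ (mu hL n) := by rw [e, add_sub_cancel_left]
      rw [e', smul_sub, smul_smul, ← pow_succ, map_sub, L.f₀_smul, map_pow, ← hm]
    obtain ⟨v, hv, hv'⟩ := ih n' _ h1
    refine ⟨(fun i => C (c i) * T (-1)) + fun i => T (-1) * v i, fun i => LeSupp.add ?_ ?_, ?_⟩
    · simpa using (leSupp_C (c i)).mul (leSupp_T (R := R) (le_refl (-1 : ℤ)))
    · exact ((leSupp_T (R := R) (le_refl (-1 : ℤ))).mul (hv i)).mono (by omega)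
    · have hstar : n = star hL n + D.yR R • n' := by rw [star_apply, sub_add_cancel]
      rw [map_add, theta_mul, hv', theta_coords hL c (-1)]
      conv_rhs => rw [hstar, map_add, hc', map_sum, f₁_yR_smul]
      congr 1
      · rw [zpow_neg_one, Finset.smul_sum]
        refine Finset.sum_congr rfl fun i _ => ?_
        rw [map_smul, ← yB_f₀_bas₀, smul_comm]
        rfl
      · rw [show (-1 : ℤ) = -((1 : ℕ) : ℤ) by norm_num, evT_T_neg, pow_one]

theorem theta_surjective : Function.Surjective (theta hL G) := by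
  intro z
  obtain ⟨v, -, hv⟩ := exists_pos_preimage hL hG (part₀ hL z)
  obtain ⟨w, -, hw⟩ := exists_neg_preimage hL hG (part₁ hL z)
  exact ⟨v + w, by rw [map_add, hv, hw, part_add]⟩

theorem theta_injective : Function.Injective (theta hL G) := by
  have key : ∀ (j : ℕ) (v : Fin D.d → R[T;T⁻¹]), (∀ i, LeSupp (-1) (v i)) → theta hL G v = 0 →
      ∀ i, (v i).coeff (-1 - (j : ℤ)) = 0 := by
    intro j
    induction j with
    | zero =>
      intro v hv h0 i
      obtain ⟨n, hn, hmod, -⟩ := theta_neg hL G hv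
      rw [h0] at hn
      have hn0 : n = 0 := L.f₁_injective (hn.symm.trans (map_zero L.f₁).symm)
      rw [hn0] at hmod
      simpa using congrFun (jet_coords_unique hG hmod.symm) i
    | succ j ih =>
      intro v hv h0 i
      have hz : ∀ i, (v i).coeff (-1) = 0 := fun i => by
        obtain ⟨n, hn, hmod, -⟩ := theta_neg hL G hv
        rw [h0] at hn
        have hn0 : n = 0 := L.f₁_injective (hn.symm.trans (map_zero L.f₁).symm)
        rw [hn0] at hmod
        simpa using congrFun (jet_coords_unique hG hmod.symm) i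
      have hv1 : ∀ i, LeSupp (-1) (T 1 * v i) := fun i n hn => by
        rw [mul_comm, coeff_mul_T]
        rcases eq_or_ne n 0 with rfl | hn0
        · exact hz i
        · exact hv i _ (by omega)
      have := ih (fun i => T 1 * v i) hv1 (by rw [theta_mul, h0, smul_zero]) i
      rw [mul_comm, coeff_mul_T] at this
      rw [← this]
      congr 1
      push_cast
      ring
  rw [injective_iff_map_eq_zero]
  intro v hv
  obtain ⟨l, hl⟩ : ∃ l : ℕ, ∀ i, LeSupp (l : ℤ) (v i) := by
    refine ⟨Finset.univ.sup fun i => (v i).coeff.support.sup fun n => n.toNat, fun i n hn => ?_⟩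
    by_contra hne
    have h1 : n.toNat ≤ (v i).coeff.support.sup fun n : ℤ => n.toNat :=
      Finset.le_sup (f := fun n : ℤ => n.toNat) (Finsupp.mem_support_iff.mpr hne)
    have h2 : ((v i).coeff.support.sup fun n : ℤ => n.toNat) ≤
        Finset.univ.sup fun i => (v i).coeff.support.sup fun n : ℤ => n.toNat :=
      Finset.le_sup (f := fun i => (v i).coeff.support.sup fun n : ℤ => n.toNat)
        (Finset.mem_univ i)
    omega
  funext i
  refine LaurentPolynomial.ext fun n => ?_
  show (v i).coeff n = 0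
  rcases lt_or_ge (l : ℤ) n with hn | hn
  · exact hl i n hn
  have := key ((l : ℤ) - n).toNat (fun i => T (-(l : ℤ) - 1) * v i)
    (fun i m hm => by rw [mul_comm, coeff_mul_T]; exact hl i _ (by omega))
    (by rw [theta_mul, hv, smul_zero]) i
  rw [mul_comm, coeff_mul_T] at this
  rw [← this]
  congr 1
  omega

/-- The frame as an isomorphism. -/
def thetaEquiv : (Fin D.d → R[T;T⁻¹]) ≃ₗ[R] L.P :=
  LinearEquiv.ofBijective (theta hL G) ⟨theta_injective hL hG, theta_surjective hL hG⟩

/-- The action of `B` in the frame. -/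
def frameMat (z : D.BR R) : Mat D R :=
  Matrix.of fun i j => (thetaEquiv hL hG).symm (z • L.f₀ (bas₀ hL G j)) i

theorem smul_theta (z : D.BR R) (v : Fin D.d → R[T;T⁻¹]) :
    z • theta hL G v = theta hL G (Matrix.mulVec (frameMat hL hG z) v) := by
  have hcol : ∀ j, ∑ i, evT D R (frameMat hL hG z i j) • L.f₀ (bas₀ hL G i) =
      z • L.f₀ (bas₀ hL G j) := fun j => by
    rw [← theta_apply]
    exact (thetaEquiv hL hG).apply_symm_apply _
  rw [theta_apply, theta_apply, Finset.smul_sum]
  simp only [Matrix.mulVec, dotProduct, map_sum, Finset.sum_smul]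
  rw [Finset.sum_comm]
  refine Finset.sum_congr rfl fun j _ => ?_
  rw [smul_comm, ← hcol j, Finset.smul_sum]
  refine Finset.sum_congr rfl fun i _ => ?_
  rw [map_mul, smul_smul, mul_comm]

theorem frameMat_unique {z : D.BR R} {M : Mat D R}
    (h : ∀ j, z • L.f₀ (bas₀ hL G j) = theta hL G (fun i => M i j)) : frameMat hL hG z = M := by
  refine Matrix.ext fun i j => ?_
  show (thetaEquiv hL hG).symm (z • L.f₀ (bas₀ hL G j)) i = M i j
  rw [h j]
  exact congrFun ((thetaEquiv hL hG).symm_apply_apply _) i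

theorem frameMat_col (z : D.BR R) (j : Fin D.d) :
    theta hL G (fun i => frameMat hL hG z i j) = z • L.f₀ (bas₀ hL G j) :=
  (thetaEquiv hL hG).apply_symm_apply _

/-- The chart hom of the frame. -/
def frameHom : D.B →ₐ[k] Mat D R where
  toFun b := frameMat hL hG ((1 : R) ⊗ₜ[k] b)
  map_one' := frameMat_unique hL hG fun j => by
    rw [← Algebra.TensorProduct.one_def, one_smul]
    have e : (fun i => (1 : Mat D R) i j) = Pi.single j (1 : R[T;T⁻¹]) := by
      funext i; simp [Matrix.one_apply, Pi.single_apply]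
    rw [e, theta_single, map_one, one_smul]
  map_mul' a b := frameMat_unique hL hG fun j => by
    rw [show ((1 : R) ⊗ₜ[k] (a * b) : D.BR R) = ((1 : R) ⊗ₜ[k] a) * ((1 : R) ⊗ₜ[k] b) by
      rw [Algebra.TensorProduct.tmul_mul_tmul, mul_one], mul_smul, ← frameMat_col hL hG _ j,
      smul_theta]
    rfl
  map_zero' := frameMat_unique hL hG fun j => by
    rw [tmul_zero, zero_smul]
    exact (map_zero (theta hL G)).symm
  map_add' a b := frameMat_unique hL hG fun j => by
    rw [tmul_add, add_smul, ← frameMat_col hL hG _ j, ← frameMat_col hL hG _ j, ← map_add]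
    rfl
  commutes' r := frameMat_unique hL hG fun j => by
    have e : (fun i => (algebraMap k (Mat D R) r) i j) =
        Pi.single j (C (algebraMap k R r) : R[T;T⁻¹]) := by
      funext i
      rw [Matrix.algebraMap_matrix_apply, Pi.single_apply]
      rfl
    rw [e, theta_single, evT_C]
    congr 1
    rw [Algebra.algebraMap_eq_smul_one, TensorProduct.tmul_smul, ← Algebra.TensorProduct.one_def,
      Algebra.algebraMap_eq_smul_one, Algebra.algebraMap_eq_smul_one, smul_assoc, one_smul]

theorem frameHom_col (b : D.B) (j : Fin D.d) :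
    theta hL G (fun i => frameHom hL hG b i j) = ((1 : R) ⊗ₜ[k] b) • L.f₀ (bas₀ hL G j) :=
  frameMat_col hL hG _ j

theorem neg_of_f₁ {v : Fin D.d → R[T;T⁻¹]} {n : L.N} (h : theta hL G v = L.f₁ n) (i : Fin D.d) :
    LeSupp (-1) (v i) := by
  obtain ⟨w, hw, hw'⟩ := exists_neg_preimage hL hG n
  rw [theta_injective hL hG (h.trans hw'.symm)]
  exact hw i

theorem coeff_of_f₁ {v : Fin D.d → R[T;T⁻¹]} {n : L.N} (h : theta hL G v = L.f₁ n)
    {c : Fin D.d → R} (hc : ModY L n (∑ i, c i • tR D R ^ (i : ℕ) • G)) (i : Fin D.d) :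
    (v i).coeff (-1) = c i := by
  obtain ⟨n', hn', hmod, -⟩ := theta_neg hL G (fun i => neg_of_f₁ hL hG h i)
  have e : n' = n := L.f₁_injective (hn'.symm.trans h)
  subst e
  have := jet_coords_unique hG (c := fun i => (v i).coeff (-1) - c i) (by
    simp only [sub_smul, Finset.sum_sub_distrib]
    obtain ⟨z, hz⟩ := hmod.symm.trans hc
    exact ⟨z, by rw [sub_zero]; exact hz⟩)
  exact sub_eq_zero.mp (congrFun this i)

theorem frameHom_i₁_col (b : D.A₁) (j : Fin D.d) :
    theta hL G (fun i => T (-1) * frameHom hL hG (D.i₁ b) i j) =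
      L.f₁ (((1 : R) ⊗ₜ[k] b) • bas₁ hL G j) := by
  rw [theta_mul, frameHom_col, L.f₁_smul, ← yB_f₀_bas₀, smul_comm,
    show (-1 : ℤ) = -((1 : ℕ) : ℤ) by norm_num, evT_T_neg, pow_one]
  rfl

end Basis

variable {G}

theorem isChartHom_frameHom (hn : Normalised hL g G) :
    IsChartHom D (frameHom hL hn.g_eq) where
  poly a i j := by
    have h := frameHom_col hL hn.g_eq (D.i₀ a) j
    obtain ⟨v, hv, hv'⟩ := exists_pos_preimage hL hn.g_eq (((1 : R) ⊗ₜ[k] a) • bas₀ hL G j)
    rw [L.f₀_smul, CurveData.algebraMap_AR_tmul, ← h] at hv'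
    rw [← congrFun (theta_injective hL hn.g_eq hv') i]
    exact hv i
  neg b i j := by
    intro n hn'
    have := neg_of_f₁ hL hn.g_eq (frameHom_i₁_col hL hn.g_eq b j) i (n - 1) (by omega)
    rw [mul_comm, coeff_mul_T, show n - 1 - -1 = n by ring] at this
    exact this
  map_x := frameMat_unique hL hn.g_eq fun j => by
    have e : (fun i => ((T 1 : R[T;T⁻¹]) • (1 : Mat D R)) i j) = Pi.single j (T 1) := by
      funext i; simp [Matrix.one_apply, Pi.single_apply]
    rw [e, theta_single, show (1 : ℤ) = ((1 : ℕ) : ℤ) by norm_num, evT_T_nat, pow_one,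
      ← CurveData.algebraMap_AR_tmul]
  shift i j := by
    have h := frameHom_i₁_col hL hn.g_eq D.t j
    set c : Fin D.d → R := fun i => if (i : ℕ) = (j : ℕ) + 1 then 1 else 0 with hc
    have hmod : ModY L (((1 : R) ⊗ₜ[k] D.t) • bas₁ hL G j)
        (∑ i, c i • tR D R ^ (i : ℕ) • G) := by
      refine ((modY_star hL _).smul _).trans ?_
      rw [smul_smul, ← pow_succ']
      by_cases hj : (j : ℕ) + 1 < D.d
      · rw [Finset.sum_eq_single ⟨(j : ℕ) + 1, hj⟩
          (fun l _ hl => by simp only [hc]; rw [if_neg (fun e => hl (Fin.ext e)), zero_smul])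
          (by simp)]
        simp only [hc, if_true, one_smul]
        exact ModY.refl _
      · rw [Finset.sum_eq_zero fun l _ => by
          simp only [hc]; rw [if_neg (by omega), zero_smul]]
        obtain ⟨w, hw⟩ := dvd_t_pow_d (D := D) (R := R)
        rw [show (j : ℕ) + 1 = D.d by omega, hw, mul_smul]
        exact modY_smul_yR _
    have := coeff_of_f₁ hL hn.g_eq h hmod i
    rw [mul_comm, coeff_mul_T, show (-1 : ℤ) - -1 = 0 by ring] at this
    exact this
  norm i j hj hi := by
    obtain ⟨γ, z, hz⟩ := hn.norm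
    set s := D.d - 1 with hs
    have hlast : s < D.d := by omega
    have h := frameHom_i₁_col hL hn.g_eq (D.t ^ s) j
    have hb : bas₁ hL G j = star hL G := by rw [bas₁, hj, pow_zero, one_smul]
    rw [hb] at h
    rw [show ((1 : R) ⊗ₜ[k] (D.t ^ s) : D.AR₁ R) = tR D R ^ s by
      rw [Algebra.TensorProduct.tmul_pow, one_pow]] at h
    have hdiff : theta hL G ((fun l => T (-1) * frameHom hL hn.g_eq (D.i₁ (D.t ^ s)) l j) -
        Pi.single (⟨s, hlast⟩ : Fin D.d) (T (-1))) =
        L.f₁ (D.yR R • (γ • tR D R ^ s • G + D.yR R • z)) := by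
      rw [map_sub, h, theta_single, show (-1 : ℤ) = -((1 : ℕ) : ℤ) by norm_num, evT_T_neg,
        pow_one, yB_f₀_bas₀, ← map_sub, bas₁]
      congr 1
      rw [hz, smul_add]
    have h2 : theta hL G (fun l => T 1 * ((fun l => T (-1) * frameHom hL hn.g_eq
        (D.i₁ (D.t ^ s)) l j) - Pi.single (⟨s, hlast⟩ : Fin D.d) (T (-1)) : Fin D.d → R[T;T⁻¹]) l) =
        L.f₁ (γ • tR D R ^ s • G + D.yR R • z) := by
      rw [theta_mul, hdiff, f₁_yR_smul, show (1 : ℤ) = ((1 : ℕ) : ℤ) by norm_num, evT_T_nat,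
        pow_one, smul_smul, xB_mul_yB, one_smul]
    have hmod : ModY L (γ • tR D R ^ s • G + D.yR R • z)
        (∑ l, (if l = (⟨s, hlast⟩ : Fin D.d) then γ else 0) • tR D R ^ (l : ℕ) • G) := by
      rw [Finset.sum_eq_single (⟨s, hlast⟩ : Fin D.d) (fun l _ hl => by rw [if_neg hl, zero_smul])
        (by simp), if_pos rfl]
      exact ModY.of_eq_add rfl
    have := coeff_of_f₁ hL hn.g_eq h2 hmod i
    have hne : i ≠ (⟨s, hlast⟩ : Fin D.d) := fun e => by
      have := congrArg Fin.val e; simp at this; omega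
    rw [if_neg hne, mul_comm, coeff_mul_T, Pi.sub_apply, Pi.single_eq_of_ne hne, sub_zero,
      mul_comm, coeff_mul_T] at this
    rw [show (-1 : ℤ) - 1 - -1 = -1 by ring] at this
    exact this

end Fermat.Agent.Jac.Chart
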