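import Fermat.Agent.Jac.Chart.Universal
import Fermat.Agent.Jac.Chart.Frame

/-!
# Facts about the line data of a chart hom, and frames under change of coefficients
-/

set_option autoImplicit false
set_option linter.style.haveILetI false

universe u

noncomputable section

open LaurentPolynomial TensorProduct

namespace Fermat.Agent.Jac.Chart

variable {k : Type u} [Field k] {D : CurveData.{u} k} {R R' : Type u} [CommRing R] [Algebra k R]
  [CommRing R'] [Algebra k R']

theorem mapBR_evT (φ : R →ₐ[k] R') (f : R[T;T⁻¹]) :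
    D.mapBR φ (evT D R f) = evT D R' (mapLau φ f) := by
  induction f using LaurentPolynomial.induction_on' with
  | add p q hp hq => simp only [map_add, hp, hq]
  | C_mul_T n r =>
    have hC : D.mapBR φ (algebraMap R (D.BR R) r) = algebraMap R' (D.BR R') (φ r) := by
      show D.mapBR φ (r ⊗ₜ[k] (1 : D.B)) = φ r ⊗ₜ[k] (1 : D.B)
      rw [CurveData.mapBR, Algebra.TensorProduct.map_tmul]
      rfl
    have hT : D.mapBR φ (evT D R (T n)) = evT D R' (T n) := by
      rcases n with m | m
      · show D.mapBR φ (evT D R (T (m : ℤ))) = evT D R' (T (m : ℤ))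
        rw [evT_T_nat, evT_T_nat, map_pow, CurveData.mapBR_algebraMap₀, CurveData.mapAR_xR]
      · show D.mapBR φ (evT D R (T (-((m + 1 : ℕ) : ℤ)))) = evT D R' (T (-((m + 1 : ℕ) : ℤ)))
        rw [evT_T_neg, evT_T_neg, map_pow, CurveData.mapBR_algebraMap₁, CurveData.mapAR₁_yR]
    rw [map_mul, map_mul, map_mul, map_mul, mapLau_C, mapLau_T, evT_C, evT_C, hC, hT]

variable {σ : D.B →ₐ[k] Mat D R}

theorem IsChartHom.rho_evT (h : IsChartHom D σ) (f : R[T;T⁻¹]) :
    rho σ (evT D R f) = f • (1 : Mat D R) := by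
  induction f using LaurentPolynomial.induction_on' with
  | add p q hp hq => rw [map_add, map_add, hp, hq, add_smul]
  | C_mul_T n r =>
    have hT : rho σ (evT D R (T n)) = (T n : R[T;T⁻¹]) • (1 : Mat D R) := by
      rcases n with m | m
      · show rho σ (evT D R (T (m : ℤ))) = (T (m : ℤ) : R[T;T⁻¹]) • (1 : Mat D R)
        rw [evT_T_nat, map_pow, h.rho_xR, smul_pow, one_pow, T_pow, mul_one]
      · show rho σ (evT D R (T (-((m + 1 : ℕ) : ℤ)))) = (T (-((m + 1 : ℕ) : ℤ)) : R[T;T⁻¹]) • 1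
        rw [evT_T_neg, map_pow, h.rho_yR, smul_pow, one_pow, T_pow]
        congr 2
        ring
    rw [map_mul, map_mul, evT_C, AlgHom.commutes, hT, Algebra.algebraMap_eq_smul_one,
      smul_mul_assoc, one_mul, ← smul_assoc, smul_eq_C_mul]

theorem exists_eq_yR_smul (h : IsChartHom D σ) (v : negSub h)
    (hv : ∀ i, ((v : FrameMod σ) i).coeff (-1) = 0) :
    ∃ w : negSub h, v = D.yR R • w ∧
      ∀ i, ((w : FrameMod σ) i).coeff (-1) = ((v : FrameMod σ) i).coeff (-2) := by
  refine ⟨⟨fun i => T 1 * (v : FrameMod σ) i, fun i n hn => ?_⟩,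
    Subtype.ext (funext fun i => ?_), fun i => ?_⟩
  · show (T 1 * (v : FrameMod σ) i).coeff n = 0
    rw [mul_comm, coeff_mul_T]
    rcases eq_or_ne n 0 with rfl | hn0
    · exact hv i
    · exact v.2 i _ (by omega)
  · show (v : FrameMod σ) i = (D.yR R • (show FrameMod σ from fun i => T 1 * (v : FrameMod σ) i)) i
    rw [smul_frame_AR₁, ← pow_one (algebraMap (D.AR₁ R) (D.BR R) (D.yR R)), h.yB_pow_smul,
      Nat.cast_one]
    show (v : FrameMod σ) i = T (-1) * (T 1 * (v : FrameMod σ) i)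
    rw [← mul_assoc, T_neg_mul_T, one_mul]
  · show (T 1 * (v : FrameMod σ) i).coeff (-1) = _
    rw [mul_comm, coeff_mul_T]
    norm_num

section Data

variable (h : IsChartHom D σ) [Module.Invertible (D.AR R) (posSub h)]
  [Module.Invertible (D.AR₁ R) (negSub h)]

theorem rel_posVec (i : Fin D.d) : (chartData h).Rel 1 (posVec h i) (negVec h i) := by
  rw [chartData_rel_iff]
  refine funext fun j => ?_
  rw [h.yB_pow_smul]
  show _ * unitVec σ 0 i j = unitVec σ (-1) i j
  unfold unitVec
  split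
  · rw [← T_add]; norm_num
  · rw [mul_zero]

omit [Module.Invertible (D.AR R) (posSub h)] [Module.Invertible (D.AR₁ R) (negSub h)] in
theorem exists_t_pow_negVec (i : Fin D.d) : ∃ z : negSub h,
    (tR D R ^ (i : ℕ)) • negVec h ⟨0, D.d_pos⟩ = negVec h i + D.yR R • z := by
  obtain ⟨w, hw, -⟩ := exists_eq_yR_smul h
    (tR D R ^ (i : ℕ) • negVec h ⟨0, D.d_pos⟩ - negVec h i) fun j => by
    show ((((tR D R ^ (i : ℕ)) • unitVec σ (-1) ⟨0, D.d_pos⟩) j) -
      unitVec σ (-1) i j).coeff (-1) = 0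
    rw [AddMonoidAlgebra.coeff_sub, Finsupp.sub_apply, coeff_t_pow_smul h]
    unfold unitVec
    split <;> simp
  exact ⟨w, by rw [← hw, add_sub_cancel]⟩

omit [Module.Invertible (D.AR R) (posSub h)] [Module.Invertible (D.AR₁ R) (negSub h)] in
theorem exists_norm_negVec (s : Fin D.d) (hs : (s : ℕ) = D.d - 1) :
    ∃ (γ : R) (z : negSub h), (tR D R ^ (D.d - 1)) • negVec h ⟨0, D.d_pos⟩ =
      negVec h s + D.yR R • (γ • negVec h s + D.yR R • z) := by
  obtain ⟨w, hw, hw'⟩ := exists_eq_yR_smul h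
    (tR D R ^ (D.d - 1) • negVec h ⟨0, D.d_pos⟩ - negVec h s) fun j => by
    show ((((tR D R ^ (D.d - 1)) • unitVec σ (-1) ⟨0, D.d_pos⟩) j) -
      unitVec σ (-1) s j).coeff (-1) = 0
    rw [AddMonoidAlgebra.coeff_sub, Finsupp.sub_apply, ← hs, coeff_t_pow_smul h]
    unfold unitVec
    split <;> simp
  set γ : R := ((w : FrameMod σ) s).coeff (-1) with hγ
  obtain ⟨z, hz, -⟩ := exists_eq_yR_smul h (w - γ • negVec h s) fun j => by
    show ((w : FrameMod σ) j - γ • unitVec σ (-1) s j).coeff (-1) = 0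
    rw [AddMonoidAlgebra.coeff_sub, Finsupp.sub_apply, coeff_smul']
    by_cases hj : j = s
    · subst hj; simp [unitVec, hγ]
    · rw [hw' j]
      show ((((tR D R ^ (D.d - 1)) • unitVec σ (-1) ⟨0, D.d_pos⟩) j) -
        unitVec σ (-1) s j).coeff (-2) - _ = 0
      rw [Algebra.TensorProduct.tmul_pow, one_pow, smul_frame_AR₁, smul_frame_apply,
        Finset.sum_eq_single ⟨0, D.d_pos⟩ (fun l _ hl => by simp [unitVec, hl]) (by simp),
        CurveData.algebraMap_AR₁_tmul, rho_tmul, one_smul]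
      simp only [unitVec, if_true, if_neg hj, sub_zero]
      rw [coeff_mul_T, show (-2 : ℤ) - -1 = -1 by ring, h.norm j ⟨0, D.d_pos⟩ rfl (by
        have := j.isLt
        have : (j : ℕ) ≠ (s : ℕ) := fun e => hj (Fin.ext e)
        omega)]
      simp
  refine ⟨γ, z, ?_⟩
  rw [← hz, add_sub_cancel, ← hw, add_sub_cancel]

theorem sum_posVec_eq (b : D.BR R) (j : Fin D.d) :
    b • (chartData h).f₀ (posVec h j) =
      ∑ i, evT D R (rho σ b i j) • (chartData h).f₀ (posVec h i) := by
  refine (negEquiv h).injective ?_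
  rw [map_smul, negEquiv_f₀, map_sum,
    Finset.sum_congr rfl fun i _ => by rw [map_smul, negEquiv_f₀]]
  refine funext fun l => ?_
  rw [sum_frame_apply, smul_frame_apply, Finset.sum_eq_single j, Finset.sum_eq_single l]
  · rw [smul_frame_apply, Finset.sum_eq_single l, h.rho_evT]
    · simp [posVec, unitVec]
    · intro i _ hi; simp [h.rho_evT, hi.symm]
    · simp
  · intro i _ hi
    rw [smul_frame_apply]
    refine Finset.sum_eq_zero fun i' _ => ?_
    simp only [h.rho_evT, posVec, unitVec, Matrix.smul_apply, Matrix.one_apply]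
    by_cases h1 : l = i'
    · subst h1; simp [hi.symm]
    · simp [h1]
  · simp
  · intro i _ hi; simp [posVec, unitVec, hi]
  · simp

end Data

end Fermat.Agent.Jac.Chart
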