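import Mathlib.Algebra.Polynomial.Laurent
import Mathlib.Algebra.MonoidAlgebra.Basic
import Mathlib.Data.Matrix.Mul
import Mathlib.LinearAlgebra.Matrix.ToLin
import Mathlib.Order.Interval.Finset.Defs
import Mathlib.Data.Int.Interval

/-!
# Supports of Laurent polynomials

`LeSupp a f`: no term above degree `a`; `GeSupp a f`: no term below degree `a`.
-/

set_option autoImplicit false

universe u

noncomputable section

open LaurentPolynomial

namespace Fermat.Agent.Jac.Chart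

variable {k : Type u} [Field k] {R : Type u} [CommRing R]

/-- No term above degree `a`. -/
def LeSupp (a : ℤ) (f : R[T;T⁻¹]) : Prop := ∀ n, a < n → f.coeff n = 0

/-- No term below degree `a`. -/
def GeSupp (a : ℤ) (f : R[T;T⁻¹]) : Prop := ∀ n, n < a → f.coeff n = 0

theorem coeff_mul' (f g : R[T;T⁻¹]) (n : ℤ) :
    (f * g).coeff n = f.coeff.sum fun i r => g.coeff.sum fun j s => if i + j = n then r * s else 0 :=
  AddMonoidAlgebra.coeff_mul f g n

theorem LeSupp.mul {a b : ℤ} {f g : R[T;T⁻¹]} (hf : LeSupp a f) (hg : LeSupp b g) :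
    LeSupp (a + b) (f * g) := by
  intro n hn
  rw [coeff_mul']
  refine Finset.sum_eq_zero fun i hi => Finset.sum_eq_zero fun j hj => if_neg fun h => ?_
  have h1 : i ≤ a := not_lt.mp fun h' => Finsupp.mem_support_iff.mp hi (hf i h')
  have h2 : j ≤ b := not_lt.mp fun h' => Finsupp.mem_support_iff.mp hj (hg j h')
  omega

theorem GeSupp.mul {a b : ℤ} {f g : R[T;T⁻¹]} (hf : GeSupp a f) (hg : GeSupp b g) :
    GeSupp (a + b) (f * g) := by
  intro n hn
  rw [coeff_mul']
  refine Finset.sum_eq_zero fun i hi => Finset.sum_eq_zero fun j hj => if_neg fun h => ?_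
  have h1 : a ≤ i := not_lt.mp fun h' => Finsupp.mem_support_iff.mp hi (hf i h')
  have h2 : b ≤ j := not_lt.mp fun h' => Finsupp.mem_support_iff.mp hj (hg j h')
  omega

theorem LeSupp.coeff_mul_top {a b : ℤ} {f g : R[T;T⁻¹]} (hf : LeSupp a f) (hg : LeSupp b g) :
    (f * g).coeff (a + b) = f.coeff a * g.coeff b := by
  rw [coeff_mul']
  rw [Finsupp.sum, Finset.sum_eq_single a]
  · rw [Finsupp.sum, Finset.sum_eq_single b]
    · rw [if_pos rfl]
    · intro j hj hne
      refine if_neg fun h => hne ?_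
      omega
    · intro h
      rw [if_pos rfl, Finsupp.notMem_support_iff.mp h, mul_zero]
  · intro i hi hne
    refine Finset.sum_eq_zero fun j hj => if_neg fun h => hne ?_
    have h1 : i ≤ a := not_lt.mp fun h' => Finsupp.mem_support_iff.mp hi (hf i h')
    have h2 : j ≤ b := not_lt.mp fun h' => Finsupp.mem_support_iff.mp hj (hg j h')
    omega
  · intro h
    rw [Finsupp.notMem_support_iff.mp h]
    simp

theorem coeff_mul_T (f : R[T;T⁻¹]) (m n : ℤ) : (f * T m).coeff n = f.coeff (n - m) := by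
  rw [T, AddMonoidAlgebra.coeff_mul_single_eq_coeff_mul _ (fun i _ => eq_sub_iff_add_eq.symm),
    mul_one]

theorem coeff_C_mul (r : R) (f : R[T;T⁻¹]) (n : ℤ) : (C r * f).coeff n = r * f.coeff n := by
  rw [← smul_eq_C_mul]
  simp

theorem coeff_smul' (r : R) (f : R[T;T⁻¹]) (n : ℤ) : (r • f).coeff n = r * f.coeff n := by simp

theorem coeff_sum' {ι : Type*} (s : Finset ι) (f : ι → R[T;T⁻¹]) (n : ℤ) :
    (∑ i ∈ s, f i).coeff n = ∑ i ∈ s, (f i).coeff n := by
  simp [Finsupp.finsetSum_apply]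

theorem leSupp_zero (a : ℤ) : LeSupp a (0 : R[T;T⁻¹]) := fun _ _ => rfl

theorem geSupp_zero (a : ℤ) : GeSupp a (0 : R[T;T⁻¹]) := fun _ _ => rfl

theorem LeSupp.add {a : ℤ} {f g : R[T;T⁻¹]} (hf : LeSupp a f) (hg : LeSupp a g) :
    LeSupp a (f + g) := fun n hn => by simp [hf n hn, hg n hn]

theorem GeSupp.add {a : ℤ} {f g : R[T;T⁻¹]} (hf : GeSupp a f) (hg : GeSupp a g) :
    GeSupp a (f + g) := fun n hn => by simp [hf n hn, hg n hn]

theorem LeSupp.sum {a : ℤ} {ι : Type*} {s : Finset ι} {f : ι → R[T;T⁻¹]}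
    (hf : ∀ i ∈ s, LeSupp a (f i)) : LeSupp a (∑ i ∈ s, f i) := fun n hn => by
  rw [coeff_sum']; exact Finset.sum_eq_zero fun i hi => hf i hi n hn

theorem GeSupp.sum {a : ℤ} {ι : Type*} {s : Finset ι} {f : ι → R[T;T⁻¹]}
    (hf : ∀ i ∈ s, GeSupp a (f i)) : GeSupp a (∑ i ∈ s, f i) := fun n hn => by
  rw [coeff_sum']; exact Finset.sum_eq_zero fun i hi => hf i hi n hn

theorem LeSupp.mono {a b : ℤ} {f : R[T;T⁻¹]} (hf : LeSupp a f) (h : a ≤ b) : LeSupp b f :=
  fun n hn => hf n (by omega)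

theorem GeSupp.mono {a b : ℤ} {f : R[T;T⁻¹]} (hf : GeSupp a f) (h : b ≤ a) : GeSupp b f :=
  fun n hn => hf n (by omega)

theorem leSupp_T {a m : ℤ} (h : m ≤ a) : LeSupp a (T m : R[T;T⁻¹]) := fun n hn => by
  rw [T_apply, if_neg]; omega

theorem geSupp_T {a m : ℤ} (h : a ≤ m) : GeSupp a (T m : R[T;T⁻¹]) := fun n hn => by
  rw [T_apply, if_neg]; omega

theorem leSupp_C (r : R) : LeSupp 0 (C r) := fun n hn => by
  rw [C_apply, if_neg]; omega

theorem geSupp_C (r : R) : GeSupp 0 (C r) := fun n hn => by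
  rw [C_apply, if_neg]; omega

theorem leSupp_one : LeSupp 0 (1 : R[T;T⁻¹]) := by
  rw [← T_zero]; exact leSupp_T le_rfl

theorem geSupp_one : GeSupp 0 (1 : R[T;T⁻¹]) := by
  rw [← T_zero]; exact geSupp_T le_rfl

theorem coeff_one_zero : (1 : R[T;T⁻¹]).coeff 0 = 1 := by
  rw [← T_zero, T_apply, if_pos rfl]

/-- A Laurent polynomial supported in a window is the sum of its terms there. -/
theorem eq_sum_window {a b : ℤ} {f : R[T;T⁻¹]} (hf : GeSupp a f) (hf' : LeSupp b f) :
    f = ∑ n ∈ Finset.Icc a b, C (f.coeff n) * T n := by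
  refine LaurentPolynomial.ext fun m => ?_
  rw [coeff_sum']
  simp only [coeff_C_mul, T_apply, mul_ite, mul_one, mul_zero, Finset.sum_ite_eq', Finset.mem_Icc]
  by_cases h : a ≤ m ∧ m ≤ b
  · rw [if_pos h]
  · rw [if_neg h]
    rcases not_and_or.mp h with h | h
    · exact hf m (by omega)
    · exact hf' m (by omega)

theorem T_mul_T_neg (m : ℤ) : (T m : R[T;T⁻¹]) * T (-m) = 1 := by
  rw [← T_add, add_neg_cancel, T_zero]

theorem T_neg_mul_T (m : ℤ) : (T (-m) : R[T;T⁻¹]) * T m = 1 := by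
  rw [← T_add, neg_add_cancel, T_zero]

/-- A Laurent polynomial with no negative terms is a polynomial. -/
theorem exists_toLaurent_of_geSupp {f : R[T;T⁻¹]} (hf : GeSupp 0 f) :
    ∃ p : Polynomial R, Polynomial.toLaurent p = f := by
  refine ⟨∑ n ∈ f.coeff.support, Polynomial.C (f.coeff n) * Polynomial.X ^ n.toNat, ?_⟩
  rw [map_sum]
  simp only [map_mul, map_pow, Polynomial.toLaurent_C, Polynomial.toLaurent_X, T_pow, mul_one]
  refine LaurentPolynomial.ext fun m => ?_
  rw [coeff_sum', Finset.sum_eq_single m]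
  · rw [coeff_C_mul, T_apply]
    rcases lt_or_ge m 0 with h | h
    · simp [hf m h]
    · rw [if_pos (by omega), mul_one]
  · intro n hn hne
    rw [coeff_C_mul, T_apply]
    rw [if_neg, mul_zero]
    rcases lt_or_ge n 0 with h | h
    · exact fun _ => Finsupp.mem_support_iff.mp hn (hf n h)
    · omega
  · intro h
    rw [coeff_C_mul, Finsupp.notMem_support_iff.mp h, zero_mul]

section Map

variable [Algebra k R] {R' : Type u} [CommRing R'] [Algebra k R']

/-- Change of coefficients. -/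
def mapLau (φ : R →ₐ[k] R') : R[T;T⁻¹] →ₐ[k] R'[T;T⁻¹] := AddMonoidAlgebra.mapAlgHom ℤ φ

@[simp]
theorem coeff_mapLau (φ : R →ₐ[k] R') (f : R[T;T⁻¹]) (n : ℤ) :
    (mapLau φ f).coeff n = φ (f.coeff n) :=
  AddMonoidAlgebra.coeff_mapAlgHom φ f n

@[simp]
theorem mapLau_T (φ : R →ₐ[k] R') (n : ℤ) : mapLau φ (T n : R[T;T⁻¹]) = T n := by
  ext m
  simp [apply_ite φ]

@[simp]
theorem mapLau_C (φ : R →ₐ[k] R') (r : R) : mapLau φ (C r) = C (φ r) := by
  ext m
  simp [apply_ite φ]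

theorem LeSupp.map {a : ℤ} {f : R[T;T⁻¹]} (hf : LeSupp a f) (φ : R →ₐ[k] R') :
    LeSupp a (mapLau φ f) := fun n hn => by rw [coeff_mapLau, hf n hn, map_zero]

theorem GeSupp.map {a : ℤ} {f : R[T;T⁻¹]} (hf : GeSupp a f) (φ : R →ₐ[k] R') :
    GeSupp a (mapLau φ f) := fun n hn => by rw [coeff_mapLau, hf n hn, map_zero]

end Map

end Fermat.Agent.Jac.Chart
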