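import Fermat.Agent.Jac.Alg.Bounded
import Fermat.Agent.Jac.Alg.Hom
import Fermat.Agent.Jac.Chart.Laurent
import Mathlib.LinearAlgebra.Matrix.ToLin
import Mathlib.RingTheory.Filtration

/-!
# Frames: actions of the intersection ring on `R[T,T⁻¹] ^ d`

`IsChartHom D σ`: `σ : B → Mat_d(R[T,T⁻¹])` sends `A` to polynomials, `A₁` to polynomials in
`T⁻¹`, `x` to `T`, has the shift as constant term of `t` and is normalised.  Such `σ` act
faithfully.
-/

set_option autoImplicit false
set_option linter.style.haveILetI false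

universe u

noncomputable section

open LaurentPolynomial TensorProduct

namespace Fermat.Agent.Jac.Chart

variable {k : Type u} [Field k] (D : CurveData.{u} k) {R : Type u} [CommRing R] [Algebra k R]

/-- Matrices of Laurent polynomials of size `d`. -/
abbrev Mat (R : Type u) [CommRing R] : Type u := Matrix (Fin D.d) (Fin D.d) R[T;T⁻¹]

/-- The conditions on the action in a frame. -/
structure IsChartHom (σ : D.B →ₐ[k] Mat D R) : Prop where
  poly : ∀ a i j, GeSupp 0 (σ (D.i₀ a) i j)
  neg : ∀ b i j, LeSupp 0 (σ (D.i₁ b) i j)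
  map_x : σ (D.i₀ D.x) = (T 1 : R[T;T⁻¹]) • (1 : Mat D R)
  shift : ∀ i j, (σ (D.i₁ D.t) i j).coeff 0 = if (i : ℕ) = (j : ℕ) + 1 then 1 else 0
  norm : ∀ i j : Fin D.d, (j : ℕ) = 0 → (i : ℕ) + 1 < D.d →
    (σ (D.i₁ (D.t ^ (D.d - 1))) i j).coeff (-1) = 0

variable {D} {σ : D.B →ₐ[k] Mat D R}

theorem IsChartHom.map_y (h : IsChartHom D σ) :
    σ (D.i₁ D.y) = (T (-1) : R[T;T⁻¹]) • (1 : Mat D R) := by
  have h1 : σ (D.i₀ D.x) * σ (D.i₁ D.y) = 1 := by rw [← map_mul, D.xy, map_one]
  rw [h.map_x, smul_mul_assoc, one_mul] at h1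
  have h2 := congrArg (fun z => (T (-1) : R[T;T⁻¹]) • z) h1
  simp only [smul_smul] at h2
  rwa [← T_add, neg_add_cancel, T_zero, one_smul] at h2

/-- A chart hom after change of coefficients. -/
theorem IsChartHom.map {R' : Type u} [CommRing R'] [Algebra k R'] (h : IsChartHom D σ)
    (φ : R →ₐ[k] R') : IsChartHom D ((mapLau φ).mapMatrix.comp σ) where
  poly a i j := (h.poly a i j).map φ
  neg b i j := (h.neg b i j).map φ
  map_x := by
    rw [AlgHom.comp_apply, h.map_x]
    ext i j : 2
    simp [Matrix.one_apply, apply_ite (mapLau φ)]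
  shift i j := by
    show (mapLau φ (σ (D.i₁ D.t) i j)).coeff 0 = _
    rw [coeff_mapLau, h.shift i j, apply_ite φ, map_one, map_zero]
  norm i j hj hi := by
    show (mapLau φ (σ (D.i₁ (D.t ^ (D.d - 1))) i j)).coeff (-1) = _
    rw [coeff_mapLau, h.norm i j hj hi, map_zero]

variable (σ) in
/-- The action of the intersection ring over `R`. -/
def rho : D.BR R →ₐ[R] Mat D R :=
  Algebra.TensorProduct.lift (Algebra.ofId R (Mat D R)) σ fun r b => (show Commute (algebraMap R (Mat D R) r) (σ b) from Algebra.commutes r (σ b))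

theorem rho_tmul (r : R) (b : D.B) : rho σ (r ⊗ₜ b) = r • σ b := by
  show Algebra.TensorProduct.lift _ _ _ (r ⊗ₜ b) = _
  refine (Algebra.TensorProduct.lift_tmul ..).trans ?_
  rw [Algebra.ofId_apply, Algebra.smul_def]

theorem IsChartHom.rho_poly (h : IsChartHom D σ) (a : D.AR R) (i j : Fin D.d) :
    GeSupp 0 (rho σ (algebraMap (D.AR R) (D.BR R) a) i j) := by
  induction a using TensorProduct.induction_on with
  | zero => rw [map_zero, map_zero]; exact geSupp_zero 0
  | tmul r a =>
    intro n hn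
    rw [CurveData.algebraMap_AR_tmul, rho_tmul, Matrix.smul_apply, coeff_smul', h.poly a i j n hn,
      mul_zero]
  | add p q hp hq => rw [map_add, map_add, Matrix.add_apply]; exact hp.add hq

theorem IsChartHom.rho_neg (h : IsChartHom D σ) (b : D.AR₁ R) (i j : Fin D.d) :
    LeSupp 0 (rho σ (algebraMap (D.AR₁ R) (D.BR R) b) i j) := by
  induction b using TensorProduct.induction_on with
  | zero => rw [map_zero, map_zero]; exact leSupp_zero 0
  | tmul r a =>
    intro n hn
    rw [CurveData.algebraMap_AR₁_tmul, rho_tmul, Matrix.smul_apply, coeff_smul',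
      h.neg a i j n hn, mul_zero]
  | add p q hp hq => rw [map_add, map_add, Matrix.add_apply]; exact hp.add hq

theorem IsChartHom.rho_xR (h : IsChartHom D σ) :
    rho σ (algebraMap (D.AR R) (D.BR R) (D.xR R)) = (T 1 : R[T;T⁻¹]) • (1 : Mat D R) := by
  rw [CurveData.algebraMap_AR_tmul, rho_tmul, one_smul, h.map_x]

theorem IsChartHom.rho_yR (h : IsChartHom D σ) :
    rho σ (algebraMap (D.AR₁ R) (D.BR R) (D.yR R)) = (T (-1) : R[T;T⁻¹]) • (1 : Mat D R) := by
  rw [CurveData.algebraMap_AR₁_tmul, rho_tmul, one_smul, h.map_y]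

/-- The constant term of the action on the chart at `ε`. -/
def lead (h : IsChartHom D σ) : D.AR₁ R →ₐ[R] Matrix (Fin D.d) (Fin D.d) R where
  toFun b := Matrix.of fun i j => (rho σ (algebraMap (D.AR₁ R) (D.BR R) b) i j).coeff 0
  map_one' := by
    ext i j
    rw [Matrix.of_apply, map_one, map_one, Matrix.one_apply, Matrix.one_apply]
    split
    · exact coeff_one_zero
    · rfl
  map_mul' a b := by
    ext i j
    rw [Matrix.of_apply, map_mul, map_mul, Matrix.mul_apply, Matrix.mul_apply, coeff_sum']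
    refine Finset.sum_congr rfl fun l _ => ?_
    simpa using (h.rho_neg a i l).coeff_mul_top (h.rho_neg b l j)
  map_zero' := by ext i j; simp
  map_add' a b := by ext i j; simp
  commutes' r := by
    ext i j
    rw [Matrix.of_apply, ← IsScalarTower.algebraMap_apply R (D.AR₁ R) (D.BR R), AlgHom.commutes,
      Matrix.algebraMap_matrix_apply, Matrix.algebraMap_matrix_apply]
    split
    · rw [← C_eq_algebraMap, C_apply, if_pos rfl]; rfl
    · rfl

theorem lead_apply (h : IsChartHom D σ) (b : D.AR₁ R) (i j : Fin D.d) :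
    lead h b i j = (rho σ (algebraMap (D.AR₁ R) (D.BR R) b) i j).coeff 0 := rfl

theorem lead_yR (h : IsChartHom D σ) : lead h (D.yR R) = 0 := by
  ext i j
  rw [lead_apply, h.rho_yR, Matrix.smul_apply, Matrix.one_apply]
  split <;> simp

/-- The shift matrix. -/
def shiftMat (n : ℕ) (R : Type u) [CommRing R] (i : ℕ) : Matrix (Fin n) (Fin n) R :=
  Matrix.of fun a b => if (a : ℕ) = (b : ℕ) + i then 1 else 0

theorem lead_t_pow (h : IsChartHom D σ) (n : ℕ) :
    lead h (((1 : R) ⊗ₜ[k] D.t) ^ n) = shiftMat D.d R n := by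
  induction n with
  | zero =>
    rw [pow_zero, map_one]
    ext a b
    simp [shiftMat, Matrix.one_apply, Fin.ext_iff]
  | succ n ih =>
    rw [pow_succ, map_mul, ih]
    ext a b
    rw [Matrix.mul_apply]
    have hl : ∀ c, lead h ((1 : R) ⊗ₜ[k] D.t) c b = if (c : ℕ) = (b : ℕ) + 1 then 1 else 0 :=
      fun c => by
        rw [lead_apply, CurveData.algebraMap_AR₁_tmul, rho_tmul, one_smul, h.shift]
    simp only [hl, shiftMat, Matrix.of_apply, mul_ite, mul_one, mul_zero]
    by_cases hb : (b : ℕ) + 1 < D.d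
    · rw [Finset.sum_eq_single ⟨(b : ℕ) + 1, hb⟩ (fun c _ hc => if_neg fun e => hc (Fin.ext e))
        (fun hc => absurd (Finset.mem_univ _) hc), if_pos rfl]
      refine if_congr ?_ rfl rfl
      show (a : ℕ) = (b : ℕ) + 1 + n ↔ _
      omega
    · rw [Finset.sum_eq_zero fun c _ => if_neg (by omega), if_neg (by omega)]

/-- Every element of the chart at `ε` is a combination of jets plus a multiple of `y`. -/
theorem exists_jets (z : D.AR₁ R) : ∃ (c : Fin D.d → R) (z' : D.AR₁ R),
    z = ∑ i, c i • ((1 : R) ⊗ₜ[k] D.t) ^ (i : ℕ) + D.yR R * z' := by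
  induction z using TensorProduct.induction_on with
  | zero => exact ⟨0, 0, by simp⟩
  | tmul r b =>
    obtain ⟨c, hc⟩ := D.basis_jets.2 (Ideal.Quotient.mk _ b)
    obtain ⟨b', hb'⟩ := Ideal.mem_span_singleton'.mp (Ideal.Quotient.eq.mp hc.symm)
    refine ⟨fun i => c i • r, r ⊗ₜ b', ?_⟩
    have hb : b = ∑ i, algebraMap k D.A₁ (c i) * D.t ^ (i : ℕ) + D.y * b' := by
      rw [mul_comm D.y, hb', add_sub_cancel]
    conv_lhs => rw [hb]
    rw [tmul_add, TensorProduct.tmul_sum]
    congr 1
    · refine Finset.sum_congr rfl fun i _ => ?_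
      rw [Algebra.TensorProduct.tmul_pow, one_pow, TensorProduct.smul_tmul', smul_eq_mul, mul_one,
        ← Algebra.smul_def, TensorProduct.tmul_smul, TensorProduct.smul_tmul']
    · rw [Algebra.TensorProduct.tmul_mul_tmul, one_mul]
  | add p q hp hq =>
    obtain ⟨c, p', hp⟩ := hp
    obtain ⟨c', q', hq⟩ := hq
    refine ⟨c + c', p' + q', ?_⟩
    rw [hp, hq, mul_add]
    simp only [Pi.add_apply, add_smul, Finset.sum_add_distrib]
    abel

theorem lead_jets (h : IsChartHom D σ) (c : Fin D.d → R) (z' : D.AR₁ R) :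
    lead h (∑ i, c i • ((1 : R) ⊗ₜ[k] D.t) ^ (i : ℕ) + D.yR R * z') =
      ∑ i : Fin D.d, c i • shiftMat D.d R (i : ℕ) := by
  rw [map_add, map_mul, lead_yR h, zero_mul, add_zero, map_sum]
  exact Finset.sum_congr rfl fun i _ => by rw [map_smul, lead_t_pow h]

theorem evR_tmul (r : R) (b : D.A₁) : D.evR (R := R) (r ⊗ₜ b) = D.ev b • r := by
  rw [CurveData.evR, Algebra.TensorProduct.lift_tmul, Algebra.smul_def, mul_comm]
  rfl

theorem evR_yR : D.evR (R := R) (D.yR R) = 0 := by rw [evR_tmul, D.ev_y, zero_smul]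

/-- The first row of the constant term is evaluation at `ε`. -/
theorem lead_zero_row (h : IsChartHom D σ) (z : D.AR₁ R) (j : Fin D.d) :
    lead h z ⟨0, D.d_pos⟩ j = if (j : ℕ) = 0 then D.evR z else 0 := by
  obtain ⟨c, z', rfl⟩ := exists_jets z
  rw [lead_jets h, Matrix.sum_apply, map_add, map_mul, evR_yR, zero_mul, add_zero, map_sum]
  have he : ∀ i : Fin D.d, D.evR (R := R) (c i • ((1 : R) ⊗ₜ[k] D.t) ^ (i : ℕ)) =
      if (i : ℕ) = 0 then c i else 0 := fun i => by
    rw [map_smul, map_pow, evR_tmul, D.ev_t, zero_smul]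
    split_ifs with hi
    · rw [hi, pow_zero, smul_eq_mul, mul_one]
    · rw [zero_pow hi, smul_zero]
  simp only [he, Matrix.smul_apply, shiftMat, Matrix.of_apply, smul_eq_mul, mul_ite, mul_one,
    mul_zero]
  have h0 : ∀ i : Fin D.d, ((0 : ℕ) = (j : ℕ) + i) ↔ ((j : ℕ) = 0 ∧ (i : ℕ) = 0) := fun i => by
    omega
  simp only [h0]
  split_ifs with hj
  · simp [hj]
  · simp [hj]

/-- An element killing the first basis vector is zero. -/
theorem IsChartHom.eq_zero_of_col (h : IsChartHom D σ) {z : D.BR R}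
    (hz : ∀ i, rho σ z i ⟨0, D.d_pos⟩ = 0) : z = 0 := by
  have key : ∀ z : D.AR₁ R,
      (∀ i, rho σ (algebraMap (D.AR₁ R) (D.BR R) z) i ⟨0, D.d_pos⟩ = 0) →
      ∀ n, ∃ z', z = D.yR R ^ n * z' := by
    intro z hz n
    induction n with
    | zero => exact ⟨z, by rw [pow_zero, one_mul]⟩
    | succ n ih =>
      obtain ⟨w, rfl⟩ := ih
      have hw : ∀ i, rho σ (algebraMap (D.AR₁ R) (D.BR R) w) i ⟨0, D.d_pos⟩ = 0 := fun i => by
        have hi := hz i
        rw [map_mul, map_mul, map_pow, map_pow, h.rho_yR, smul_pow, one_pow, smul_mul_assoc,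
          one_mul, T_pow, Matrix.smul_apply, smul_eq_mul] at hi
        exact ((isUnit_T _).mul_right_eq_zero).mp hi
      obtain ⟨c, w', hw'⟩ := exists_jets w
      have hc : ∀ i, c i = 0 := fun i => by
        have h1 : lead h w i ⟨0, D.d_pos⟩ = 0 := by
          rw [lead_apply, hw]; rfl
        rw [hw', lead_jets h, Matrix.sum_apply] at h1
        simp only [Matrix.smul_apply, shiftMat, Matrix.of_apply, zero_add, smul_eq_mul, mul_ite,
          mul_one, mul_zero, ← Fin.ext_iff, Finset.sum_ite_eq, Finset.mem_univ, if_true] at h1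
        exact h1
      refine ⟨w', ?_⟩
      rw [hw', pow_succ, mul_assoc]
      simp [hc]
  classical
  have hzero : ∀ z : D.AR₁ R,
      (∀ i, rho σ (algebraMap (D.AR₁ R) (D.BR R) z) i ⟨0, D.d_pos⟩ = 0) → z = 0 := by
    intro z hz
    let e := Module.Basis.ofVectorSpace k R
    refine (TensorProduct.equivFinsuppOfBasisLeft e (N := D.A₁)).injective ?_
    refine Finsupp.ext fun i => ?_
    rw [map_zero, Finsupp.zero_apply]
    have hmem : ∀ n, TensorProduct.equivFinsuppOfBasisLeft e z i ∈ Ideal.span {D.y} ^ n := by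
      intro n
      obtain ⟨z', rfl⟩ := key z hz n
      rw [Ideal.span_singleton_pow, Ideal.mem_span_singleton]
      clear hz
      induction z' using TensorProduct.induction_on with
      | zero => simp
      | tmul r b =>
        rw [Algebra.TensorProduct.tmul_pow, one_pow, Algebra.TensorProduct.tmul_mul_tmul, one_mul,
          TensorProduct.equivFinsuppOfBasisLeft_apply_tmul_apply, Algebra.smul_def]
        exact dvd_mul_of_dvd_right (dvd_mul_right _ _) _
      | add p q hp hq =>
        rw [mul_add, map_add, Finsupp.add_apply]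
        exact dvd_add hp hq
    have hne : Ideal.span {D.y} ≠ ⊤ := fun htop => by
      have hy := Ideal.span_singleton_eq_top.mp htop
      exact not_isUnit_zero (D.ev_y ▸ hy.map D.ev)
    have hb : (⊥ : Ideal D.A₁) = ⨅ n, Ideal.span {D.y} ^ n :=
      (Ideal.iInf_pow_eq_bot_of_isDomain _ hne).symm
    rw [← Submodule.mem_bot D.A₁, hb]
    exact (Submodule.mem_iInf _).mpr hmem
  obtain ⟨n, b, hb⟩ := IsLocalization.Away.surj (D.yR R) z
  have hb0 : b = 0 := hzero b fun i => by
    rw [← hb, mul_comm, map_mul, map_pow, h.rho_yR, smul_pow, one_pow, smul_mul_assoc, one_mul,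
      Matrix.smul_apply, hz i, smul_zero]
  rw [hb0, map_zero] at hb
  have hu : IsUnit (algebraMap (D.AR₁ R) (D.BR R) (D.yR R) ^ n) :=
    (IsLocalization.Away.algebraMap_isUnit (D.yR R)).pow n
  exact hu.mul_left_eq_zero.mp hb

/-- The action is faithful. -/
theorem IsChartHom.injective_rho (h : IsChartHom D σ) : Function.Injective (rho σ) := by
  rw [injective_iff_map_eq_zero]
  intro z hz
  exact h.eq_zero_of_col fun i => by rw [hz]; rfl

end Fermat.Agent.Jac.Chart
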