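import Fermat.Agent.Jac.Chart.ChartFacts
import Fermat.Agent.Jac.Alg.BaseChange

/-!
# Pullbacks of the line data of a chart hom

If `L` has no cohomology and `G` is a normalised generator, the line data of `σ` pulls back to `L`
along `φ` exactly when `φ` sends `σ` to the chart hom of the frame of `G`.
-/

set_option autoImplicit false
set_option linter.style.haveILetI false

universe u

noncomputable section

open LaurentPolynomial TensorProduct

namespace Fermat.Agent.Jac.Chart

variable {k : Type u} [Field k] {D : CurveData.{u} k} {U R : Type u} [CommRing U] [Algebra k U]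
  [CommRing R] [Algebra k R] {σ : D.B →ₐ[k] Mat D U} (h : IsChartHom D σ)
  {L : LineData D R} (hL : Function.Bijective L.δ)
  {g : L.N →ₛₗ[(D.evR (R := R)).toRingHom] R} {G : L.N}

theorem span_range_semilinear {S S' M M' ι : Type*} [CommRing S] [CommRing S'] [AddCommGroup M]
    [Module S M] [AddCommGroup M'] [Module S' M'] {ν : S →+* S'} (f : M →ₛₗ[ν] M') {v : ι → M}
    (hv : Submodule.span S (Set.range v) = ⊤) (hf : Submodule.span S' (Set.range f) = ⊤) :
    Submodule.span S' (Set.range fun i => f (v i)) = ⊤ := by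
  rw [eq_top_iff, ← hf, Submodule.span_le]
  rintro _ ⟨z, rfl⟩
  have hz : z ∈ Submodule.span S (Set.range v) := hv ▸ Submodule.mem_top
  induction hz using Submodule.span_induction with
  | mem w hw => obtain ⟨i, rfl⟩ := hw; exact Submodule.subset_span ⟨i, rfl⟩
  | zero => simp
  | add a b _ _ ha hb => rw [map_add]; exact add_mem ha hb
  | smul a b _ hb => rw [map_smulₛₗ]; exact Submodule.smul_mem _ _ hb

theorem norm_identity {S M : Type*} [CommRing S] [AddCommGroup M] [Module S M] (a c y : S)
    (N Z : M) : a • (N + y • (c • N + y • Z)) - a • N =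
      y • c • a • (N + y • (c • N + y • Z)) + y • y • (a • Z - c • a • (c • N + y • Z)) := by
  module

section Frame

variable (hG : g G = 1)
include hG

theorem frameMat_eq_rho (z : D.BR R) : frameMat hL hG z = rho (frameHom hL hG) z := by
  refine frameMat_unique hL hG fun j => ?_
  induction z using TensorProduct.induction_on with
  | zero =>
    rw [map_zero, zero_smul]
    exact (map_zero (theta hL G)).symm
  | tmul r b =>
    rw [rho_tmul, show (r ⊗ₜ[k] b : D.BR R) = r • ((1 : R) ⊗ₜ[k] b) by
      rw [smul_tmul', smul_eq_mul, mul_one], smul_assoc, ← frameHom_col hL hG, ← map_smul]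
    rfl
  | add p q hp hq =>
    rw [map_add, add_smul, hp, hq, ← map_add]
    rfl

end Frame

/-- The frame map on a frame. -/
def frameTheta (G : L.N) (τ : D.B →ₐ[k] Mat D R) (w : FrameMod τ) : L.P := theta hL G w

theorem frameTheta_smul {τ : D.B →ₐ[k] Mat D R} (hG : g G = 1) (hτ : frameHom hL hG = τ)
    (z : D.BR R) (w : FrameMod τ) :
    frameTheta hL G τ (z • w) = z • frameTheta hL G τ w := by
  subst hτ
  exact (congrArg (fun M => theta hL G (Matrix.mulVec M w))
    (frameMat_eq_rho hL hG z).symm).trans (smul_theta hL hG z w).symm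

variable (G) (φ : U →ₐ[k] R)

/-- The image in `L` of a vector. -/
def frameImage (v : FrameMod σ) : L.P := frameTheta hL G (mapHom φ σ) (mapFrame φ σ v)

theorem frameImage_add (v w : FrameMod σ) :
    frameImage hL G φ (v + w) = frameImage hL G φ v + frameImage hL G φ w := by
  rw [frameImage, mapFrame_add]
  exact map_add (theta hL G) _ _

variable {G φ}

theorem frameImage_smul (hG : g G = 1) (hφ : mapHom φ σ = frameHom hL hG) (b : D.BR U)
    (v : FrameMod σ) : frameImage hL G φ (b • v) = D.mapBR φ b • frameImage hL G φ v := by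
  rw [frameImage, mapFrame_smul, frameTheta_smul hL hG hφ.symm]
  rfl

theorem f₀_part₀_frameImage (v : posSub h) :
    L.f₀ (part₀ hL (frameImage hL G φ (v : FrameMod σ))) =
      frameImage hL G φ (v : FrameMod σ) := by
  obtain ⟨m, -, hm⟩ := theta_pos hL G (v := mapFrame φ σ (v : FrameMod σ)) fun i => (v.2 i).map φ
  have e : L.f₀ m + L.f₁ 0 = frameImage hL G φ (v : FrameMod σ) := by
    rw [map_zero, add_zero]; exact hm.symm
  rw [(part₁_eq_of_eq hL e).1]
  exact hm.symm

theorem f₁_part₁_frameImage (v : negSub h) :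
    L.f₁ (part₁ hL (frameImage hL G φ (v : FrameMod σ))) =
      frameImage hL G φ (v : FrameMod σ) := by
  obtain ⟨n, hn, -⟩ := theta_neg hL G (v := mapFrame φ σ (v : FrameMod σ)) fun i => (v.2 i).map φ
  have e : L.f₀ 0 + L.f₁ n = frameImage hL G φ (v : FrameMod σ) := by
    rw [map_zero, zero_add]; exact hn.symm
  rw [(part₁_eq_of_eq hL e).2]
  exact hn.symm

variable [Module.Invertible (D.AR U) (posSub h)] [Module.Invertible (D.AR₁ U) (negSub h)]

/-- The comparison on `C ∖ ε`. -/
def frameGM (hG : g G = 1) (hφ : mapHom φ σ = frameHom hL hG) :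
    (chartData h).M →ₛₗ[(D.mapAR φ).toRingHom] L.M where
  toFun := fun v : posSub h => part₀ hL (frameImage hL G φ (v : FrameMod σ))
  map_add' := fun v w : posSub h =>
    (congrArg (part₀ hL) (frameImage_add hL G φ (v : FrameMod σ) w)).trans (map_add _ _ _)
  map_smul' := fun a (v : posSub h) => L.f₀_injective (by
    rw [L.f₀_smul, f₀_part₀_frameImage, f₀_part₀_frameImage]
    show frameImage hL G φ (a • (v : FrameMod σ)) = _
    rw [smul_frame_AR, frameImage_smul hL hG hφ, CurveData.mapBR_algebraMap₀]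
    rfl)

/-- The comparison at `ε`. -/
def frameGN (hG : g G = 1) (hφ : mapHom φ σ = frameHom hL hG) :
    (chartData h).N →ₛₗ[(D.mapAR₁ φ).toRingHom] L.N where
  toFun := fun v : negSub h => part₁ hL (frameImage hL G φ (v : FrameMod σ))
  map_add' := fun v w : negSub h =>
    (congrArg (part₁ hL) (frameImage_add hL G φ (v : FrameMod σ) w)).trans (map_add _ _ _)
  map_smul' := fun a (v : negSub h) => L.f₁_injective (by
    rw [L.f₁_smul, f₁_part₁_frameImage, f₁_part₁_frameImage]
    show frameImage hL G φ (a • (v : FrameMod σ)) = _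
    rw [smul_frame_AR₁, frameImage_smul hL hG hφ, CurveData.mapBR_algebraMap₁]
    rfl)

theorem span_frameGM (hG : g G = 1) (hφ : mapHom φ σ = frameHom hL hG) :
    Submodule.span (D.AR R) (Set.range (frameGM h hL hG hφ)) = ⊤ := by
  have hbas : ∀ i, frameGM h hL hG hφ (posVec h i) = bas₀ hL G i := fun i => L.f₀_injective (by
    show L.f₀ (part₀ hL (frameImage hL G φ (posVec h i : FrameMod σ))) = _
    rw [f₀_part₀_frameImage]
    show theta hL G (fun j => mapLau φ (unitVec σ 0 i j)) = _
    rw [show (fun j => mapLau φ (unitVec σ 0 i j)) = Pi.single i (1 : R[T;T⁻¹]) by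
      funext j; by_cases hj : j = i <;> simp [unitVec, hj], theta_single, map_one, one_smul])
  rw [eq_top_iff]
  intro m _
  obtain ⟨v, hv, hv'⟩ := exists_pos_preimage hL hG m
  obtain ⟨m', hm', e⟩ := theta_pos hL G hv
  rw [L.f₀_injective (hv'.symm.trans e)]
  refine Submodule.span_le.mpr ?_ hm'
  rintro _ ⟨i, rfl⟩
  exact Submodule.subset_span ⟨posVec h i, hbas i⟩

theorem span_frameGN (hG : g G = 1) (hφ : mapHom φ σ = frameHom hL hG) :
    Submodule.span (D.AR₁ R) (Set.range (frameGN h hL hG hφ)) = ⊤ := by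
  have hbas : ∀ i, frameGN h hL hG hφ (negVec h i) = bas₁ hL G i := fun i => L.f₁_injective (by
    show L.f₁ (part₁ hL (frameImage hL G φ (negVec h i : FrameMod σ))) = _
    rw [f₁_part₁_frameImage]
    show theta hL G (fun j => mapLau φ (unitVec σ (-1) i j)) = _
    rw [show (fun j => mapLau φ (unitVec σ (-1) i j)) =
        Pi.single i (T (-((1 : ℕ) : ℤ)) : R[T;T⁻¹]) by
      funext j; by_cases hj : j = i <;> simp [unitVec, hj], theta_single, evT_T_neg, pow_one,
      yB_f₀_bas₀])
  rw [eq_top_iff]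
  intro n _
  obtain ⟨v, hv, hv'⟩ := exists_neg_preimage hL hG n
  obtain ⟨n', e, -, hn'⟩ := theta_neg hL G hv
  rw [L.f₁_injective (hv'.symm.trans e)]
  refine Submodule.span_le.mpr ?_ hn'
  rintro _ ⟨i, rfl⟩
  exact Submodule.subset_span ⟨negVec h i, hbas i⟩

/-- The line data of `σ` pulls back to `L`. -/
def framePullback (hG : g G = 1) (hφ : mapHom φ σ = frameHom hL hG) :
    LineData.Pullback φ (chartData h) L where
  gM := frameGM h hL hG hφ
  gN := frameGN h hL hG hφ
  spanM := span_frameGM h hL hG hφ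
  spanN := span_frameGN h hL hG hφ
  rel j m n hmn := by
    rw [chartData_rel_iff] at hmn
    show _ • L.f₀ (part₀ hL (frameImage hL G φ (m : FrameMod σ))) =
      L.f₁ (part₁ hL (frameImage hL G φ (n : FrameMod σ)))
    rw [f₀_part₀_frameImage, f₁_part₁_frameImage, ← hmn, frameImage_smul hL hG hφ, map_pow,
      CurveData.mapBR_algebraMap₁, CurveData.mapAR₁_yR]

theorem gN_smul (p : LineData.Pullback φ (chartData h) L) (r : U) (n : (chartData h).N) :
    p.gN (r • n) = φ r • p.gN n := by
  rw [← algebraMap_smul (D.AR₁ U) r n, map_smulₛₗ, ← algebraMap_smul (D.AR₁ R) (φ r)]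
  congr 1

/-- A point along which the line data of `σ` pulls back to `L` sends `σ` to the frame. -/
theorem mapHom_eq_frameHom (hg : Function.Surjective g) (hn : Normalised hL g G)
    (p : LineData.Pullback φ (chartData h) L) : mapHom φ σ = frameHom hL hn.g_eq := by
  set n' : Fin D.d → L.N := fun i => p.gN (negVec h i) with hn'
  set m' : Fin D.d → L.M := fun i => p.gM (posVec h i) with hm'
  have hrel : ∀ i, mu hL (n' i) = m' i ∧ star hL (n' i) = n' i := fun i =>
    eq_of_rel hL (p.rel 1 _ _ (rel_posVec h i))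
  have htR : D.mapAR₁ φ (tR D U) = tR D R := by
    show φ 1 ⊗ₜ[k] D.t = _
    rw [map_one]
  let zero : Fin D.d := ⟨0, D.d_pos⟩
  have ht : ∀ i : Fin D.d, ModY L (tR D R ^ (i : ℕ) • n' zero) (n' i) := fun i => by
    obtain ⟨z, hz⟩ := exists_t_pow_negVec h i
    have e := congrArg p.gN hz
    rw [map_smulₛₗ, map_add, map_smulₛₗ] at e
    change D.mapAR₁ φ (tR D U ^ (i : ℕ)) • n' zero = n' i + D.mapAR₁ φ (D.yR U) • p.gN z at e
    rw [map_pow, htR, CurveData.mapAR₁_yR] at e
    exact ModY.of_eq_add e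
  obtain ⟨v, hv⟩ : ∃ v : R, v * g (n' zero) = 1 := by
    have hall : ∀ n : L.N, ∃ c : R, g n = c * g (n' zero) := by
      intro n
      have hmem : n ∈ Submodule.span (D.AR₁ R) (Set.range n') :=
        (span_range_semilinear p.gN (span_negVec h) p.spanN) ▸ Submodule.mem_top
      induction hmem using Submodule.span_induction with
      | mem w hw =>
        obtain ⟨i, rfl⟩ := hw
        obtain ⟨z, hz⟩ := (ht i).symm
        rw [sub_eq_iff_eq_add] at hz
        refine ⟨D.evR (tR D R ^ (i : ℕ)), ?_⟩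
        rw [hz, map_add, map_smulₛₗ, map_smulₛₗ]
        show D.evR (D.yR R) * g z + D.evR (tR D R ^ (i : ℕ)) * _ = _
        rw [evR_yR, zero_mul, zero_add]
      | zero => exact ⟨0, by rw [map_zero, zero_mul]⟩
      | add a b _ _ ha hb =>
        obtain ⟨c, hc⟩ := ha
        obtain ⟨c', hc'⟩ := hb
        exact ⟨c + c', by rw [map_add, hc, hc', add_mul]⟩
      | smul a b _ hb =>
        obtain ⟨c, hc⟩ := hb
        refine ⟨D.evR a * c, ?_⟩
        rw [map_smulₛₗ, hc]
        exact (mul_assoc _ _ _).symm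
    obtain ⟨n, hn1⟩ := hg 1
    obtain ⟨c, hc⟩ := hall n
    exact ⟨c, hc.symm.trans hn1⟩
  set u := g (n' zero)
  let s : Fin D.d := ⟨D.d - 1, by have := D.d_pos; omega⟩
  have hG' : Normalised hL g (v • n' zero) := by
    refine ⟨?_, ?_⟩
    · rw [← algebraMap_smul (D.AR₁ R) v, map_smulₛₗ]
      show D.evR (algebraMap R (D.AR₁ R) v) * u = 1
      rw [AlgHom.commutes]
      exact hv
    · obtain ⟨γ, z, hz⟩ := exists_norm_negVec h s rfl
      have e := congrArg p.gN hz
      rw [map_smulₛₗ, map_add, map_smulₛₗ, map_add, gN_smul, map_smulₛₗ] at e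
      change D.mapAR₁ φ (tR D U ^ (D.d - 1)) • n' zero =
        n' s + D.mapAR₁ φ (D.yR U) • (φ γ • n' s + D.mapAR₁ φ (D.yR U) • p.gN z) at e
      rw [map_pow, htR, CurveData.mapAR₁_yR] at e
      refine ⟨φ γ, v • p.gN z - φ γ • v • (φ γ • n' s + D.yR R • p.gN z), ?_⟩
      rw [map_smul, (hrel zero).2, smul_comm (tR D R ^ (D.d - 1)) v (n' zero), map_smul,
        (mu_star_congr hL (ht s)).2, (hrel s).2, e]
      simp only [← algebraMap_smul (D.AR₁ R) v, ← algebraMap_smul (D.AR₁ R) (φ γ)]
      exact norm_identity _ _ _ _ _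
  have h0 : ModY L (n' zero) (u • G) := by
    have e := (normalised_unique hL hn hG').smul (algebraMap R (D.AR₁ R) u)
    rwa [algebraMap_smul, algebraMap_smul, smul_smul, mul_comm, hv, one_smul] at e
  have hbas : ∀ i, m' i = u • bas₀ hL G i := fun i => by
    have e := ((ht i).symm.trans (h0.smul _))
    rw [smul_comm] at e
    rw [← (hrel i).1, (mu_star_congr hL e).1, map_smul]
    rfl
  let : Algebra U R := φ.toRingHom.toAlgebra
  have : IsScalarTower k U R := IsScalarTower.of_algebraMap_eq fun c => (φ.commutes c).symm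
  let q : LineData.Pullback (IsScalarTower.toAlgHom k U R) (chartData h) L := p
  refine AlgHom.ext fun b => (frameMat_unique hL hn.g_eq fun j => ?_).symm
  have key := congrArg q.γ (sum_posVec_eq h ((1 : U) ⊗ₜ[k] b) j)
  rw [map_sum, q.γ_smul, q.γ_f₀] at key
  simp only [q.γ_smul, q.γ_f₀] at key
  have hb : D.mapBR φ ((1 : U) ⊗ₜ[k] b) = (1 : R) ⊗ₜ[k] b := by
    show φ 1 ⊗ₜ[k] b = _
    rw [map_one]
  change D.mapBR φ ((1 : U) ⊗ₜ[k] b) • L.f₀ (m' j) =
    ∑ i, D.mapBR φ (evT D U (rho σ ((1 : U) ⊗ₜ[k] b) i j)) • L.f₀ (m' i) at key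
  simp only [hb, mapBR_evT, hbas, map_smul, rho_tmul, one_smul, smul_comm _ u,
    ← Finset.smul_sum] at key
  exact (IsUnit.of_mul_eq_one v (by rw [mul_comm]; exact hv)).smul_left_cancel.mp key

end Fermat.Agent.Jac.Chart
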