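import Mathlib.RingTheory.PicardGroup
import Mathlib.RingTheory.DedekindDomain.Factorization
import Mathlib.RingTheory.Finiteness.Nakayama
import Mathlib.RingTheory.Localization.Integer

/-!
# Faithful locally cyclic modules are invertible

A finite faithful module which is cyclic modulo every maximal ideal is invertible; a finite
submodule of a localisation of a Dedekind domain is cyclic modulo every maximal ideal.
-/

set_option autoImplicit false

universe u

noncomputable section

open TensorProduct

namespace Fermat.Agent.Jac.Chart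

variable {S : Type u} [CommRing S] {M : Type u} [AddCommGroup M] [Module S M]

/-- Cyclic modulo an ideal. -/
def CyclicMod (I : Ideal S) (M : Type u) [AddCommGroup M] [Module S M] : Prop :=
  ∃ s : M, ∀ m : M, ∃ a : S, m - a • s ∈ (I • (⊤ : Submodule S M))

theorem exists_smul_mem_span_of_le [Module.Finite S M] {I : Ideal S} {N : Submodule S M}
    (h : ∀ m : M, ∃ n ∈ N, m - n ∈ I • (⊤ : Submodule S M)) :
    ∃ r : S, r - 1 ∈ I ∧ ∀ m : M, r • m ∈ N := by
  have hle : (⊤ : Submodule S (M ⧸ N)) ≤ I • ⊤ := by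
    rintro z -
    obtain ⟨m, rfl⟩ := N.mkQ_surjective z
    obtain ⟨n, hn, hmem⟩ := h m
    have e : N.mkQ m = N.mkQ (m - n) := by
      rw [map_sub, (Submodule.Quotient.mk_eq_zero N).mpr hn |> (fun e => show N.mkQ n = 0 from e),
        sub_zero]
    rw [e]
    have := Submodule.mem_map_of_mem (f := N.mkQ) hmem
    rw [Submodule.map_smul''] at this
    exact Submodule.smul_mono le_rfl le_top this
  obtain ⟨r, hr, h0⟩ :=
    Submodule.exists_sub_one_mem_and_smul_eq_zero_of_fg_of_le_smul I ⊤ Module.Finite.fg_top hle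
  refine ⟨r, hr, fun m => ?_⟩
  have := h0 (N.mkQ m) trivial
  rw [← map_smul] at this
  exact (Submodule.Quotient.mk_eq_zero N).mp this

/-- A finite faithful module, cyclic modulo every maximal ideal, is invertible. -/
theorem invertible_of_cyclicMod [Module.Finite S M] (hf : ∀ a : S, (∀ m : M, a • m = 0) → a = 0)
    (hc : ∀ 𝔫 : Ideal S, 𝔫.IsMaximal → CyclicMod 𝔫 M) : Module.Invertible S M := by
  have hloc : ∀ 𝔫 : Ideal S, 𝔫.IsMaximal → ∃ r : S, r ∉ 𝔫 ∧ ∃ s : M, ∀ m : M, ∃ a : S, r • m = a • s := by
    intro 𝔫 h𝔫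
    obtain ⟨s, hs⟩ := hc 𝔫 h𝔫
    obtain ⟨r, hr, hrm⟩ := exists_smul_mem_span_of_le (N := Submodule.span S {s}) fun m => by
      obtain ⟨a, ha⟩ := hs m
      exact ⟨a • s, Submodule.smul_mem _ a (Submodule.mem_span_singleton_self s), ha⟩
    refine ⟨r, fun hmem => h𝔫.ne_top ?_, s, fun m => ?_⟩
    · rw [Ideal.eq_top_iff_one, ← sub_sub_self r 1]
      exact sub_mem hmem hr
    · obtain ⟨a, ha⟩ := Submodule.mem_span_singleton.mp (hrm m)
      exact ⟨a, ha.symm⟩
  have hzero : ∀ z : M, (∀ 𝔫 : Ideal S, 𝔫.IsMaximal → ∃ r, r ∉ 𝔫 ∧ r • z = 0) → z = 0 := by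
    intro z hz
    let J : Ideal S :=
      { carrier := {r | r • z = 0}
        add_mem' := fun {a b} (ha : a • z = 0) (hb : b • z = 0) =>
          show (a + b) • z = 0 by rw [add_smul, ha, hb, add_zero]
        zero_mem' := zero_smul S z
        smul_mem' := fun c a (ha : a • z = 0) =>
          show (c • a) • z = 0 by rw [smul_assoc, ha, smul_zero] }
    have hJ : J = ⊤ := by
      by_contra hne
      obtain ⟨𝔫, h𝔫, hle⟩ := Ideal.exists_le_maximal J hne
      obtain ⟨r, hr, hr0⟩ := hz 𝔫 h𝔫
      exact hr (hle hr0)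
    have h1 : (1 : S) • z = 0 := (Ideal.eq_top_iff_one J).mp hJ
    rwa [one_smul] at h1
  have hswap : ∀ (f : Module.Dual S M) (m n : M), f m • n = f n • m := by
    intro f m n
    refine sub_eq_zero.mp (hzero _ fun 𝔫 h𝔫 => ?_)
    obtain ⟨r, hr, s, hs⟩ := hloc 𝔫 h𝔫
    obtain ⟨a, ha⟩ := hs m
    obtain ⟨b, hb⟩ := hs n
    refine ⟨r * r, fun h => hr ((h𝔫.isPrime.mem_or_mem h).elim id id), ?_⟩
    have e1 : (r * r) • (f m • n) = (f (r • m)) • (r • n) := by
      rw [map_smul, smul_eq_mul, smul_smul, smul_smul]; ring_nf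
    have e2 : (r * r) • (f n • m) = (f (r • n)) • (r • m) := by
      rw [map_smul, smul_eq_mul, smul_smul, smul_smul]; ring_nf
    rw [smul_sub, e1, e2, ha, hb, map_smul, map_smul, smul_eq_mul, smul_eq_mul, smul_smul,
      smul_smul, sub_eq_zero]
    ring_nf
  have hsurj : (1 : S) ∈ LinearMap.range (contractLeft S M) := by
    by_contra h1
    obtain ⟨𝔫, h𝔫, hle⟩ := Ideal.exists_le_maximal
      (LinearMap.range (contractLeft S M) : Ideal S) ((Ideal.ne_top_iff_one _).mpr h1)
    obtain ⟨r, hr, s, hs⟩ := hloc 𝔫 h𝔫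
    choose c hc' using hs
    have huniq : ∀ a b : S, a • s = b • s → r * a = r * b := fun a b hab => by
      rw [← sub_eq_zero, ← mul_sub]
      refine hf _ fun m => ?_
      rw [mul_comm, mul_smul, hc' m, smul_comm, sub_smul, hab, sub_self, smul_zero]
    let φ : Module.Dual S M :=
      { toFun := fun m => r * c m
        map_add' := fun m n => by
          rw [← mul_add]
          exact huniq _ _ (by rw [← hc', smul_add, hc', hc', add_smul])
        map_smul' := fun a m => by
          rw [RingHom.id_apply, smul_eq_mul, mul_left_comm]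
          exact huniq _ _ (by rw [← hc', smul_comm, hc', smul_smul]) }
    have hmem : φ s ∈ (LinearMap.range (contractLeft S M) : Ideal S) :=
      ⟨φ ⊗ₜ s, contractLeft_apply φ s⟩
    have hval : φ s = r * r := huniq _ _ (hc' s).symm
    exact hr ((h𝔫.isPrime.mem_or_mem (hval ▸ hle hmem)).elim id id)
  obtain ⟨e, he⟩ := hsurj
  have key : ∀ z : Module.Dual S M ⊗[S] M, z = contractLeft S M z • e := by
    have hfun : ∀ (f g : Module.Dual S M) (m : M), g m • f = f m • g := fun f g m => by
      refine LinearMap.ext fun x => ?_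
      rw [LinearMap.smul_apply, LinearMap.smul_apply]
      have h1 : f (g m • x) = f (g x • m) := by rw [hswap g m x]
      rw [map_smul, map_smul, smul_eq_mul, smul_eq_mul] at h1
      rw [smul_eq_mul, smul_eq_mul, h1, mul_comm]
    intro z
    induction z using TensorProduct.induction_on with
    | zero => simp
    | tmul f m =>
      have main : ∀ w : Module.Dual S M ⊗[S] M,
          contractLeft S M w • (f ⊗ₜ[S] m) = f m • w := by
        intro w
        induction w using TensorProduct.induction_on with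
        | zero => simp
        | tmul g n =>
          rw [contractLeft_apply]
          rw [← tmul_smul, hswap g n m, tmul_smul, smul_tmul', hfun f g m, ← smul_tmul']
        | add a b ha hb => rw [map_add, add_smul, ha, hb, smul_add]
      rw [contractLeft_apply, ← main e, he, one_smul]
    | add a b ha hb => rw [map_add, add_smul, ← ha, ← hb]
  refine ⟨⟨fun a b hab => ?_, fun c => ⟨c • e, ?_⟩⟩⟩
  · rw [key a, key b, hab]
  · rw [map_smul, he, smul_eq_mul, mul_one]

/-- A finite module embedded in a localisation of a Dedekind domain is cyclic modulo every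
maximal ideal. -/
theorem cyclicMod_of_embedding [IsDedekindDomain S] {B : Type u} [CommRing B] [Algebra S B]
    (W : Submonoid S) [IsLocalization W B] (hW : W ≤ nonZeroDivisors S) [Module.Finite S M]
    (Φ : M →ₗ[S] B) (hΦ : Function.Injective Φ) (𝔫 : Ideal S) [𝔫.IsMaximal] :
    CyclicMod 𝔫 M := by
  classical
  have hinj : Function.Injective (algebraMap S B) := IsLocalization.injective B hW
  obtain ⟨t, ht⟩ := (Module.finite_def.mp ‹Module.Finite S M›)
  obtain ⟨b, hb⟩ := IsLocalization.exist_integer_multiples_of_finset W (t.image Φ)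
  have hint : ∀ m : M, (b : S) • Φ m ∈ LinearMap.range (Algebra.linearMap S B) := by
    intro m
    have hm : m ∈ Submodule.span S (t : Set M) := ht ▸ Submodule.mem_top
    induction hm using Submodule.span_induction with
    | mem v hv => obtain ⟨a, ha⟩ := hb (Φ v) (Finset.mem_image_of_mem Φ hv); exact ⟨a, ha⟩
    | zero => rw [map_zero, smul_zero]; exact zero_mem _
    | add u v _ _ hu hv => rw [map_add, smul_add]; exact add_mem hu hv
    | smul a v _ hv => rw [map_smul, smul_comm]; exact Submodule.smul_mem _ a hv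
  choose ψ hψ using hint
  let Ψ : M →ₗ[S] S :=
    { toFun := ψ
      map_add' := fun m n => hinj (by
        rw [map_add]
        show Algebra.linearMap S B (ψ (m + n)) =
          Algebra.linearMap S B (ψ m) + Algebra.linearMap S B (ψ n)
        rw [hψ, hψ, hψ, map_add, smul_add])
      map_smul' := fun a m => hinj (by
        show Algebra.linearMap S B (ψ (a • m)) = Algebra.linearMap S B (a • ψ m)
        rw [map_smul, hψ, hψ, map_smul, smul_comm]) }
  have hbu : IsUnit (algebraMap S B b) := IsLocalization.map_units B b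
  have hΨ : Function.Injective Ψ := fun m n hmn => by
    have h2 : (b : S) • Φ m = (b : S) • Φ n := by
      rw [← hψ m, ← hψ n]; exact congrArg (Algebra.linearMap S B) hmn
    rw [Algebra.smul_def, Algebra.smul_def] at h2
    exact hΦ (hbu.mul_left_cancel h2)
  -- reduce to the image ideal
  set I : Ideal S := LinearMap.range Ψ with hI
  suffices h : ∃ a ∈ I, I ≤ Ideal.span {a} ⊔ 𝔫 * I by
    obtain ⟨a, ⟨s, rfl⟩, hle⟩ := h
    refine ⟨s, fun m => ?_⟩
    obtain ⟨u, hu, v, hv, huv⟩ := Submodule.mem_sup.mp (hle ⟨m, rfl⟩ : Ψ m ∈ _)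
    obtain ⟨c, rfl⟩ := Ideal.mem_span_singleton'.mp hu
    refine ⟨c, ?_⟩
    rw [← smul_eq_mul, hI, ← Submodule.map_top, ← Submodule.map_smul''] at hv
    obtain ⟨w, hw, hwv⟩ := Submodule.mem_map.mp hv
    have he : m - c • s = w := hΨ (by
      rw [map_sub, map_smul, hwv, ← huv, smul_eq_mul]
      ring)
    rw [he]
    exact hw
  rcases eq_or_ne (𝔫 * I) 0 with h0 | h0
  · rcases mul_eq_zero.mp h0 with h | h
    · have hIb : I = ⊥ ∨ I = ⊤ := by
        rcases eq_or_ne I ⊥ with e | e
        · exact Or.inl e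
        · refine Or.inr ((‹𝔫.IsMaximal›.out).2 I (lt_of_le_of_ne ?_ ?_))
          · rw [h]; exact bot_le
          · rw [h]; exact fun e' => e e'.symm
      rcases hIb with e | e
      · exact ⟨0, zero_mem _, by rw [e]; exact bot_le⟩
      · exact ⟨1, by rw [e]; exact Submodule.mem_top,
          le_sup_of_le_left (by rw [Ideal.span_singleton_one]; exact le_top)⟩
    · exact ⟨0, zero_mem _, by rw [h]; exact bot_le⟩
  · obtain ⟨a, ha⟩ := IsDedekindDomain.exists_sup_span_eq
      (Ideal.mul_le_right : 𝔫 * I ≤ I) h0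
    refine ⟨a, ?_, le_of_eq (by rw [sup_comm, ha])⟩
    rw [← ha]
    exact Ideal.mem_sup_right (Ideal.mem_span_singleton_self a)

end Fermat.Agent.Jac.Chart
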