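import Fermat.Agent.Jac.Chart.Sections
import Fermat.Agent.Jac.Chart.Criterion
import Mathlib.RingTheory.Jacobson.Ring
import Mathlib.RingTheory.IntegralClosure.IntegrallyClosed
import Mathlib.RingTheory.Ideal.GoingUp
import Mathlib.RingTheory.FiniteStability

/-!
# The two charts of a chart hom are invertible

Over `k` the sections embed into `B`, hence are cyclic modulo every maximal ideal; over a finitely
generated `k`-algebra this lifts from the closed fibres.
-/

set_option autoImplicit false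
set_option linter.style.haveILetI false

universe u

noncomputable section

open LaurentPolynomial TensorProduct

namespace Fermat.Agent.Jac.Chart

variable {k : Type u} [Field k] {D : CurveData.{u} k} {R : Type u} [CommRing R] [Algebra k R]
  {σ : D.B →ₐ[k] Mat D R}

theorem coeff_smul_neg (h : IsChartHom D σ) (b : D.AR₁ R) {v : FrameMod σ} (hv : v ∈ negSub h)
    (i : Fin D.d) : ((b • v) i).coeff (-1) = ∑ j, lead h b i j * (v j).coeff (-1) := by
  rw [smul_frame_AR₁, smul_frame_apply, coeff_sum']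
  refine Finset.sum_congr rfl fun j _ => ?_
  rw [lead_apply]
  simpa using (h.rho_neg b i j).coeff_mul_top (hv j)

/-- `t ^ i` times the generator at `ε` is the `i`-th basis vector modulo `y`. -/
theorem coeff_t_pow_smul (h : IsChartHom D σ) (i j : Fin D.d) :
    (((((1 : R) ⊗ₜ[k] D.t) ^ (i : ℕ)) • unitVec σ (-1) ⟨0, D.d_pos⟩) j).coeff (-1) =
      if j = i then 1 else 0 := by
  rw [coeff_smul_neg h _ (unitVec_mem_negSub h _), lead_t_pow h,
    Finset.sum_eq_single ⟨0, D.d_pos⟩]
  · simp [shiftMat, unitVec, Fin.ext_iff]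
  · intro l _ hl; simp [unitVec, hl]
  · intro hh; exact absurd (Finset.mem_univ _) hh

/-- Near `ε` the first basis vector generates. -/
theorem exists_smul_mem_span_first (h : IsChartHom D σ) :
    ∃ r : D.AR₁ R, r - 1 ∈ Ideal.span {D.yR R} ∧ ∀ v : negSub h, ∃ a : D.AR₁ R,
      r • (v : FrameMod σ) = a • unitVec σ (-1) ⟨0, D.d_pos⟩ := by
  obtain ⟨r, hr, hr'⟩ := exists_smul_mem_span_of_le (M := negSub h)
    (I := Ideal.span {D.yR R}) (N := Submodule.span (D.AR₁ R) {negVec h ⟨0, D.d_pos⟩}) fun v => by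
    set c : D.AR₁ R := ∑ i, ((v : FrameMod σ) i).coeff (-1) • ((1 : R) ⊗ₜ[k] D.t) ^ (i : ℕ) with hc
    refine ⟨c • negVec h ⟨0, D.d_pos⟩,
      Submodule.smul_mem _ c (Submodule.mem_span_singleton_self _), ?_⟩
    set w := v - c • negVec h ⟨0, D.d_pos⟩ with hw
    have hw1 : ∀ j, ((w : FrameMod σ) j).coeff (-1) = 0 := fun j => by
      show (((v : FrameMod σ) j) - (c • unitVec σ (-1) ⟨0, D.d_pos⟩) j).coeff (-1) = 0
      rw [AddMonoidAlgebra.coeff_sub, Finsupp.sub_apply, hc, Finset.sum_smul, sum_frame_apply,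
        coeff_sum', Finset.sum_eq_single j]
      · rw [smul_assoc]
        show _ - (((v : FrameMod σ) j).coeff (-1) •
          ((((1 : R) ⊗ₜ[k] D.t) ^ (j : ℕ)) • unitVec σ (-1) ⟨0, D.d_pos⟩) j).coeff (-1) = 0
        rw [coeff_smul', coeff_t_pow_smul h, if_pos rfl, mul_one, sub_self]
      · intro i _ hi
        rw [smul_assoc]
        show (((v : FrameMod σ) i).coeff (-1) •
          ((((1 : R) ⊗ₜ[k] D.t) ^ (i : ℕ)) • unitVec σ (-1) ⟨0, D.d_pos⟩) j).coeff (-1) = 0
        rw [coeff_smul', coeff_t_pow_smul h, if_neg (fun e => hi e.symm), mul_zero]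
      · intro hh; exact absurd (Finset.mem_univ _) hh
    let w' : negSub h := ⟨fun i => T 1 * (w : FrameMod σ) i, fun i n hn => by
      show (T 1 * (w : FrameMod σ) i).coeff n = 0
      rw [mul_comm, coeff_mul_T]
      rcases eq_or_ne n 0 with rfl | hn0
      · exact hw1 i
      · exact w.2 i _ (by omega)⟩
    have hyw : w = D.yR R • w' := by
      refine Subtype.ext (funext fun i => ?_)
      show _ = (D.yR R • (w' : FrameMod σ)) i
      rw [smul_frame_AR₁, ← pow_one (algebraMap (D.AR₁ R) (D.BR R) (D.yR R)), h.yB_pow_smul,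
        Nat.cast_one]
      show (w : FrameMod σ) i = T (-1) * (T 1 * (w : FrameMod σ) i)
      rw [← mul_assoc, T_neg_mul_T, one_mul]
    rw [hyw]
    exact Submodule.smul_mem_smul (Ideal.mem_span_singleton_self _) trivial
  refine ⟨r, hr, fun v => ?_⟩
  obtain ⟨a, ha⟩ := Submodule.mem_span_singleton.mp (hr' v)
  exact ⟨a, (congrArg Subtype.val ha).symm⟩

theorem injective_smul_first (h : IsChartHom D σ) :
    Function.Injective fun b : D.BR R => b • unitVec σ (-1) ⟨0, D.d_pos⟩ := by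
  intro a b hab
  refine sub_eq_zero.mp (h.eq_zero_of_col fun i => ?_)
  have h1 : ((a - b) • unitVec σ (-1) ⟨0, D.d_pos⟩) i = 0 := by
    rw [sub_smul]
    exact sub_eq_zero.mpr (congrFun hab i)
  rw [smul_frame_apply, Finset.sum_eq_single ⟨0, D.d_pos⟩] at h1
  · simp only [unitVec, if_true] at h1
    exact (isUnit_T (-1)).mul_left_eq_zero.mp h1
  · intro l _ hl; simp [unitVec, hl]
  · intro hh; exact absurd (Finset.mem_univ _) hh

section OverK

variable {σ₀ : D.B →ₐ[k] Mat D k} (h : IsChartHom D σ₀)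
include h

theorem mulVec_injective_i₀ {a : D.A} (ha : a ≠ 0) :
    Function.Injective (Matrix.mulVec (σ₀ (D.i₀ a))) := by
  letI : Algebra (Polynomial k) D.A :=
    (Polynomial.aeval D.x : Polynomial k →ₐ[k] D.A).toRingHom.toAlgebra
  haveI : Module.Finite (Polynomial k) D.A := D.finite_x
  obtain ⟨p, hpmem, hp⟩ : ∃ p ∈ (Ideal.span {a}).comap (algebraMap (Polynomial k) D.A), p ≠ 0 :=
    Submodule.exists_mem_ne_zero_of_ne_bot fun hbot => ha (by
      simpa using (Ideal.eq_bot_of_comap_eq_bot hbot : Ideal.span {a} = ⊥))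
  obtain ⟨q, hq⟩ := Ideal.mem_span_singleton'.mp (Ideal.mem_comap.mp hpmem)
  have haeval : ∀ p : Polynomial k, Polynomial.aeval (σ₀ (D.i₀ D.x)) p =
      (Polynomial.toLaurent p : k[T;T⁻¹]) • (1 : Mat D k) := by
    intro p
    rw [h.map_x]
    induction p using Polynomial.induction_on' with
    | add p q hp hq => rw [map_add, map_add, hp, hq, add_smul]
    | monomial n r =>
      rw [Polynomial.aeval_monomial, Polynomial.toLaurent_C_mul_T, smul_pow, one_pow, T_pow,
        mul_one, Algebra.algebraMap_eq_smul_one, smul_mul_assoc, one_mul, ← smul_assoc,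
        smul_eq_C_mul]
  intro v w hvw
  have h1 : ∀ u, Matrix.mulVec (σ₀ (D.i₀ q) * σ₀ (D.i₀ a)) u =
      (Polynomial.toLaurent p : k[T;T⁻¹]) • u := by
    intro u
    rw [← map_mul, ← map_mul, hq]
    show Matrix.mulVec (σ₀ (D.i₀ (Polynomial.aeval D.x p))) u = _
    rw [← Polynomial.aeval_algHom_apply, ← Polynomial.aeval_algHom_apply, haeval,
      Matrix.smul_mulVec, Matrix.one_mulVec]
  have h2 := congrArg (Matrix.mulVec (σ₀ (D.i₀ q))) hvw
  rw [Matrix.mulVec_mulVec, Matrix.mulVec_mulVec, h1, h1] at h2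
  have hne : (Polynomial.toLaurent p : k[T;T⁻¹]) ≠ 0 := Polynomial.toLaurent_ne_zero.mpr hp
  exact funext fun i => mul_left_cancel₀ hne (congrFun h2 i)

theorem eq_zero_of_smul {r : D.AR₁ k} (hr : r ≠ 0) {v : FrameMod σ₀} (hv : r • v = 0) :
    v = 0 := by
  obtain ⟨n, a, ha⟩ := IsLocalization.Away.surj (D.xR k) (algebraMap (D.AR₁ k) (D.BR k) r)
  set a' := Algebra.TensorProduct.lid k D.A a with ha'
  have ha0 : a ≠ 0 := fun e => hr (D.injective_algebraMap₁ (by
    rw [e, map_zero] at ha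
    have hu : IsUnit (algebraMap (D.AR k) (D.BR k) (D.xR k) ^ n) :=
      (IsLocalization.Away.algebraMap_isUnit (D.xR k)).pow n
    rw [hu.mul_left_eq_zero.mp ha, map_zero]))
  have hrho : rho σ₀ (algebraMap (D.AR k) (D.BR k) a) = σ₀ (D.i₀ a') := by
    have : a = (1 : k) ⊗ₜ[k] a' := by
      rw [ha', ← Algebra.TensorProduct.lid_symm_apply, AlgEquiv.symm_apply_apply]
    conv_lhs => rw [this]
    rw [CurveData.algebraMap_AR_tmul, rho_tmul, one_smul]
  have ha0' : a' ≠ 0 := fun e => ha0 ((Algebra.TensorProduct.lid k D.A).injective (by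
    rw [← ha', e, map_zero]))
  refine (mulVec_injective_i₀ h ha0') ?_
  have : algebraMap (D.AR k) (D.BR k) a • v = 0 := by
    rw [← ha, mul_comm, mul_smul]
    show algebraMap (D.AR k) (D.BR k) (D.xR k) ^ n • (r • v) = 0
    rw [hv, smul_zero]
  rw [smul_frame, hrho] at this
  exact this.trans (Matrix.mulVec_zero _).symm

theorem exists_embedding :
    ∃ Φ : FrameMod σ₀ →ₗ[D.BR k] D.BR k, Function.Injective Φ := by
  obtain ⟨r, hr, hspan⟩ := exists_smul_mem_span_first h
  have hr0 : r ≠ 0 := fun e => by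
    obtain ⟨z, hz⟩ := Ideal.mem_span_singleton'.mp hr
    have := congrArg (D.evR (R := k)) hz
    rw [map_mul, evR_yR, mul_zero, map_sub, e, map_zero, map_one, zero_sub] at this
    exact neg_ne_zero.mpr (one_ne_zero (α := k)) this.symm
  have hex : ∀ v : FrameMod σ₀, ∃ c : D.BR k,
      algebraMap (D.AR₁ k) (D.BR k) r • v = c • unitVec σ₀ (-1) ⟨0, D.d_pos⟩ := by
    intro v
    obtain ⟨⟨w, s⟩, hs⟩ := (isLocalized_negSub h).surj v
    obtain ⟨a, ha⟩ := hspan w
    have hu : IsUnit (algebraMap (D.AR₁ k) (D.BR k) (s : D.AR₁ k)) :=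
      IsLocalization.map_units (D.BR k) s
    obtain ⟨u, hu'⟩ := hu
    refine ⟨(↑u⁻¹ : D.BR k) * algebraMap (D.AR₁ k) (D.BR k) a, ?_⟩
    have hv : v = (↑u⁻¹ : D.BR k) • (w : FrameMod σ₀) := by
      have : (u : D.BR k) • v = (w : FrameMod σ₀) := by rw [hu']; exact hs
      rw [← this, smul_smul, Units.inv_mul, one_smul]
    rw [hv, smul_smul, mul_comm, mul_smul, mul_smul]
    exact congrArg _ ha
  choose c hc using hex
  have huniq := injective_smul_first h
  let Φ : FrameMod σ₀ →ₗ[D.BR k] D.BR k :=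
    { toFun := c
      map_add' := fun v w => huniq (by
        show c (v + w) • _ = (c v + c w) • _
        rw [add_smul, ← hc, ← hc, ← hc, smul_add])
      map_smul' := fun b v => huniq (by
        show c (b • v) • _ = (b • c v) • _
        rw [← hc, smul_comm, hc, smul_eq_mul, mul_smul]) }
  refine ⟨Φ, fun v w hvw => sub_eq_zero.mp (eq_zero_of_smul h hr0 ?_)⟩
  show algebraMap (D.AR₁ k) (D.BR k) r • (v - w) = 0
  rw [hc, show c (v - w) = 0 from (map_sub Φ v w).trans (sub_eq_zero.mpr hvw), zero_smul]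

omit h in
theorem isDedekindDomain_tensor {A : Type u} [CommRing A] [Algebra k A] [IsDedekindDomain A] :
    IsDedekindDomain (k ⊗[k] A) := by
  let e : (k ⊗[k] A) ≃+* A := (Algebra.TensorProduct.lid k A).toRingEquiv
  haveI : IsDomain (k ⊗[k] A) := MulEquiv.isDomain A e.toMulEquiv
  haveI : IsNoetherianRing (k ⊗[k] A) := isNoetherianRing_of_ringEquiv A e.symm
  haveI : Ring.DimensionLEOne (k ⊗[k] A) := Ring.DimensionLEOne.of_ringEquiv e
  haveI : IsIntegrallyClosed (k ⊗[k] A) := IsIntegrallyClosed.of_equiv e.symm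
  exact { }

theorem cyclicMod_pos_k (𝔫 : Ideal (D.AR k)) [𝔫.IsMaximal] : CyclicMod 𝔫 (posSub h) := by
  haveI := isDedekindDomain_tensor (k := k) (A := D.A)
  obtain ⟨Φ, hΦ⟩ := exists_embedding h
  refine cyclicMod_of_embedding (B := D.BR k) (Submonoid.powers (D.xR k)) ?_
    ((Φ.restrictScalars (D.AR k)).comp (posSub h).subtype) (hΦ.comp Subtype.val_injective) 𝔫
  rintro _ ⟨n, rfl⟩
  exact pow_mem (mem_nonZeroDivisors_of_ne_zero fun e => one_ne_zero (α := D.AR k)
    (D.injective_xR k (show D.xR k * 1 = D.xR k * 0 by rw [e, zero_mul, zero_mul]))) n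

theorem cyclicMod_neg_k (𝔫 : Ideal (D.AR₁ k)) [𝔫.IsMaximal] : CyclicMod 𝔫 (negSub h) := by
  haveI := isDedekindDomain_tensor (k := k) (A := D.A₁)
  obtain ⟨Φ, hΦ⟩ := exists_embedding h
  refine cyclicMod_of_embedding (B := D.BR k) (Submonoid.powers (D.yR k)) ?_
    ((Φ.restrictScalars (D.AR₁ k)).comp (negSub h).subtype) (hΦ.comp Subtype.val_injective) 𝔫
  rintro _ ⟨n, rfl⟩
  exact pow_mem (mem_nonZeroDivisors_of_ne_zero fun e => one_ne_zero (α := D.AR₁ k)
    (D.injective_yR k (show D.yR k * 1 = D.yR k * 0 by rw [e, zero_mul, zero_mul]))) n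

end OverK

theorem faithful_pos (h : IsChartHom D σ) (a : D.AR R)
    (ha : ∀ m : posSub h, a • m = 0) : a = 0 := by
  refine D.injective_algebraMap ?_
  rw [map_zero]
  refine h.eq_zero_of_col fun i => ?_
  have h1 : (a • unitVec σ 0 ⟨0, D.d_pos⟩) i = 0 :=
    congrFun (congrArg Subtype.val (ha (posVec h ⟨0, D.d_pos⟩))) i
  rw [smul_frame_AR, smul_frame_apply, Finset.sum_eq_single ⟨0, D.d_pos⟩] at h1
  · simpa [unitVec] using h1
  · intro l _ hl; simp [unitVec, hl]
  · intro hh; exact absurd (Finset.mem_univ _) hh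

theorem faithful_neg (h : IsChartHom D σ) (a : D.AR₁ R)
    (ha : ∀ m : negSub h, a • m = 0) : a = 0 := by
  refine D.injective_algebraMap₁ (injective_smul_first h ?_)
  show algebraMap (D.AR₁ R) (D.BR R) a • unitVec σ (-1) ⟨0, D.d_pos⟩ = algebraMap _ _ 0 • _
  rw [map_zero, zero_smul]
  exact congrArg Subtype.val (ha (negVec h ⟨0, D.d_pos⟩))

/-- A maximal ideal of a finitely generated algebra over an algebraically closed field is the
kernel of a point. -/
theorem exists_point [IsAlgClosed k] {S : Type u} [CommRing S] [Algebra k S]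
    [Algebra.FiniteType k S] (𝔫 : Ideal S) [𝔫.IsMaximal] :
    ∃ χ : S →ₐ[k] k, RingHom.ker χ.toRingHom = 𝔫 := by
  letI : Field (S ⧸ 𝔫) := Ideal.Quotient.field 𝔫
  haveI : Algebra.FiniteType k (S ⧸ 𝔫) :=
    Algebra.FiniteType.of_surjective (Ideal.Quotient.mkₐ k 𝔫) Ideal.Quotient.mk_surjective
  haveI : Module.Finite k (S ⧸ 𝔫) := finite_of_finite_type_of_isJacobsonRing k (S ⧸ 𝔫)
  let e := AlgEquiv.ofBijective (Algebra.ofId k (S ⧸ 𝔫))
    IsAlgClosed.algebraMap_bijective_of_isIntegral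
  refine ⟨e.symm.toAlgHom.comp (Ideal.Quotient.mkₐ k 𝔫), Ideal.ext fun z => ?_⟩
  rw [RingHom.mem_ker, ← Ideal.Quotient.eq_zero_iff_mem]
  show e.symm (Ideal.Quotient.mk 𝔫 z) = 0 ↔ _
  exact e.symm.map_eq_zero_iff

end Fermat.Agent.Jac.Chart
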