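import Fermat.Agent.Jac.Alg.Natural
import Fermat.Agent.Jac.Chart.Invertible

/-!
# Change of coefficients for frames, and invertibility over finitely generated algebras
-/

set_option autoImplicit false
set_option linter.style.haveILetI false

universe u

noncomputable section

open LaurentPolynomial TensorProduct

namespace Fermat.Agent.Jac.Chart

variable {k : Type u} [Field k] {D : CurveData.{u} k} {R R' : Type u} [CommRing R] [Algebra k R]
  [CommRing R'] [Algebra k R'] {σ : D.B →ₐ[k] Mat D R}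

/-- Change of coefficients of a chart hom. -/
abbrev mapHom (φ : R →ₐ[k] R') (σ : D.B →ₐ[k] Mat D R) : D.B →ₐ[k] Mat D R' :=
  (mapLau φ).mapMatrix.comp σ

theorem rho_mapBR (φ : R →ₐ[k] R') (z : D.BR R) (i j : Fin D.d) :
    rho (mapHom φ σ) (D.mapBR φ z) i j = mapLau φ (rho σ z i j) := by
  induction z using TensorProduct.induction_on with
  | zero => simp
  | tmul r b =>
    rw [CurveData.mapBR, Algebra.TensorProduct.map_tmul, rho_tmul, rho_tmul, Matrix.smul_apply,
      Matrix.smul_apply, smul_eq_C_mul, smul_eq_C_mul, map_mul, mapLau_C]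
    rfl
  | add p q hp hq => simp only [map_add, Matrix.add_apply, hp, hq]

/-- The change of coefficients on frames. -/
def mapFrame (φ : R →ₐ[k] R') (σ : D.B →ₐ[k] Mat D R) (v : FrameMod σ) :
    FrameMod (mapHom φ σ) := fun i => mapLau φ (v i)

theorem mapFrame_smul (φ : R →ₐ[k] R') (b : D.BR R) (v : FrameMod σ) :
    mapFrame φ σ (b • v) = D.mapBR φ b • mapFrame φ σ v := by
  funext i
  show mapLau φ ((b • v) i) = (D.mapBR φ b • mapFrame φ σ v) i
  rw [smul_frame_apply, smul_frame_apply, map_sum]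
  exact Finset.sum_congr rfl fun j _ => by rw [map_mul, rho_mapBR]; rfl

theorem mapFrame_add (φ : R →ₐ[k] R') (v w : FrameMod σ) :
    mapFrame φ σ (v + w) = mapFrame φ σ v + mapFrame φ σ w :=
  funext fun i => map_add (mapLau φ) (v i) (w i)

/-- The semilinear map between sections on `C ∖ ε`. -/
def mapPos (h : IsChartHom D σ) (φ : R →ₐ[k] R') :
    posSub h →ₛₗ[(D.mapAR φ).toRingHom] posSub (h.map φ) where
  toFun v := ⟨mapFrame φ σ v, fun i => (v.2 i).map φ⟩
  map_add' v w := Subtype.ext (mapFrame_add φ _ _)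
  map_smul' a v := Subtype.ext (by
    show mapFrame φ σ (a • (v : FrameMod σ)) = D.mapAR φ a • mapFrame φ σ v
    rw [smul_frame_AR, smul_frame_AR, mapFrame_smul, CurveData.mapBR_algebraMap₀])

/-- The semilinear map between sections at `ε`. -/
def mapNeg (h : IsChartHom D σ) (φ : R →ₐ[k] R') :
    negSub h →ₛₗ[(D.mapAR₁ φ).toRingHom] negSub (h.map φ) where
  toFun v := ⟨mapFrame φ σ v, fun i => (v.2 i).map φ⟩
  map_add' v w := Subtype.ext (mapFrame_add φ _ _)
  map_smul' a v := Subtype.ext (by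
    show mapFrame φ σ (a • (v : FrameMod σ)) = D.mapAR₁ φ a • mapFrame φ σ v
    rw [smul_frame_AR₁, smul_frame_AR₁, mapFrame_smul, CurveData.mapBR_algebraMap₁])

theorem mapPos_posVec (h : IsChartHom D σ) (φ : R →ₐ[k] R') (i : Fin D.d) :
    mapPos h φ (posVec h i) = posVec (h.map φ) i := by
  refine Subtype.ext (funext fun j => ?_)
  show mapLau φ (unitVec σ 0 i j) = _
  by_cases hji : j = i <;> simp [unitVec, posVec, hji]

theorem mapNeg_negVec (h : IsChartHom D σ) (φ : R →ₐ[k] R') (i : Fin D.d) :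
    mapNeg h φ (negVec h i) = negVec (h.map φ) i := by
  refine Subtype.ext (funext fun j => ?_)
  show mapLau φ (unitVec σ (-1) i j) = _
  by_cases hji : j = i <;> simp [unitVec, negVec, hji]

theorem exists_window_sum (f : ℤ → Prop) [DecidablePred f] (v : R[T;T⁻¹])
    (hv : ∀ n, ¬ f n → v.coeff n = 0) :
    ∃ s : Finset ℤ, (∀ n ∈ s, f n) ∧ v = ∑ n ∈ s, C (v.coeff n) * T n := by
  refine ⟨v.coeff.support, fun n hn => not_not.mp fun h => Finsupp.mem_support_iff.mp hn (hv n h),
    LaurentPolynomial.ext fun m => ?_⟩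
  rw [coeff_sum']
  simp only [coeff_C_mul, T_apply, mul_ite, mul_one, mul_zero, Finset.sum_ite_eq']
  split_ifs with hm
  · rfl
  · exact Finsupp.notMem_support_iff.mp hm

/-- A section with all coefficients in an ideal is divisible by it. -/
theorem mem_smul_top_pos (h : IsChartHom D σ) (I : Ideal (D.AR R)) (v : posSub h)
    (hv : ∀ i n, algebraMap R (D.AR R) (((v : FrameMod σ) i).coeff n) ∈ I) :
    v ∈ I • (⊤ : Submodule (D.AR R) (posSub h)) := by
  choose s hs hsum using fun i => exists_window_sum (fun n => 0 ≤ n) ((v : FrameMod σ) i)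
    (fun n hn => v.2 i n (by omega))
  have hv' : v = ∑ i, ∑ n ∈ s i, algebraMap R (D.AR R) (((v : FrameMod σ) i).coeff n) •
      (D.xR R ^ n.toNat • posVec h i) := by
    refine Subtype.ext (funext fun j => ?_)
    simp only [Submodule.coe_sum, Submodule.coe_smul, sum_frame_apply]
    have hterm : ∀ i, ∀ n ∈ s i, (algebraMap R (D.AR R) (((v : FrameMod σ) i).coeff n) •
        (D.xR R ^ n.toNat • (posVec h i : FrameMod σ))) j =
        C (((v : FrameMod σ) i).coeff n) * (if j = i then T n else 0) := fun i n hn => by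
      rw [algebraMap_smul, smul_frame_AR _ (posVec h i : FrameMod σ), map_pow]
      show ((v : FrameMod σ) i).coeff n •
        ((algebraMap (D.AR R) (D.BR R) (D.xR R) ^ n.toNat • (posVec h i : FrameMod σ)) j) = _
      rw [h.xB_pow_smul, smul_eq_C_mul, Int.toNat_of_nonneg (hs i n hn)]
      show _ * (T n * unitVec σ 0 i j) = _
      unfold unitVec
      split <;> simp
    rw [Finset.sum_eq_single j, Finset.sum_congr rfl fun n hn => hterm j n hn]
    · simp only [if_true]
      exact hsum j
    · intro i _ hne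
      refine Finset.sum_eq_zero fun n hn => ?_
      rw [hterm i n hn, if_neg (fun e => hne e.symm), mul_zero]
    · intro hh; exact absurd (Finset.mem_univ j) hh
  rw [hv']
  exact Submodule.sum_mem _ fun i _ => Submodule.sum_mem _ fun n _ =>
    Submodule.smul_mem_smul (hv i n) trivial

/-- A section at `ε` with all coefficients in an ideal is divisible by it. -/
theorem mem_smul_top_neg (h : IsChartHom D σ) (I : Ideal (D.AR₁ R)) (v : negSub h)
    (hv : ∀ i n, algebraMap R (D.AR₁ R) (((v : FrameMod σ) i).coeff n) ∈ I) :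
    v ∈ I • (⊤ : Submodule (D.AR₁ R) (negSub h)) := by
  choose s hs hsum using fun i => exists_window_sum (fun n => n ≤ -1) ((v : FrameMod σ) i)
    (fun n hn => v.2 i n (by omega))
  have hv' : v = ∑ i, ∑ n ∈ s i, algebraMap R (D.AR₁ R) (((v : FrameMod σ) i).coeff n) •
      (D.yR R ^ (-1 - n).toNat • negVec h i) := by
    refine Subtype.ext (funext fun j => ?_)
    simp only [Submodule.coe_sum, Submodule.coe_smul, sum_frame_apply]
    have hterm : ∀ i, ∀ n ∈ s i, (algebraMap R (D.AR₁ R) (((v : FrameMod σ) i).coeff n) •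
        (D.yR R ^ (-1 - n).toNat • (negVec h i : FrameMod σ))) j =
        C (((v : FrameMod σ) i).coeff n) * (if j = i then T n else 0) := fun i n hn => by
      have := hs i n hn
      rw [algebraMap_smul, smul_frame_AR₁ _ (negVec h i : FrameMod σ), map_pow]
      show ((v : FrameMod σ) i).coeff n •
        ((algebraMap (D.AR₁ R) (D.BR R) (D.yR R) ^ (-1 - n).toNat •
          (negVec h i : FrameMod σ)) j) = _
      rw [h.yB_pow_smul, smul_eq_C_mul, Int.toNat_of_nonneg (by omega)]
      show _ * (T (-(-1 - n)) * unitVec σ (-1) i j) = _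
      unfold unitVec
      split
      · rw [← T_add, show -(-1 - n) + -1 = n by ring]
      · simp
    rw [Finset.sum_eq_single j, Finset.sum_congr rfl fun n hn => hterm j n hn]
    · simp only [if_true]
      exact hsum j
    · intro i _ hne
      refine Finset.sum_eq_zero fun n hn => ?_
      rw [hterm i n hn, if_neg (fun e => hne e.symm), mul_zero]
    · intro hh; exact absurd (Finset.mem_univ j) hh
  rw [hv']
  exact Submodule.sum_mem _ fun i _ => Submodule.sum_mem _ fun n _ =>
    Submodule.smul_mem_smul (hv i n) trivial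

/-- Cyclicity modulo an ideal lifts along a surjective semilinear map with small kernel. -/
theorem cyclicMod_of_surjective {S S' M M' : Type u} [CommRing S] [CommRing S'] [AddCommGroup M]
    [Module S M] [AddCommGroup M'] [Module S' M'] {ν : S →+* S'} (g : M →ₛₗ[ν] M')
    (hν : Function.Surjective ν) (hg : Function.Surjective g) (I : Ideal S) (I' : Ideal S')
    (hI : I'.comap ν = I) (hker : ∀ m, g m = 0 → m ∈ I • (⊤ : Submodule S M))
    (hc : CyclicMod I' M') : CyclicMod I M := by
  obtain ⟨s', hs'⟩ := hc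
  obtain ⟨s, rfl⟩ := hg s'
  refine ⟨s, fun m => ?_⟩
  obtain ⟨a', ha'⟩ := hs' (g m)
  obtain ⟨a, rfl⟩ := hν a'
  refine ⟨a, ?_⟩
  rw [← map_smulₛₗ, ← map_sub] at ha'
  generalize m - a • s = z at ha' ⊢
  suffices key : ∀ w ∈ I' • (⊤ : Submodule S' M'), ∃ z₀ ∈ I • (⊤ : Submodule S M), g z₀ = w by
    obtain ⟨z₀, hz₀, e⟩ := key _ ha'
    have := hker (z - z₀) (by rw [map_sub, e, sub_self])
    simpa using add_mem this hz₀
  intro w hw
  refine Submodule.smul_induction_on hw (fun r hr n _ => ?_) fun x y hx hy => ?_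
  · obtain ⟨r₀, rfl⟩ := hν r
    obtain ⟨n₀, rfl⟩ := hg n
    refine ⟨r₀ • n₀, Submodule.smul_mem_smul ?_ trivial, map_smulₛₗ g r₀ n₀⟩
    rw [← hI]
    exact hr
  · obtain ⟨p, hp, rfl⟩ := hx
    obtain ⟨q, hq, rfl⟩ := hy
    exact ⟨p + q, add_mem hp hq, map_add g p q⟩

theorem surjective_tensor_map (φ : R →ₐ[k] k) {A : Type u} [CommRing A] [Algebra k A] :
    Function.Surjective (Algebra.TensorProduct.map φ (AlgHom.id k A)) := by
  intro z
  induction z using TensorProduct.induction_on with
  | zero => exact ⟨0, map_zero _⟩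
  | tmul r a =>
    refine ⟨algebraMap k R r ⊗ₜ a, ?_⟩
    rw [Algebra.TensorProduct.map_tmul, AlgHom.commutes]
    rfl
  | add p q hp hq =>
    obtain ⟨a, rfl⟩ := hp
    obtain ⟨b, rfl⟩ := hq
    exact ⟨a + b, map_add _ _ _⟩

theorem exists_lifted_point {A : Type u} [CommRing A] [Algebra k A] (χ : R ⊗[k] A →ₐ[k] k) :
    ∃ χ' : k ⊗[k] A →ₐ[k] k,
      χ'.comp (Algebra.TensorProduct.map
        (χ.comp (Algebra.TensorProduct.includeLeft (S := k))) (AlgHom.id k A)) = χ := by
  refine ⟨(χ.comp Algebra.TensorProduct.includeRight).comp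
    (Algebra.TensorProduct.lid k A).toAlgHom, ?_⟩
  apply Algebra.TensorProduct.ext'
  intro r a
  rw [AlgHom.comp_apply, Algebra.TensorProduct.map_tmul]
  show χ ((1 : R) ⊗ₜ[k] (χ (r ⊗ₜ[k] (1 : A)) • a)) = _
  rw [TensorProduct.tmul_smul, map_smul, smul_eq_mul, ← map_mul,
    Algebra.TensorProduct.tmul_mul_tmul, mul_one, one_mul]

variable [IsAlgClosed k] [Algebra.FiniteType k R]

instance finiteType_AR : Algebra.FiniteType k (D.AR R) :=
  Algebra.FiniteType.trans (inferInstance : Algebra.FiniteType k R) inferInstance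

instance finiteType_AR₁ : Algebra.FiniteType k (D.AR₁ R) :=
  Algebra.FiniteType.trans (inferInstance : Algebra.FiniteType k R) inferInstance

theorem cyclicMod_pos (h : IsChartHom D σ) (𝔫 : Ideal (D.AR R)) [𝔫.IsMaximal] :
    CyclicMod 𝔫 (posSub h) := by
  obtain ⟨χ, hχ⟩ := exists_point (k := k) 𝔫
  obtain ⟨χ', hχ'⟩ := exists_lifted_point χ
  set φ : R →ₐ[k] k := χ.comp (Algebra.TensorProduct.includeLeft (S := k)) with hφ
  have hsurj : Function.Surjective χ'.toRingHom := fun r => ⟨algebraMap k _ r, χ'.commutes r⟩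
  haveI : (RingHom.ker χ'.toRingHom).IsMaximal := RingHom.ker_isMaximal_of_surjective _ hsurj
  refine cyclicMod_of_surjective (mapPos h φ) (surjective_tensor_map φ) ?_ 𝔫
    (RingHom.ker χ'.toRingHom) ?_ ?_ (cyclicMod_pos_k (h.map φ) _)
  · intro w
    have hw : w ∈ Submodule.span (D.AR k) (Set.range (posVec (h.map φ))) :=
      span_posVec (h.map φ) ▸ Submodule.mem_top
    induction hw using Submodule.span_induction with
    | mem v hv => obtain ⟨i, rfl⟩ := hv; exact ⟨posVec h i, mapPos_posVec h φ i⟩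
    | zero => exact ⟨0, map_zero _⟩
    | add p q _ _ hp hq =>
      obtain ⟨a, rfl⟩ := hp; obtain ⟨b, rfl⟩ := hq; exact ⟨a + b, map_add _ _ _⟩
    | smul c p _ hp =>
      obtain ⟨a, rfl⟩ := hp
      obtain ⟨c₀, rfl⟩ := surjective_tensor_map φ (A := D.A) c
      exact ⟨c₀ • a, map_smulₛₗ _ _ _⟩
  · rw [RingHom.comap_ker]
    exact (congrArg RingHom.ker (congrArg AlgHom.toRingHom hχ')).trans hχ
  · intro v hv
    refine mem_smul_top_pos h 𝔫 v fun i n => ?_
    rw [← hχ, RingHom.mem_ker]
    have : φ (((v : FrameMod σ) i).coeff n) = 0 := by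
      rw [← coeff_mapLau φ]
      exact congrArg (fun w : FrameMod (mapHom φ σ) => (w i).coeff n) (congrArg Subtype.val hv)
    exact this

theorem cyclicMod_neg (h : IsChartHom D σ) (𝔫 : Ideal (D.AR₁ R)) [𝔫.IsMaximal] :
    CyclicMod 𝔫 (negSub h) := by
  obtain ⟨χ, hχ⟩ := exists_point (k := k) 𝔫
  obtain ⟨χ', hχ'⟩ := exists_lifted_point χ
  set φ : R →ₐ[k] k := χ.comp (Algebra.TensorProduct.includeLeft (S := k)) with hφ
  have hsurj : Function.Surjective χ'.toRingHom := fun r => ⟨algebraMap k _ r, χ'.commutes r⟩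
  haveI : (RingHom.ker χ'.toRingHom).IsMaximal := RingHom.ker_isMaximal_of_surjective _ hsurj
  refine cyclicMod_of_surjective (mapNeg h φ) (surjective_tensor_map φ) ?_ 𝔫
    (RingHom.ker χ'.toRingHom) ?_ ?_ (cyclicMod_neg_k (h.map φ) _)
  · intro w
    have hw : w ∈ Submodule.span (D.AR₁ k) (Set.range (negVec (h.map φ))) :=
      span_negVec (h.map φ) ▸ Submodule.mem_top
    induction hw using Submodule.span_induction with
    | mem v hv => obtain ⟨i, rfl⟩ := hv; exact ⟨negVec h i, mapNeg_negVec h φ i⟩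
    | zero => exact ⟨0, map_zero _⟩
    | add p q _ _ hp hq =>
      obtain ⟨a, rfl⟩ := hp; obtain ⟨b, rfl⟩ := hq; exact ⟨a + b, map_add _ _ _⟩
    | smul c p _ hp =>
      obtain ⟨a, rfl⟩ := hp
      obtain ⟨c₀, rfl⟩ := surjective_tensor_map φ (A := D.A₁) c
      exact ⟨c₀ • a, map_smulₛₗ _ _ _⟩
  · rw [RingHom.comap_ker]
    exact (congrArg RingHom.ker (congrArg AlgHom.toRingHom hχ')).trans hχ
  · intro v hv
    refine mem_smul_top_neg h 𝔫 v fun i n => ?_
    rw [← hχ, RingHom.mem_ker]
    have : φ (((v : FrameMod σ) i).coeff n) = 0 := by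
      rw [← coeff_mapLau φ]
      exact congrArg (fun w : FrameMod (mapHom φ σ) => (w i).coeff n) (congrArg Subtype.val hv)
    exact this

theorem invertible_pos (h : IsChartHom D σ) : Module.Invertible (D.AR R) (posSub h) :=
  invertible_of_cyclicMod (faithful_pos h) fun 𝔫 _ => cyclicMod_pos h 𝔫

theorem invertible_neg (h : IsChartHom D σ) : Module.Invertible (D.AR₁ R) (negSub h) :=
  invertible_of_cyclicMod (faithful_neg h) fun 𝔫 _ => cyclicMod_neg h 𝔫

end Fermat.Agent.Jac.Chart
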