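import Fermat.Agent.Jac.Chart.ChartHom
import Mathlib.RingTheory.PicardGroup
import Mathlib.RingTheory.DedekindDomain.Ideal.Lemmas
import Mathlib.RingTheory.Nilpotent.Basic

/-!
# Generators of a rigid bundle modulo `y`

If `L` is rigid, any `G` over `1` generates `N / yN` freely in the basis `t ^ i • G`, `i < d`;
`t ^ d = w y` with `w` invertible modulo `y` when `2 ≤ d`.
-/

set_option autoImplicit false
set_option linter.style.haveILetI false

universe u

noncomputable section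

open TensorProduct

namespace Fermat.Agent.Jac.Chart

variable {k : Type u} [Field k] {D : CurveData.{u} k} {R : Type u} [CommRing R] [Algebra k R]

variable (D R) in
/-- The uniformiser over `R`. -/
abbrev tR : D.AR₁ R := (1 : R) ⊗ₜ[k] D.t

theorem dvd_t_pow_d : D.yR R ∣ tR D R ^ D.d := by
  obtain ⟨w, hw⟩ := Ideal.mem_span_singleton.mp D.t_pow_d
  refine ⟨1 ⊗ₜ w, ?_⟩
  rw [Algebra.TensorProduct.tmul_pow, one_pow, hw, Algebra.TensorProduct.tmul_mul_tmul, one_mul]

/-- A combination of jets divisible by `y` is zero. -/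
theorem jets_independent (c : Fin D.d → R)
    (h : D.yR R ∣ ∑ i, c i • tR D R ^ (i : ℕ)) : c = 0 := by
  classical
  obtain ⟨z, hz⟩ := h
  let e := Module.Basis.ofVectorSpace k R
  have hl : ∀ l, (fun i => e.repr (c i) l) = 0 := by
    intro l
    apply D.basis_jets.1
    show Ideal.Quotient.mk _ _ = Ideal.Quotient.mk _ _
    rw [Ideal.Quotient.eq]
    simp only [Pi.zero_apply, map_zero, zero_mul, Finset.sum_const_zero, sub_zero]
    rw [Ideal.mem_span_singleton]
    have := congrArg (fun w => TensorProduct.equivFinsuppOfBasisLeft e w l) hz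
    simp only [map_sum, Finsupp.finsetSum_apply] at this
    have e1 : ∀ i : Fin D.d, TensorProduct.equivFinsuppOfBasisLeft e
        (c i • tR D R ^ (i : ℕ)) l = algebraMap k D.A₁ (e.repr (c i) l) * D.t ^ (i : ℕ) := fun i => by
      rw [Algebra.TensorProduct.tmul_pow, one_pow, TensorProduct.smul_tmul', smul_eq_mul, mul_one,
        TensorProduct.equivFinsuppOfBasisLeft_apply_tmul_apply, Algebra.smul_def]
    simp only [e1] at this
    rw [this]
    clear hz this
    induction z using TensorProduct.induction_on with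
    | zero => simp
    | tmul r b =>
      rw [Algebra.TensorProduct.tmul_mul_tmul, one_mul,
        TensorProduct.equivFinsuppOfBasisLeft_apply_tmul_apply, Algebra.smul_def]
      exact dvd_mul_of_dvd_right (dvd_mul_right _ _) _
    | add p q hp hq =>
      rw [mul_add, map_add, Finsupp.add_apply]
      exact dvd_add hp hq
  funext i
  refine e.repr.injective (Finsupp.ext fun l => ?_)
  rw [Pi.zero_apply, map_zero]
  exact congrFun (hl l) i

theorem ker_evR_le {z : D.AR₁ R} (hz : D.evR z = 0) :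
    ∃ a b, z = tR D R * a + D.yR R * b := by
  obtain ⟨c, z', rfl⟩ := exists_jets z
  rw [map_add, map_mul, evR_yR, zero_mul, add_zero, map_sum] at hz
  simp only [map_smul, map_pow, evR_tmul, D.ev_t, zero_smul, smul_eq_mul] at hz
  rw [Finset.sum_eq_single ⟨0, D.d_pos⟩ (fun i _ hi => by
    rw [zero_pow (fun e => hi (Fin.ext e)), mul_zero]) (by simp), pow_zero, mul_one] at hz
  refine ⟨∑ i ∈ Finset.univ.erase ⟨0, D.d_pos⟩, c i • tR D R ^ ((i : ℕ) - 1), z', ?_⟩
  rw [← Finset.add_sum_erase _ _ (Finset.mem_univ (⟨0, D.d_pos⟩ : Fin D.d)), hz, zero_smul,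
    zero_add, Finset.mul_sum]
  congr 1
  refine Finset.sum_congr rfl fun i hi => ?_
  have : (i : ℕ) ≠ 0 := fun e => (Finset.mem_erase.mp hi).1 (Fin.ext e)
  rw [mul_smul_comm, ← pow_succ', show (i : ℕ) - 1 + 1 = i by omega]

theorem eq_sum_jets (a : D.A₁) : ∃ (c : Fin D.d → k) (b : D.A₁),
    a = ∑ i, algebraMap k D.A₁ (c i) * D.t ^ (i : ℕ) + D.y * b := by
  obtain ⟨c, hc⟩ := D.basis_jets.2 (Ideal.Quotient.mk _ a)
  obtain ⟨b, hb⟩ := Ideal.mem_span_singleton'.mp (Ideal.Quotient.eq.mp hc.symm)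
  exact ⟨c, b, by rw [mul_comm D.y, hb, add_sub_cancel]⟩

theorem ev_sum_jets (c : Fin D.d → k) (b : D.A₁) :
    D.ev (∑ i, algebraMap k D.A₁ (c i) * D.t ^ (i : ℕ) + D.y * b) = c ⟨0, D.d_pos⟩ := by
  rw [map_add, map_mul, D.ev_y, zero_mul, add_zero, map_sum,
    Finset.sum_eq_single (⟨0, D.d_pos⟩ : Fin D.d) (fun i _ hi => by
      rw [map_mul, map_pow, D.ev_t, zero_pow (fun e => hi (Fin.ext e)), mul_zero]) (by simp),
    pow_zero, mul_one, D.ev.commutes]
  rfl

theorem ker_ev_eq : RingHom.ker D.ev.toRingHom = Ideal.span {D.t, D.y} := by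
  refine le_antisymm (fun a ha => ?_) (Ideal.span_le.mpr ?_)
  · obtain ⟨c, b, rfl⟩ := eq_sum_jets a
    have h0 : c ⟨0, D.d_pos⟩ = 0 := (ev_sum_jets c b).symm.trans ha
    refine add_mem (Ideal.sum_mem _ fun i _ => ?_)
      (Ideal.mul_mem_right _ _ (Ideal.subset_span (Or.inr rfl)))
    rcases Nat.eq_zero_or_eq_succ_pred (i : ℕ) with hi | hi
    · rw [show i = ⟨0, D.d_pos⟩ from Fin.ext hi, h0, map_zero, zero_mul]
      exact zero_mem _
    · rw [hi, pow_succ, ← mul_assoc]
      exact Ideal.mul_mem_left _ _ (Ideal.subset_span (Or.inl rfl))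
  · rintro a (rfl | rfl)
    · exact D.ev_t
    · exact D.ev_y

theorem ker_ev_isMaximal : (RingHom.ker D.ev.toRingHom).IsMaximal :=
  RingHom.ker_isMaximal_of_surjective _ fun r => ⟨algebraMap k _ r, D.ev.commutes r⟩

theorem ker_ev_pow_le (n : ℕ) :
    RingHom.ker D.ev.toRingHom ^ n ≤ Ideal.span {D.t ^ n} ⊔ Ideal.span {D.y} := by
  rw [ker_ev_eq]
  induction n with
  | zero => rw [pow_zero, pow_zero, Ideal.span_singleton_one, top_sup_eq]; exact le_top
  | succ n ih =>
    rw [pow_succ]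
    refine (Ideal.mul_mono ih le_rfl).trans ?_
    rw [Ideal.mul_le]
    intro r hr s hs
    obtain ⟨r₁, hr₁, r₂, hr₂, rfl⟩ := Submodule.mem_sup.mp hr
    obtain ⟨a, b, rfl⟩ := Ideal.mem_span_pair.mp hs
    obtain ⟨c, rfl⟩ := Ideal.mem_span_singleton'.mp hr₁
    obtain ⟨e, rfl⟩ := Ideal.mem_span_singleton'.mp hr₂
    refine Submodule.mem_sup.mpr ⟨c * a * D.t ^ (n + 1), Ideal.mem_span_singleton'.mpr ⟨_, rfl⟩,
      (c * D.t ^ n * b + e * a * D.t + e * D.y * b) * D.y,
      Ideal.mem_span_singleton'.mpr ⟨_, rfl⟩, ?_⟩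
    ring

theorem y_ne_zero' : D.y ≠ 0 := fun h => Polynomial.X_ne_zero (D.injective_y (by simp [h]))

theorem ker_ev_ne_bot : RingHom.ker D.ev.toRingHom ≠ ⊥ := fun h =>
  y_ne_zero' (D := D) (show D.y ∈ (⊥ : Ideal D.A₁) from h ▸ D.ev_y)

theorem span_y_eq_pow : Ideal.span {D.y} = RingHom.ker D.ev.toRingHom ^ D.d := by
  have hdvd : Ideal.span {D.y} ∣ RingHom.ker D.ev.toRingHom ^ D.d :=
    Ideal.dvd_iff_le.mpr <| (ker_ev_pow_le D.d).trans
      (sup_le (Ideal.span_le.mpr (Set.singleton_subset_iff.mpr D.t_pow_d)) le_rfl)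
  have hprime : Prime (RingHom.ker D.ev.toRingHom) :=
    Ideal.prime_of_isPrime ker_ev_ne_bot ker_ev_isMaximal.isPrime
  obtain ⟨j, hj, hassoc⟩ := (dvd_prime_pow hprime _).mp hdvd
  have heq : Ideal.span {D.y} = RingHom.ker D.ev.toRingHom ^ j := associated_iff_eq.mp hassoc
  rcases lt_or_eq_of_le hj with hlt | rfl
  · exfalso
    have htj : D.t ^ j ∈ Ideal.span {D.y} :=
      heq ▸ Ideal.pow_mem_pow (show D.t ∈ RingHom.ker D.ev.toRingHom from D.ev_t) j
    have hc := D.basis_jets.1 (a₁ := fun i : Fin D.d => if (i : ℕ) = j then 1 else 0) (a₂ := 0) (by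
      show Ideal.Quotient.mk _ _ = Ideal.Quotient.mk _ _
      rw [Ideal.Quotient.eq]
      simp only [Pi.zero_apply, map_zero, zero_mul, Finset.sum_const_zero, sub_zero]
      rw [Finset.sum_eq_single ⟨j, hlt⟩ (fun i _ hi => by
        rw [if_neg (fun e => hi (Fin.ext e)), map_zero, zero_mul]) (by simp)]
      simpa using htj)
    simpa using congrFun hc ⟨j, hlt⟩
  · exact heq

theorem ev_cofactor_ne_zero (hd : 2 ≤ D.d) {w : D.A₁} (hw : D.t ^ D.d = D.y * w) :
    D.ev w ≠ 0 := by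
  intro hw0
  set m := RingHom.ker D.ev.toRingHom with hm
  have hprime : Prime m := Ideal.prime_of_isPrime ker_ev_ne_bot ker_ev_isMaximal.isPrime
  have hy : D.y ∈ m ^ D.d := hm ▸ span_y_eq_pow (D := D) ▸ Ideal.mem_span_singleton_self _
  have h1 : m ^ (D.d + 1) ∣ Ideal.span {D.t} ^ D.d := by
    rw [Ideal.dvd_iff_le, Ideal.span_singleton_pow, Ideal.span_le, Set.singleton_subset_iff, hw,
      SetLike.mem_coe, pow_succ]
    exact Ideal.mul_mem_mul hy hw0
  obtain ⟨J, hJ⟩ : m ∣ Ideal.span {D.t} :=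
    Ideal.dvd_iff_le.mpr (Ideal.span_le.mpr (Set.singleton_subset_iff.mpr D.ev_t))
  rw [hJ, mul_pow, pow_succ] at h1
  have h3 : m ∣ J :=
    hprime.dvd_of_dvd_pow ((mul_dvd_mul_iff_left (pow_ne_zero _ hprime.ne_zero)).mp h1)
  have ht2 : D.t ∈ m ^ 2 := by
    have : Ideal.span {D.t} ≤ m ^ 2 := by
      rw [← Ideal.dvd_iff_le, hJ, sq]; exact mul_dvd_mul_left m h3
    exact this (Ideal.mem_span_singleton_self _)
  have hy2 : D.y ∈ m ^ 2 := Ideal.pow_le_pow_right hd hy
  have hle : m ≤ m ^ 2 := by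
    conv_lhs => rw [hm, ker_ev_eq]
    exact Ideal.span_le.mpr (Set.insert_subset ht2 (Set.singleton_subset_iff.mpr hy2))
  have := Ideal.pow_right_strictAnti m ker_ev_ne_bot ker_ev_isMaximal.ne_top
    (show 1 < 2 by norm_num)
  exact not_le_of_gt (show m ^ 2 < m by simpa only [pow_one] using this) hle

/-- The cofactor of `y` in `t ^ d` is invertible modulo `y` when `2 ≤ d`. -/
theorem exists_cofactor (hd : 2 ≤ D.d) :
    ∃ w v z : D.A₁, D.t ^ D.d = D.y * w ∧ w * v = 1 + D.y * z := by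
  obtain ⟨w, hw⟩ := Ideal.mem_span_singleton.mp D.t_pow_d
  obtain ⟨c, b, hc⟩ := eq_sum_jets w
  have hc0 : c ⟨0, D.d_pos⟩ ≠ 0 := fun h0 =>
    ev_cofactor_ne_zero hd hw (by rw [hc, ev_sum_jets, h0])
  set q := Ideal.Quotient.mk (Ideal.span {D.y})
  have hy : q D.y = 0 := Ideal.Quotient.eq_zero_iff_mem.mpr (Ideal.mem_span_singleton_self _)
  have hnil : IsNilpotent (q D.t) := ⟨D.d, by
    rw [← map_pow]; exact Ideal.Quotient.eq_zero_iff_mem.mpr D.t_pow_d⟩
  have hu : IsUnit (q w) := by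
    rw [hc, map_add, map_mul, hy, zero_mul, add_zero, map_sum,
      ← Finset.add_sum_erase _ _ (Finset.mem_univ (⟨0, D.d_pos⟩ : Fin D.d)), pow_zero, mul_one]
    refine IsNilpotent.isUnit_add_left_of_commute ?_ ?_ (Commute.all _ _)
    · refine isNilpotent_sum fun i hi => ?_
      rw [map_mul, map_pow]
      exact (Commute.all _ _).isNilpotent_mul_left
        (hnil.pow_of_pos (fun e => (Finset.mem_erase.mp hi).1 (Fin.ext e)))
    · exact ((isUnit_iff_ne_zero.mpr hc0).map (algebraMap k D.A₁)).map q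
  obtain ⟨v', hv'⟩ := isUnit_iff_exists_inv.mp hu
  obtain ⟨v, rfl⟩ := Ideal.Quotient.mk_surjective v'
  rw [← map_mul, ← map_one q] at hv'
  obtain ⟨z, hz⟩ := Ideal.mem_span_singleton.mp (Ideal.Quotient.eq.mp hv')
  exact ⟨w, v, z, hw, by rw [← hz]; ring⟩

section Bundle

variable (L : LineData D R)

/-- Congruence modulo `y`. -/
def ModY (a b : L.N) : Prop := ∃ z, a - b = D.yR R • z

variable {L}

theorem ModY.refl (a : L.N) : ModY L a a := ⟨0, by simp⟩

theorem ModY.symm {a b : L.N} (h : ModY L a b) : ModY L b a := by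
  obtain ⟨z, hz⟩ := h
  exact ⟨-z, by rw [smul_neg, ← hz, neg_sub]⟩

theorem ModY.trans {a b c : L.N} (h : ModY L a b) (h' : ModY L b c) : ModY L a c := by
  obtain ⟨z, hz⟩ := h
  obtain ⟨z', hz'⟩ := h'
  exact ⟨z + z', by rw [smul_add, ← hz, ← hz', sub_add_sub_cancel]⟩

theorem ModY.add {a b a' b' : L.N} (h : ModY L a b) (h' : ModY L a' b') :
    ModY L (a + a') (b + b') := by
  obtain ⟨z, hz⟩ := h
  obtain ⟨z', hz'⟩ := h'
  exact ⟨z + z', by rw [smul_add, ← hz, ← hz']; abel⟩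

theorem ModY.smul {a b : L.N} (h : ModY L a b) (c : D.AR₁ R) : ModY L (c • a) (c • b) := by
  obtain ⟨z, hz⟩ := h
  exact ⟨c • z, by rw [← smul_sub, hz, smul_comm]⟩

theorem ModY.of_eq_add {a b z : L.N} (h : a = b + D.yR R • z) : ModY L a b :=
  ⟨z, by rw [h, add_sub_cancel_left]⟩

/-- `y`-multiples are congruent to zero. -/
theorem modY_smul_yR (z : L.N) : ModY L (D.yR R • z) 0 := ⟨z, sub_zero _⟩

theorem ModY.sum {ι : Type*} (s : Finset ι) {a b : ι → L.N} (h : ∀ i ∈ s, ModY L (a i) (b i)) :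
    ModY L (∑ i ∈ s, a i) (∑ i ∈ s, b i) := by
  classical
  induction s using Finset.induction with
  | empty => simpa using ModY.refl (L := L) 0
  | insert i s hi ih =>
    rw [Finset.sum_insert hi, Finset.sum_insert hi]
    exact (h i (Finset.mem_insert_self i s)).add
      (ih fun j hj => h j (Finset.mem_insert_of_mem hj))

variable {g : L.N →ₛₗ[(D.evR (R := R)).toRingHom] R} {G : L.N} (hG : g G = 1)
include hG

omit hG in
theorem exists_dual : ∃ s : Finset (Module.Dual (D.AR₁ R) L.N × L.N),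
    ∑ p ∈ s, p.1 p.2 = 1 := by
  obtain ⟨S, hS⟩ := TensorProduct.exists_finset
    ((Module.Invertible.linearEquiv (D.AR₁ R) L.N).symm 1)
  refine ⟨S, ?_⟩
  have := congrArg (Module.Invertible.linearEquiv (D.AR₁ R) L.N) hS
  rw [LinearEquiv.apply_symm_apply, map_sum] at this
  rw [this]
  exact Finset.sum_congr rfl fun p _ => by simp [Module.Invertible.linearEquiv]

omit hG in
theorem swap (f : Module.Dual (D.AR₁ R) L.N) (m n : L.N) : f m • n = f n • m := by
  have h := congrArg (TensorProduct.lift ((LinearMap.lsmul (D.AR₁ R) L.N).comp f))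
    (Module.Invertible.tmul_comm (R := D.AR₁ R) (M := L.N) (m₁ := m) (m₂ := n))
  simpa using h

/-- A generator over `1` generates up to the maximal ideal at `ε`. -/
theorem exists_step (n : L.N) : ∃ a b : L.N,
    n = g n • G + (tR D R • a + D.yR R • b) := by
  obtain ⟨s, hs⟩ := exists_dual (L := L)
  have hmem : ∀ p ∈ s, ∃ a b : D.AR₁ R,
      p.1 n = algebraMap R (D.AR₁ R) (g n) * p.1 G + (tR D R * a + D.yR R * b) := by
    intro p _
    have h := congrArg g (swap p.1 G n)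
    rw [map_smulₛₗ, map_smulₛₗ, hG, smul_eq_mul, smul_eq_mul, mul_one] at h
    obtain ⟨a, b, hab⟩ := ker_evR_le (z := p.1 n - algebraMap R (D.AR₁ R) (g n) * p.1 G) (by
      rw [map_sub, map_mul, AlgHom.commutes, Algebra.algebraMap_self, RingHom.id_apply, mul_comm]
      exact sub_eq_zero.mpr h.symm)
    exact ⟨a, b, by rw [← hab]; ring⟩
  choose! a b hab using hmem
  refine ⟨∑ p ∈ s, a p • p.2, ∑ p ∈ s, b p • p.2, ?_⟩
  have h1 : n = ∑ p ∈ s, p.1 n • p.2 := by
    calc n = (∑ p ∈ s, p.1 p.2) • n := by rw [hs, one_smul]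
      _ = _ := by
        rw [Finset.sum_smul]; exact Finset.sum_congr rfl fun p _ => swap p.1 p.2 n
  have hG' : G = ∑ p ∈ s, p.1 G • p.2 := by
    calc G = (∑ p ∈ s, p.1 p.2) • G := by rw [hs, one_smul]
      _ = _ := by
        rw [Finset.sum_smul]; exact Finset.sum_congr rfl fun p _ => swap p.1 p.2 G
  conv_lhs => rw [h1]
  conv_rhs => rw [hG', ← algebraMap_smul (D.AR₁ R) (g n)]
  rw [Finset.smul_sum, Finset.smul_sum, Finset.smul_sum, ← Finset.sum_add_distrib,
    ← Finset.sum_add_distrib]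
  refine Finset.sum_congr rfl fun p hp => ?_
  rw [hab p hp, add_smul, add_smul, mul_smul, mul_smul, mul_smul]

theorem exists_expansion (n : L.N) : ∀ l, ∃ (c : ℕ → R) (a : L.N),
    ModY L n (∑ i ∈ Finset.range l, c i • tR D R ^ i • G + tR D R ^ l • a) := by
  intro l
  induction l with
  | zero => exact ⟨0, n, by simpa using ModY.refl n⟩
  | succ l ih =>
    obtain ⟨c, a, h⟩ := ih
    obtain ⟨a', b', e⟩ := exists_step hG a
    refine ⟨fun i => if i = l then g a else c i, a', h.trans ?_⟩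
    have e1 : ∑ i ∈ Finset.range l, (if i = l then g a else c i) • tR D R ^ i • G =
        ∑ i ∈ Finset.range l, c i • tR D R ^ i • G :=
      Finset.sum_congr rfl fun i hi => by rw [if_neg (Finset.mem_range.mp hi).ne]
    refine ModY.of_eq_add (z := tR D R ^ l • b') ?_
    simp only [Finset.sum_range_succ, e1, if_pos]
    conv_lhs => rw [e, smul_add, smul_add, smul_comm (tR D R ^ l) (g a), smul_comm _ (D.yR R),
      smul_smul (tR D R ^ l) (tR D R), ← pow_succ]
    abel

/-- `t ^ i • G`, `i < d`, span modulo `y`. -/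
theorem exists_jet_coords (n : L.N) :
    ∃ c : Fin D.d → R, ModY L n (∑ i, c i • tR D R ^ (i : ℕ) • G) := by
  obtain ⟨c, a, h⟩ := exists_expansion hG n D.d
  refine ⟨fun i => c i, h.trans ?_⟩
  obtain ⟨w, hw⟩ := dvd_t_pow_d (D := D) (R := R)
  refine ModY.of_eq_add (z := w • a) ?_
  rw [Fin.sum_univ_eq_sum_range (fun i => c i • tR D R ^ i • G), hw, mul_smul]

/-- `t ^ i • G`, `i < d`, are independent modulo `y`. -/
theorem jet_coords_unique {c : Fin D.d → R} (h : ModY L (∑ i, c i • tR D R ^ (i : ℕ) • G) 0) :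
    c = 0 := by
  refine jets_independent c ?_
  set b := ∑ i, c i • tR D R ^ (i : ℕ) with hb
  have hbG : b • G = ∑ i, c i • tR D R ^ (i : ℕ) • G := by
    rw [hb, Finset.sum_smul]; simp_rw [smul_assoc]
  rw [← hbG] at h
  obtain ⟨z, hz⟩ := h
  rw [sub_zero] at hz
  obtain ⟨s, hs⟩ := exists_dual (L := L)
  have hall : ∀ (f : Module.Dual (D.AR₁ R) L.N) (m : L.N), D.yR R ∣ b * f m := by
    intro f m
    obtain ⟨γ, hγ⟩ := exists_jet_coords hG m
    obtain ⟨z', hz'⟩ := hγ
    have hm : m = (∑ i, γ i • tR D R ^ (i : ℕ)) • G + D.yR R • z' := by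
      rw [← hz', Finset.sum_smul]; simp_rw [smul_assoc]; abel
    rw [hm, map_add, map_smul, map_smul, smul_eq_mul, smul_eq_mul, mul_add, mul_left_comm]
    refine dvd_add (dvd_mul_of_dvd_right ?_ _) (dvd_mul_of_dvd_right (dvd_mul_right _ _) _)
    refine ⟨f z, ?_⟩
    rw [← smul_eq_mul b, ← map_smul, hz, map_smul, smul_eq_mul]
  have h1 : b = ∑ p ∈ s, b * p.1 p.2 := by rw [← Finset.mul_sum, hs, mul_one]
  rw [h1]
  exact Finset.dvd_sum fun p _ => hall p.1 p.2

end Bundle

end Fermat.Agent.Jac.Chart
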