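import Fermat.Agent.Jac.Chart.Classify

/-!
# The chart of the Jacobian classifying bundles without cohomology
-/

set_option autoImplicit false
set_option linter.style.haveILetI false

universe u

noncomputable section

namespace Fermat.Agent.Jac.Chart

variable {k : Type u} [Field k] (D : CurveData.{u} k) [IsAlgClosed k]

/-- Rigid line bundles without cohomology are classified by an affine scheme of finite type. -/
theorem exists_universal_noCoh : ∃ (U : Type u) (_ : CommRing U) (_ : Algebra k U),
    Algebra.FiniteType k U ∧ ∃ Lu : LineData D U, Function.Bijective Lu.δ ∧ Lu.Rigid ∧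
      ∀ (R : Type u) [CommRing R] [Algebra k R] (L : LineData D R),
        Function.Bijective L.δ → L.Rigid →
          ∃! φ : U →ₐ[k] R, Nonempty (LineData.Pullback φ Lu L) := by
  have h := isChartHom_univHom D
  haveI := finiteType_chartRing D
  haveI := invertible_pos h
  haveI := invertible_neg h
  refine ⟨ChartRing D, inferInstance, inferInstance, inferInstance, chartData h,
    chartData_bijective h, chartData_rigid h, ?_⟩
  intro R _ _ L hL hR
  obtain ⟨g, hg⟩ := hR
  obtain ⟨G₀, hG₀⟩ := hg 1
  obtain ⟨G, hn⟩ := exists_normalised hL hG₀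
  obtain ⟨φ, hφ⟩ := exists_point_hom (isChartHom_frameHom hL hn)
  refine ⟨φ, ⟨framePullback h hL hn.g_eq hφ⟩, ?_⟩
  rintro ψ ⟨p⟩
  exact point_hom_unique ((mapHom_eq_frameHom h hL hg hn p).trans hφ.symm)

end Fermat.Agent.Jac.Chart
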