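import Fermat.Agent.Jac.Chart.ChartHom

/-!
# The line data of a chart hom

`FrameMod σ = R[T,T⁻¹] ^ d` with `B` acting through `σ`; the sections on `C ∖ ε` are the vectors
of polynomials and the sections at `ε` the vectors supported in negative degrees.  This has no
cohomology and is rigid at `ε`.
-/

set_option autoImplicit false
set_option linter.style.haveILetI false

universe u

noncomputable section

open LaurentPolynomial TensorProduct

namespace Fermat.Agent.Jac.Chart

variable {k : Type u} [Field k] {D : CurveData.{u} k} {R : Type u} [CommRing R] [Algebra k R]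

/-- The frame `R[T,T⁻¹] ^ d`, with the action of `σ`. -/
def FrameMod (_σ : D.B →ₐ[k] Mat D R) : Type u := Fin D.d → R[T;T⁻¹]

variable {σ : D.B →ₐ[k] Mat D R}

instance : AddCommGroup (FrameMod σ) := inferInstanceAs (AddCommGroup (Fin D.d → R[T;T⁻¹]))

instance : Module R (FrameMod σ) := inferInstanceAs (Module R (Fin D.d → R[T;T⁻¹]))

variable (σ) in
/-- Matrices act on the frame. -/
def actEnd : D.BR R →+* Module.End R[T;T⁻¹] (Fin D.d → R[T;T⁻¹]) :=
  (Matrix.toLinAlgEquiv' (R := R[T;T⁻¹]) (n := Fin D.d)).toAlgHom.toRingHom.comp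
    (rho σ).toRingHom

instance : Module (D.BR R) (FrameMod σ) :=
  Module.compHom (Fin D.d → R[T;T⁻¹]) (actEnd σ)

theorem smul_frame (b : D.BR R) (v : FrameMod σ) :
    b • v = (Matrix.mulVec (rho σ b) v : Fin D.d → R[T;T⁻¹]) := rfl

theorem smul_frame_apply (b : D.BR R) (v : FrameMod σ) (i : Fin D.d) :
    (b • v) i = ∑ j, rho σ b i j * v j := rfl

instance : IsScalarTower R (D.BR R) (FrameMod σ) :=
  ⟨fun r b v => by
    rw [smul_frame, smul_frame, map_smul]
    exact Matrix.smul_mulVec r (rho σ b) (v : Fin D.d → R[T;T⁻¹])⟩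

instance : Module (D.AR R) (FrameMod σ) :=
  Module.compHom (FrameMod σ) (algebraMap (D.AR R) (D.BR R))

instance : Module (D.AR₁ R) (FrameMod σ) :=
  Module.compHom (FrameMod σ) (algebraMap (D.AR₁ R) (D.BR R))

instance : IsScalarTower (D.AR R) (D.BR R) (FrameMod σ) :=
  ⟨fun a b v => by
    rw [Algebra.smul_def, mul_smul]
    rfl⟩

instance : IsScalarTower (D.AR₁ R) (D.BR R) (FrameMod σ) :=
  ⟨fun a b v => by
    rw [Algebra.smul_def, mul_smul]
    rfl⟩

instance : IsScalarTower R (D.AR R) (FrameMod σ) :=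
  ⟨fun r a v => by
    show algebraMap (D.AR R) (D.BR R) (r • a) • v = r • (algebraMap (D.AR R) (D.BR R) a • v)
    rw [← IsScalarTower.toAlgHom_apply R (D.AR R) (D.BR R), map_smul, smul_assoc]
    rfl⟩

instance : IsScalarTower R (D.AR₁ R) (FrameMod σ) :=
  ⟨fun r a v => by
    show algebraMap (D.AR₁ R) (D.BR R) (r • a) • v = r • (algebraMap (D.AR₁ R) (D.BR R) a • v)
    rw [← IsScalarTower.toAlgHom_apply R (D.AR₁ R) (D.BR R), map_smul, smul_assoc]
    rfl⟩

theorem smul_frame_AR (a : D.AR R) (v : FrameMod σ) :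
    a • v = algebraMap (D.AR R) (D.BR R) a • v := rfl

theorem smul_frame_AR₁ (a : D.AR₁ R) (v : FrameMod σ) :
    a • v = algebraMap (D.AR₁ R) (D.BR R) a • v := rfl

theorem IsChartHom.yB_pow_smul (h : IsChartHom D σ) (n : ℕ) (v : FrameMod σ) (i : Fin D.d) :
    (algebraMap (D.AR₁ R) (D.BR R) (D.yR R) ^ n • v) i = T (-(n : ℤ)) * v i := by
  rw [smul_frame_apply, map_pow, h.rho_yR, smul_pow, one_pow, T_pow,
    show (n : ℤ) * -1 = -(n : ℤ) by ring]
  simp [Matrix.one_apply]

theorem IsChartHom.xB_pow_smul (h : IsChartHom D σ) (n : ℕ) (v : FrameMod σ) (i : Fin D.d) :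
    (algebraMap (D.AR R) (D.BR R) (D.xR R) ^ n • v) i = T (n : ℤ) * v i := by
  rw [smul_frame_apply, map_pow, h.rho_xR, smul_pow, one_pow, T_pow, mul_one]
  simp [Matrix.one_apply]

/-- The vectors of polynomials. -/
def posSub (h : IsChartHom D σ) : Submodule (D.AR R) (FrameMod σ) where
  carrier := {v | ∀ i, GeSupp 0 (v i)}
  add_mem' hv hw i := (hv i).add (hw i)
  zero_mem' _ := geSupp_zero 0
  smul_mem' a v hv i := by
    rw [smul_frame_AR, smul_frame_apply]
    exact GeSupp.sum fun j _ => by simpa using (h.rho_poly a i j).mul (hv j)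

/-- The vectors supported in negative degrees. -/
def negSub (h : IsChartHom D σ) : Submodule (D.AR₁ R) (FrameMod σ) where
  carrier := {v | ∀ i, LeSupp (-1) (v i)}
  add_mem' hv hw i := (hv i).add (hw i)
  zero_mem' _ := leSupp_zero (-1)
  smul_mem' a v hv i := by
    rw [smul_frame_AR₁, smul_frame_apply]
    exact LeSupp.sum fun j _ => by simpa using (h.rho_neg a i j).mul (hv j)

variable (σ) in
/-- `T ^ m` in the coordinate `i`. -/
def unitVec (m : ℤ) (i : Fin D.d) : FrameMod σ := fun j => if j = i then T m else 0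

theorem unitVec_mem_posSub (h : IsChartHom D σ) (i : Fin D.d) : unitVec σ 0 i ∈ posSub h := by
  intro j
  rw [unitVec]
  split
  · exact geSupp_T le_rfl
  · exact geSupp_zero 0

theorem unitVec_mem_negSub (h : IsChartHom D σ) (i : Fin D.d) : unitVec σ (-1) i ∈ negSub h := by
  intro j
  rw [unitVec]
  split
  · exact leSupp_T le_rfl
  · exact leSupp_zero (-1)

/-- The basis vectors as sections on `C ∖ ε`. -/
def posVec (h : IsChartHom D σ) (i : Fin D.d) : posSub h :=
  ⟨unitVec σ 0 i, unitVec_mem_posSub h i⟩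

/-- The basis vectors as sections at `ε`. -/
def negVec (h : IsChartHom D σ) (i : Fin D.d) : negSub h :=
  ⟨unitVec σ (-1) i, unitVec_mem_negSub h i⟩

theorem sum_frame_apply {ι : Type*} (s : Finset ι) (f : ι → FrameMod σ) (i : Fin D.d) :
    (∑ l ∈ s, f l) i = ∑ l ∈ s, f l i :=
  Finset.sum_apply i s f

theorem span_posVec (h : IsChartHom D σ) :
    Submodule.span (D.AR R) (Set.range (posVec h)) = ⊤ := by
  rw [eq_top_iff]
  rintro ⟨v, hv⟩ -
  choose p hp using fun i => exists_toLaurent_of_geSupp (hv i)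
  have hsum : (⟨v, hv⟩ : posSub h) =
      ∑ i, ∑ n ∈ (p i).support, ((p i).coeff n • D.xR R ^ n) • posVec h i := by
    refine Subtype.ext (funext fun j => ?_)
    simp only [Submodule.coe_sum, Submodule.coe_smul, sum_frame_apply]
    rw [Finset.sum_eq_single j]
    · have : ∀ n : ℕ, (((p j).coeff n • D.xR R ^ n) • (posVec h j : FrameMod σ)) j =
          Polynomial.toLaurent (Polynomial.monomial n ((p j).coeff n)) := fun n => by
        rw [smul_assoc, smul_frame_AR, map_pow]
        show (p j).coeff n • ((algebraMap (D.AR R) (D.BR R) (D.xR R) ^ n •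
          (posVec h j : FrameMod σ)) j) = _
        rw [h.xB_pow_smul, Polynomial.toLaurent_C_mul_T, smul_eq_C_mul]
        simp [posVec, unitVec]
      rw [Finset.sum_congr rfl fun n _ => this n, ← map_sum, ← Polynomial.as_sum_support, hp]
    · intro i _ hne
      refine Finset.sum_eq_zero fun n _ => ?_
      rw [smul_assoc, smul_frame_AR, map_pow]
      show (p i).coeff n • ((algebraMap (D.AR R) (D.BR R) (D.xR R) ^ n •
        (posVec h i : FrameMod σ)) j) = _
      rw [h.xB_pow_smul]
      simp [posVec, unitVec, hne.symm]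
    · intro hj
      exact absurd (Finset.mem_univ j) hj
  rw [hsum]
  exact Submodule.sum_mem _ fun i _ => Submodule.sum_mem _ fun n _ =>
    Submodule.smul_mem _ _ (Submodule.subset_span ⟨i, rfl⟩)

theorem span_negVec (h : IsChartHom D σ) :
    Submodule.span (D.AR₁ R) (Set.range (negVec h)) = ⊤ := by
  rw [eq_top_iff]
  rintro ⟨v, hv⟩ -
  have hv' : ∀ i, GeSupp 0 (LaurentPolynomial.invert (v i) * T (-1)) := fun i n hn => by
    rw [coeff_mul_T, invert_apply]
    exact hv i _ (by omega)
  choose p hp using fun i => exists_toLaurent_of_geSupp (hv' i)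
  have hsum : (⟨v, hv⟩ : negSub h) =
      ∑ i, ∑ n ∈ (p i).support, ((p i).coeff n • D.yR R ^ n) • negVec h i := by
    refine Subtype.ext (funext fun j => ?_)
    simp only [Submodule.coe_sum, Submodule.coe_smul, sum_frame_apply]
    rw [Finset.sum_eq_single j]
    · have : ∀ n : ℕ, (((p j).coeff n • D.yR R ^ n) • (negVec h j : FrameMod σ)) j =
          LaurentPolynomial.invert (Polynomial.toLaurent (Polynomial.monomial n ((p j).coeff n))) *
            T (-1) := fun n => by
        rw [smul_assoc, smul_frame_AR₁, map_pow]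
        show (p j).coeff n • ((algebraMap (D.AR₁ R) (D.BR R) (D.yR R) ^ n •
          (negVec h j : FrameMod σ)) j) = _
        rw [h.yB_pow_smul, Polynomial.toLaurent_C_mul_T, map_mul, invert_C, invert_T,
          smul_eq_C_mul, mul_assoc]
        simp only [negVec, unitVec, if_true]
      rw [Finset.sum_congr rfl fun n _ => this n, ← Finset.sum_mul, ← map_sum, ← map_sum,
        ← Polynomial.as_sum_support, hp]
      rw [map_mul, invert_T, neg_neg, show LaurentPolynomial.invert (LaurentPolynomial.invert (v j))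
        = v j from involutive_invert (v j), mul_assoc, ← T_add, add_neg_cancel, T_zero, mul_one]
    · intro i _ hne
      refine Finset.sum_eq_zero fun n _ => ?_
      rw [smul_assoc, smul_frame_AR₁, map_pow]
      show (p i).coeff n • ((algebraMap (D.AR₁ R) (D.BR R) (D.yR R) ^ n •
        (negVec h i : FrameMod σ)) j) = _
      rw [h.yB_pow_smul]
      simp [negVec, unitVec, hne.symm]
    · intro hj
      exact absurd (Finset.mem_univ j) hj
  rw [hsum]
  exact Submodule.sum_mem _ fun i _ => Submodule.sum_mem _ fun n _ =>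
    Submodule.smul_mem _ _ (Submodule.subset_span ⟨i, rfl⟩)

instance finite_posSub (h : IsChartHom D σ) : Module.Finite (D.AR R) (posSub h) := by
  classical
  exact ⟨⟨Finset.univ.image (posVec h), by rw [Finset.coe_image, Finset.coe_univ, Set.image_univ,
    span_posVec h]⟩⟩

instance finite_negSub (h : IsChartHom D σ) : Module.Finite (D.AR₁ R) (negSub h) := by
  classical
  exact ⟨⟨Finset.univ.image (negVec h), by rw [Finset.coe_image, Finset.coe_univ, Set.image_univ,
    span_negVec h]⟩⟩

theorem exists_bound_geSupp (v : FrameMod σ) : ∃ l : ℕ, ∀ i, GeSupp (-(l : ℤ)) (v i) := by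
  refine ⟨Finset.univ.sup fun i => (v i).coeff.support.sup fun n => (-n).toNat, fun i n hn => ?_⟩
  by_contra hne
  have h1 : (-n).toNat ≤ (v i).coeff.support.sup fun n : ℤ => (-n).toNat :=
    Finset.le_sup (f := fun n : ℤ => (-n).toNat) (Finsupp.mem_support_iff.mpr hne)
  have h2 : ((v i).coeff.support.sup fun n : ℤ => (-n).toNat) ≤
      Finset.univ.sup fun i => (v i).coeff.support.sup fun n : ℤ => (-n).toNat :=
    Finset.le_sup (f := fun i => (v i).coeff.support.sup fun n : ℤ => (-n).toNat)
      (Finset.mem_univ i)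
  omega

theorem exists_bound_leSupp (v : FrameMod σ) : ∃ l : ℕ, ∀ i, LeSupp (l : ℤ) (v i) := by
  refine ⟨Finset.univ.sup fun i => (v i).coeff.support.sup fun n => n.toNat, fun i n hn => ?_⟩
  by_contra hne
  have h1 : n.toNat ≤ (v i).coeff.support.sup fun n : ℤ => n.toNat :=
    Finset.le_sup (f := fun n : ℤ => n.toNat) (Finsupp.mem_support_iff.mpr hne)
  have h2 : ((v i).coeff.support.sup fun n : ℤ => n.toNat) ≤
      Finset.univ.sup fun i => (v i).coeff.support.sup fun n : ℤ => n.toNat :=
    Finset.le_sup (f := fun i => (v i).coeff.support.sup fun n : ℤ => n.toNat)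
      (Finset.mem_univ i)
  omega

theorem isLocalized_posSub (h : IsChartHom D σ) :
    IsLocalizedModule (Submonoid.powers (D.xR R)) (posSub h).subtype where
  map_units s := by
    refine (Module.End.isUnit_iff _).mpr ?_
    have hu : IsUnit (algebraMap (D.AR R) (D.BR R) (s : D.AR R)) :=
      IsLocalization.map_units (D.BR R) s
    exact hu.smul_bijective
  surj v := by
    obtain ⟨l, hl⟩ := exists_bound_geSupp v
    refine ⟨(⟨algebraMap (D.AR R) (D.BR R) (D.xR R) ^ (l + 1) • v, fun i n hn => ?_⟩,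
      ⟨D.xR R ^ (l + 1), l + 1, rfl⟩), ?_⟩
    · rw [h.xB_pow_smul, mul_comm, coeff_mul_T]
      exact hl i _ (by push_cast; omega)
    · show (D.xR R ^ (l + 1)) • v = algebraMap (D.AR R) (D.BR R) (D.xR R) ^ (l + 1) • v
      rw [smul_frame_AR, map_pow]
  exists_of_eq hxy := ⟨1, by rw [one_smul, one_smul]; exact Subtype.ext hxy⟩

theorem isLocalized_negSub (h : IsChartHom D σ) :
    IsLocalizedModule (Submonoid.powers (D.yR R)) (negSub h).subtype where
  map_units s := by
    refine (Module.End.isUnit_iff _).mpr ?_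
    have hu : IsUnit (algebraMap (D.AR₁ R) (D.BR R) (s : D.AR₁ R)) :=
      IsLocalization.map_units (D.BR R) s
    exact hu.smul_bijective
  surj v := by
    obtain ⟨l, hl⟩ := exists_bound_leSupp v
    refine ⟨(⟨algebraMap (D.AR₁ R) (D.BR R) (D.yR R) ^ (l + 1) • v, fun i n hn => ?_⟩,
      ⟨D.yR R ^ (l + 1), l + 1, rfl⟩), ?_⟩
    · rw [h.yB_pow_smul, mul_comm, coeff_mul_T]
      exact hl i _ (by push_cast; omega)
    · show (D.yR R ^ (l + 1)) • v = algebraMap (D.AR₁ R) (D.BR R) (D.yR R) ^ (l + 1) • v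
      rw [smul_frame_AR₁, map_pow]
  exists_of_eq hxy := ⟨1, by rw [one_smul, one_smul]; exact Subtype.ext hxy⟩

/-- The first chart spans the frame over the intersection. -/
def posEquiv (h : IsChartHom D σ) : (D.BR R ⊗[D.AR R] posSub h) ≃ₗ[D.BR R] FrameMod σ :=
  haveI := isLocalized_posSub h
  (IsLocalizedModule.isBaseChange (Submonoid.powers (D.xR R)) (D.BR R) (posSub h).subtype).equiv

/-- The chart at `ε` spans the frame over the intersection. -/
def negEquiv (h : IsChartHom D σ) : (D.BR R ⊗[D.AR₁ R] negSub h) ≃ₗ[D.BR R] FrameMod σ :=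
  haveI := isLocalized_negSub h
  (IsLocalizedModule.isBaseChange (Submonoid.powers (D.yR R)) (D.BR R) (negSub h).subtype).equiv

theorem posEquiv_tmul (h : IsChartHom D σ) (b : D.BR R) (m : posSub h) :
    posEquiv h (b ⊗ₜ m) = b • (m : FrameMod σ) :=
  IsBaseChange.equiv_tmul _ _ _

theorem negEquiv_tmul (h : IsChartHom D σ) (b : D.BR R) (m : negSub h) :
    negEquiv h (b ⊗ₜ m) = b • (m : FrameMod σ) :=
  IsBaseChange.equiv_tmul _ _ _

variable (h : IsChartHom D σ) [Module.Invertible (D.AR R) (posSub h)]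
  [Module.Invertible (D.AR₁ R) (negSub h)]

/-- The line data of a chart hom. -/
@[reducible] def chartData : LineData D R where
  M := posSub h
  N := negSub h
  glue := (posEquiv h).trans (negEquiv h).symm

theorem negEquiv_f₀ (m : (chartData h).M) :
    negEquiv h ((chartData h).f₀ m) = (m : FrameMod σ) := by
  rw [LineData.f₀_apply]
  show negEquiv h ((negEquiv h).symm (posEquiv h (1 ⊗ₜ m))) = _
  rw [LinearEquiv.apply_symm_apply, posEquiv_tmul, one_smul]

theorem negEquiv_f₁ (n : (chartData h).N) :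
    negEquiv h ((chartData h).f₁ n) = (n : FrameMod σ) := by
  rw [LineData.f₁_apply]
  show negEquiv h (1 ⊗ₜ n) = _
  rw [negEquiv_tmul, one_smul]

theorem chartData_rel_iff {j : ℕ} {m : (chartData h).M} {n : (chartData h).N} :
    (chartData h).Rel j m n ↔
      algebraMap (D.AR₁ R) (D.BR R) (D.yR R) ^ j • (m : FrameMod σ) = (n : FrameMod σ) := by
  unfold LineData.Rel
  rw [← (negEquiv h).injective.eq_iff, map_smul, negEquiv_f₀, negEquiv_f₁]

theorem chartData_bijective : Function.Bijective (chartData h).δ := by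
  constructor
  · rw [injective_iff_map_eq_zero]
    rintro ⟨m, n⟩ hmn
    rw [LineData.δ_apply, sub_eq_zero] at hmn
    have e := congrArg (negEquiv h) hmn
    rw [negEquiv_f₀, negEquiv_f₁] at e
    have hm : (m : FrameMod σ) = 0 := funext fun i => LaurentPolynomial.ext fun l => by
      rcases lt_or_ge l 0 with hl | hl
      · exact m.2 i l hl
      · rw [e]; exact n.2 i l (by omega)
    exact Prod.ext (Subtype.ext hm) (Subtype.ext (e ▸ hm))
  · intro z
    set v := negEquiv h z with hv
    have hpos : (fun i => AddMonoidAlgebra.ofCoeff ((v i).coeff.filter fun l => 0 ≤ l) :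
        FrameMod σ) ∈ posSub h := fun i l hl => by
      rw [AddMonoidAlgebra.coeff_ofCoeff, Finsupp.filter_apply_neg _ _ (by omega)]
    have hneg : (fun i => -AddMonoidAlgebra.ofCoeff ((v i).coeff.filter fun l => ¬ 0 ≤ l) :
        FrameMod σ) ∈ negSub h := fun i l hl => by
      simp [Finsupp.filter_apply_neg, show (0 : ℤ) ≤ l by omega]
    refine ⟨(⟨_, hpos⟩, ⟨_, hneg⟩), (negEquiv h).injective ?_⟩
    rw [LineData.δ_apply, map_sub, negEquiv_f₀, negEquiv_f₁, ← hv]
    refine funext fun i => LaurentPolynomial.ext fun l => ?_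
    show (AddMonoidAlgebra.ofCoeff ((v i).coeff.filter fun l => 0 ≤ l) -
      -AddMonoidAlgebra.ofCoeff ((v i).coeff.filter fun l => ¬ 0 ≤ l)).coeff l = _
    rw [sub_neg_eq_add, ← AddMonoidAlgebra.ofCoeff_add, AddMonoidAlgebra.coeff_ofCoeff,
      Finsupp.filter_add_filter_not]

theorem coeff_smul_negSub (b : D.AR₁ R) (n : (chartData h).N) (i : Fin D.d) :
    ((b • (n : FrameMod σ)) i).coeff (-1) =
      ∑ j, lead h b i j * ((n : FrameMod σ) j).coeff (-1) := by
  rw [smul_frame_AR₁, smul_frame_apply, coeff_sum']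
  refine Finset.sum_congr rfl fun j _ => ?_
  rw [lead_apply]
  simpa using (h.rho_neg b i j).coeff_mul_top (n.2 j)

theorem chartData_rigid : (chartData h).Rigid := by
  let g : (chartData h).N →ₛₗ[(D.evR (R := R)).toRingHom] R :=
    { toFun := fun n => ((n : FrameMod σ) ⟨0, D.d_pos⟩).coeff (-1)
      map_add' := fun a b => by
        show (((a : FrameMod σ) ⟨0, D.d_pos⟩) + ((b : FrameMod σ) ⟨0, D.d_pos⟩)).coeff (-1) = _
        rw [AddMonoidAlgebra.coeff_add, Finsupp.add_apply]
      map_smul' := fun b n => by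
        show ((b • (n : FrameMod σ)) ⟨0, D.d_pos⟩).coeff (-1) = _
        rw [coeff_smul_negSub, Finset.sum_eq_single ⟨0, D.d_pos⟩]
        · rw [lead_zero_row, if_pos rfl]
          rfl
        · intro j _ hj
          rw [lead_zero_row, if_neg (fun e => hj (Fin.ext e)), zero_mul]
        · intro hh; exact absurd (Finset.mem_univ _) hh }
  refine ⟨g, fun r => ⟨⟨algebraMap R (D.BR R) r • unitVec σ (-1) ⟨0, D.d_pos⟩, ?_⟩, ?_⟩⟩
  · rw [algebraMap_smul, ← algebraMap_smul (D.AR₁ R) r]
    exact (negSub h).smul_mem _ (unitVec_mem_negSub h _)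
  · show ((algebraMap R (D.BR R) r • unitVec σ (-1) ⟨0, D.d_pos⟩) ⟨0, D.d_pos⟩).coeff (-1) = r
    rw [algebraMap_smul]
    show (r • unitVec σ (-1) ⟨0, D.d_pos⟩ ⟨0, D.d_pos⟩).coeff (-1) = r
    simp [unitVec]

end Fermat.Agent.Jac.Chart
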