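import Fermat.Agent.Jac.Chart.Generator
import Fermat.Agent.Jac.Alg.Natural

/-!
# Representatives modulo `y` for a bundle without cohomology, and the normalised generator

`star n` is the representative of `n` modulo `y` with a simple pole in the twist, `mu n` the
matching section on `C ∖ ε`.  Exactly one class `G` over `1` is normalised: its
`t ^ (d - 1) • star G` agrees with `star (t ^ (d - 1) • G)` up to `y • R t ^ (d - 1) G + y² N`.
-/

set_option autoImplicit false
set_option linter.style.haveILetI false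

universe u

noncomputable section

open TensorProduct

namespace Fermat.Agent.Jac.Chart

variable {k : Type u} [Field k] {D : CurveData.{u} k} {R : Type u} [CommRing R] [Algebra k R]
  {L : LineData D R} (hL : Function.Bijective L.δ)

/-- Split a section over the intersection. -/
def splitP : L.P ≃ₗ[R] L.M × L.N := (LinearEquiv.ofBijective L.δ hL).symm

/-- The component on `C ∖ ε`. -/
def part₀ : L.P →ₗ[R] L.M := LinearMap.fst R L.M L.N ∘ₗ (splitP hL).toLinearMap

/-- The component at `ε`. -/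
def part₁ : L.P →ₗ[R] L.N := -(LinearMap.snd R L.M L.N ∘ₗ (splitP hL).toLinearMap)

theorem part_add (z : L.P) : L.f₀ (part₀ hL z) + L.f₁ (part₁ hL z) = z := by
  have h := (LinearEquiv.ofBijective L.δ hL).apply_symm_apply z
  rw [LinearEquiv.ofBijective_apply] at h
  conv_rhs => rw [← h]
  rw [show (LinearEquiv.ofBijective L.δ hL).symm z = ((splitP hL z).1, (splitP hL z).2) from rfl,
    LineData.δ_apply, part₁, LinearMap.neg_apply, map_neg, ← sub_eq_add_neg]
  rfl

theorem part₁_eq_of_eq {z : L.P} {m : L.M} {n : L.N} (h : L.f₀ m + L.f₁ n = z) :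
    part₀ hL z = m ∧ part₁ hL z = n := by
  have h' := part_add hL z
  have e : L.δ (part₀ hL z, -part₁ hL z) = L.δ (m, -n) := by
    rw [LineData.δ_apply, LineData.δ_apply, map_neg, map_neg, sub_neg_eq_add, sub_neg_eq_add, h', h]
  have := hL.1 e
  rw [Prod.ext_iff, neg_inj] at this
  exact this

variable (D R) in
/-- `x` on the intersection. -/
abbrev xB : D.BR R := algebraMap (D.AR R) (D.BR R) (D.xR R)

variable (D R) in
/-- `y` on the intersection. -/
abbrev yB : D.BR R := algebraMap (D.AR₁ R) (D.BR R) (D.yR R)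

theorem xB_mul_yB : xB D R * yB D R = 1 := D.xR_mul_yR R

theorem f₁_yR_smul (n : L.N) : L.f₁ (D.yR R • n) = yB D R • L.f₁ n := L.f₁_smul _ n

theorem xB_f₁_yR_smul (n : L.N) : xB D R • L.f₁ (D.yR R • n) = L.f₁ n := by
  rw [f₁_yR_smul, smul_smul, xB_mul_yB, one_smul]

/-- The section on `C ∖ ε` attached to a class modulo `y`. -/
def mu : L.N →ₗ[R] L.M :=
  part₀ hL ∘ₗ ((LinearMap.lsmul (D.BR R) L.P (xB D R)).restrictScalars R) ∘ₗ L.f₁

/-- The distinguished representative modulo `y`. -/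
def star : L.N →ₗ[R] L.N :=
  LinearMap.id - ((LinearMap.lsmul (D.AR₁ R) L.N (D.yR R)).restrictScalars R) ∘ₗ
    (part₁ hL ∘ₗ ((LinearMap.lsmul (D.BR R) L.P (xB D R)).restrictScalars R) ∘ₗ L.f₁)

theorem mu_apply (n : L.N) : mu hL n = part₀ hL (xB D R • L.f₁ n) := rfl

theorem star_apply (n : L.N) :
    star hL n = n - D.yR R • part₁ hL (xB D R • L.f₁ n) := rfl

theorem modY_star (n : L.N) : ModY L (star hL n) n :=
  ⟨-part₁ hL (xB D R • L.f₁ n), by rw [star_apply, smul_neg, sub_sub_cancel_left]⟩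

theorem xB_f₁_star (n : L.N) : xB D R • L.f₁ (star hL n) = L.f₀ (mu hL n) := by
  rw [star_apply, map_sub, smul_sub, xB_f₁_yR_smul, mu_apply]
  exact sub_eq_iff_eq_add.mpr (part_add hL _).symm

theorem rel_star (n : L.N) : L.Rel 1 (mu hL n) (star hL n) := by
  show yB D R ^ 1 • L.f₀ (mu hL n) = L.f₁ (star hL n)
  rw [pow_one, ← xB_f₁_star, smul_smul, mul_comm, xB_mul_yB, one_smul]

theorem eq_of_rel {m : L.M} {n : L.N} (h : L.Rel 1 m n) : mu hL n = m ∧ star hL n = n := by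
  have h1 : L.f₀ m + L.f₁ 0 = xB D R • L.f₁ n := by
    rw [map_zero, add_zero, show L.f₁ n = yB D R ^ 1 • L.f₀ m from h.symm, pow_one, smul_smul,
      xB_mul_yB, one_smul]
  obtain ⟨e0, e1⟩ := part₁_eq_of_eq hL h1
  exact ⟨(mu_apply hL n).trans e0, by rw [star_apply, e1, smul_zero, sub_zero]⟩

theorem mu_star_congr {a b : L.N} (h : ModY L a b) :
    mu hL a = mu hL b ∧ star hL a = star hL b := by
  obtain ⟨z, hz⟩ := h
  have h1 : L.f₀ 0 + L.f₁ z = xB D R • L.f₁ (D.yR R • z) := by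
    rw [xB_f₁_yR_smul, map_zero, zero_add]
  obtain ⟨e0, e1⟩ := part₁_eq_of_eq hL h1
  have hm : mu hL (a - b) = 0 := by rw [hz, mu_apply, e0]
  have hs : star hL (a - b) = 0 := by rw [hz, star_apply, e1, sub_self]
  rw [map_sub, sub_eq_zero] at hm hs
  exact ⟨hm, hs⟩

theorem star_star (n : L.N) : star hL (star hL n) = star hL n :=
  (mu_star_congr hL (modY_star hL n)).2

theorem modY_zero_of_mu_eq_zero {n : L.N} (h : mu hL n = 0) : ModY L n 0 := by
  have h1 := part_add hL (xB D R • L.f₁ n)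
  rw [← mu_apply, h, map_zero, zero_add] at h1
  refine ⟨part₁ hL (xB D R • L.f₁ n), ?_⟩
  rw [sub_zero]
  refine L.f₁_injective ?_
  rw [f₁_yR_smul, h1, smul_smul, mul_comm, xB_mul_yB, one_smul]

variable {g : L.N →ₛₗ[(D.evR (R := R)).toRingHom] R}

variable (g) in
/-- A normalised generator. -/
structure Normalised (G : L.N) : Prop where
  g_eq : g G = 1
  norm : ∃ γ : R, ∃ z : L.N, tR D R ^ (D.d - 1) • star hL G - star hL (tR D R ^ (D.d - 1) • G) =
    D.yR R • (γ • tR D R ^ (D.d - 1) • G) + D.yR R • D.yR R • z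

omit hL in
theorem modY_t_pow_smul {G : L.N} (hG : g G = 1) (r : L.N) :
    ∃ γ : R, ModY L (tR D R ^ (D.d - 1) • r) (γ • tR D R ^ (D.d - 1) • G) := by
  obtain ⟨c, hc⟩ := exists_jet_coords hG r
  refine ⟨c ⟨0, D.d_pos⟩, (hc.smul _).trans ?_⟩
  rw [Finset.smul_sum, ← Finset.add_sum_erase _ _ (Finset.mem_univ (⟨0, D.d_pos⟩ : Fin D.d))]
  have h2 : ModY L (∑ i ∈ Finset.univ.erase (⟨0, D.d_pos⟩ : Fin D.d),
      tR D R ^ (D.d - 1) • c i • tR D R ^ (i : ℕ) • G) 0 := by
    refine (ModY.sum _ (b := fun _ => (0 : L.N)) fun i hi => ?_).trans ?_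
    · obtain ⟨w, hw⟩ := dvd_t_pow_d (D := D) (R := R)
      have : (i : ℕ) ≠ 0 := fun e => (Finset.mem_erase.mp hi).1 (Fin.ext e)
      refine ⟨(w * tR D R ^ ((i : ℕ) - 1)) • c i • G, ?_⟩
      rw [sub_zero, ← smul_comm (tR D R ^ (i : ℕ)) (c i) G, smul_smul, smul_smul, ← pow_add]
      congr 1
      rw [← mul_assoc, ← hw, ← pow_add]
      congr 1
      omega
    · rw [Finset.sum_const_zero]; exact ModY.refl 0
  refine ((ModY.refl _).add h2).trans ?_
  rw [add_zero, pow_zero, one_smul, smul_comm]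
  exact ModY.refl _

omit hL in
/-- Multiplying `y • a` congruences: `ModY` inside a factor `y`. -/
theorem exists_of_modY {a b : L.N} (h : ModY L a b) :
    ∃ z, D.yR R • a = D.yR R • b + D.yR R • D.yR R • z := by
  obtain ⟨z, hz⟩ := h
  exact ⟨z, by rw [← smul_add, ← hz, add_sub_cancel]⟩

/-- The effect of moving the generator by a multiple of `t`. -/
theorem defect_tR_smul {G : L.N} (hG : g G = 1) {w : D.AR₁ R}
    (hw : tR D R ^ D.d = D.yR R * w) (v : L.N) :
    ∃ (γ : R) (z : L.N),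
      tR D R ^ (D.d - 1) • star hL (tR D R • v) - star hL (tR D R ^ (D.d - 1) • tR D R • v) =
        D.yR R • (w • star hL v + γ • tR D R ^ (D.d - 1) • G) + D.yR R • D.yR R • z := by
  obtain ⟨r, hr⟩ : ModY L (star hL (tR D R • v)) (tR D R • star hL v) :=
    (modY_star hL _).trans ((modY_star hL v).symm.smul _)
  rw [sub_eq_iff_eq_add] at hr
  obtain ⟨γ, hγ⟩ := modY_t_pow_smul hG r
  obtain ⟨z, hz⟩ := exists_of_modY hγ
  refine ⟨γ, z, ?_⟩
  have hpow : tR D R ^ (D.d - 1) * tR D R = D.yR R * w := by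
    rw [← pow_succ, show D.d - 1 + 1 = D.d by have := D.d_pos; omega, hw]
  have hzero : star hL (tR D R ^ (D.d - 1) • tR D R • v) = 0 := by
    rw [smul_smul, hpow, mul_smul, (mu_star_congr hL (modY_smul_yR (w • v))).2, map_zero]
  rw [hzero, sub_zero, hr, smul_add, smul_smul _ (tR D R) (star hL v), hpow, mul_smul,
    smul_comm (tR D R ^ (D.d - 1)) (D.yR R) r, hz, smul_add (D.yR R) (w • star hL v)]
  abel

include hL in
theorem exists_normalised {G₀ : L.N} (hG₀ : g G₀ = 1) : ∃ G, Normalised hL g G := by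
  obtain ⟨z₀, hz₀⟩ : ModY L (tR D R ^ (D.d - 1) • star hL G₀)
      (star hL (tR D R ^ (D.d - 1) • G₀)) :=
    ((modY_star hL G₀).smul _).trans (modY_star hL _).symm
  rcases Nat.lt_or_ge D.d 2 with hd | hd
  · -- `d = 1`
    have hd1 : D.d - 1 = 0 := by omega
    obtain ⟨γ, hγ⟩ := modY_t_pow_smul hG₀ z₀
    obtain ⟨z, hz⟩ := exists_of_modY hγ
    refine ⟨G₀, hG₀, γ, z, ?_⟩
    rw [hz₀]
    conv_lhs => rw [show z₀ = tR D R ^ (D.d - 1) • z₀ by rw [hd1, pow_zero, one_smul]]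
    exact hz
  · obtain ⟨w, v, z₁, hw, hwv⟩ := exists_cofactor (D := D) hd
    have hwR : tR D R ^ D.d = D.yR R * ((1 : R) ⊗ₜ[k] w) := by
      rw [Algebra.TensorProduct.tmul_pow, one_pow, hw, Algebra.TensorProduct.tmul_mul_tmul,
        one_mul]
    have hwvR : ((1 : R) ⊗ₜ[k] w) * ((1 : R) ⊗ₜ[k] v) = 1 + D.yR R * ((1 : R) ⊗ₜ[k] z₁) := by
      rw [Algebra.TensorProduct.tmul_mul_tmul, Algebra.TensorProduct.tmul_mul_tmul, mul_one, hwv,
        tmul_add]
      rfl
    set v₀ : L.N := -(((1 : R) ⊗ₜ[k] v) • z₀) with hv₀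
    set G : L.N := G₀ + tR D R • v₀ with hGdef
    have hG : g G = 1 := by
      rw [hGdef, map_add, hG₀, map_smulₛₗ]
      show (1 : R) + D.evR (tR D R) • g v₀ = 1
      rw [evR_tmul, D.ev_t, zero_smul, zero_smul, add_zero]
    obtain ⟨γ, z, hdef⟩ := defect_tR_smul hL hG hwR v₀
    have hmain : ModY L (z₀ + ((1 : R) ⊗ₜ[k] w) • star hL v₀) 0 := by
      refine ((ModY.refl z₀).add ((modY_star hL v₀).smul _)).trans ?_
      refine ⟨-(((1 : R) ⊗ₜ[k] z₁) • z₀), ?_⟩
      rw [sub_zero, hv₀, smul_neg, smul_neg, smul_smul, hwvR, add_smul, one_smul, mul_smul]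
      abel
    obtain ⟨z', hz'⟩ := exists_of_modY hmain
    refine ⟨G, hG, γ, z + z', ?_⟩
    conv_lhs => rw [hGdef, map_add, smul_add, smul_add, map_add, add_sub_add_comm, hz₀, hdef]
    rw [smul_add (D.yR R) (((1 : R) ⊗ₜ[k] w) • star hL v₀), smul_zero, zero_add] at *
    rw [smul_add (D.yR R) z₀] at hz'
    rw [smul_add (D.yR R) z z', smul_add (D.yR R) (D.yR R • z), ← hz']
    abel

theorem normalised_unique {G G' : L.N} (hG : Normalised hL g G) (hG' : Normalised hL g G') :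
    ModY L G' G := by
  obtain ⟨a, b, hab⟩ := exists_step hG.g_eq (G' - G)
  rw [map_sub, hG'.g_eq, hG.g_eq, sub_self, zero_smul, zero_add] at hab
  have hab' : G' = G + tR D R • a + D.yR R • b := by
    rw [add_assoc, ← hab]; abel
  obtain ⟨w₀, hw₀⟩ := dvd_t_pow_d (D := D) (R := R)
  suffices ha : ModY L (tR D R • a) 0 by
    refine (ModY.of_eq_add hab').trans ?_
    simpa using (ModY.refl G).add ha
  rcases Nat.lt_or_ge D.d 2 with hd | hd
  · have hd1 : D.d = 1 := by have := D.d_pos; omega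
    rw [hd1, pow_one] at hw₀
    rw [hw₀, mul_smul]
    exact modY_smul_yR _
  obtain ⟨w, v, z₁, hw, hwv⟩ := exists_cofactor (D := D) hd
  have hwR : tR D R ^ D.d = D.yR R * ((1 : R) ⊗ₜ[k] w) := by
    rw [Algebra.TensorProduct.tmul_pow, one_pow, hw, Algebra.TensorProduct.tmul_mul_tmul, one_mul]
  obtain ⟨γ, z, hdef⟩ := defect_tR_smul hL hG.g_eq hwR a
  obtain ⟨γG, zG, hdG⟩ := hG.norm
  obtain ⟨γG', zG', hdG'⟩ := hG'.norm
  have hstar : star hL G' = star hL G + star hL (tR D R • a) := by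
    rw [← map_add]
    exact (mu_star_congr hL (ModY.of_eq_add hab')).2
  have hstar' : star hL (tR D R ^ (D.d - 1) • G') = star hL (tR D R ^ (D.d - 1) • G) +
      star hL (tR D R ^ (D.d - 1) • tR D R • a) := by
    rw [← map_add, ← smul_add]
    exact (mu_star_congr hL ((ModY.of_eq_add hab').smul _)).2
  have hGG : ModY L (tR D R ^ (D.d - 1) • G') (tR D R ^ (D.d - 1) • G) := by
    refine ((ModY.of_eq_add hab').smul _).trans ?_
    rw [smul_add, smul_smul, ← pow_succ, show D.d - 1 + 1 = D.d by omega, hwR, mul_smul]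
    simpa using (ModY.refl (tR D R ^ (D.d - 1) • G)).add
      (modY_smul_yR (L := L) (((1 : R) ⊗ₜ[k] w) • a))
  obtain ⟨z₂, hz₂⟩ := hGG
  rw [sub_eq_iff_eq_add] at hz₂
  have hy : Function.Injective fun n : L.N => D.yR R • n := by
    intro p q hpq
    have e := congrArg (fun n => xB D R • L.f₁ n) hpq
    simp only [xB_f₁_yR_smul] at e
    exact L.f₁_injective e
  -- `w • a ≡ R t ^ (d - 1) G`
  have key : ((1 : R) ⊗ₜ[k] w) • star hL a =
      (γG' - γG - γ) • tR D R ^ (D.d - 1) • G + D.yR R • (zG' + γG' • z₂ - zG - z) := by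
    apply hy
    show D.yR R • _ = D.yR R • _
    have e : tR D R ^ (D.d - 1) • star hL (tR D R • a) -
        star hL (tR D R ^ (D.d - 1) • tR D R • a) =
        (tR D R ^ (D.d - 1) • star hL G' - star hL (tR D R ^ (D.d - 1) • G')) -
        (tR D R ^ (D.d - 1) • star hL G - star hL (tR D R ^ (D.d - 1) • G)) := by
      rw [hstar, hstar', smul_add]; abel
    rw [hdef, hdG, hdG', hz₂, ← smul_add (D.yR R), ← smul_add (D.yR R), ← smul_add (D.yR R),
      ← smul_sub (D.yR R)] at e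
    have e'' := eq_sub_of_add_eq (eq_sub_of_add_eq (hy e))
    rw [e'']
    refine congrArg (fun n => D.yR R • n) ?_
    rw [sub_smul, sub_smul, smul_add γG', smul_comm γG' (D.yR R)]
    simp only [smul_sub, smul_add]
    abel
  refine ((modY_star hL a).symm.smul _).trans ?_
  have h2 : ModY L (star hL a)
      (((1 : R) ⊗ₜ[k] v) • (γG' - γG - γ) • tR D R ^ (D.d - 1) • G) := by
    refine ⟨((1 : R) ⊗ₜ[k] v) • (zG' + γG' • z₂ - zG - z) - ((1 : R) ⊗ₜ[k] z₁) • star hL a, ?_⟩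
    have e := congrArg (fun n => ((1 : R) ⊗ₜ[k] v) • n) key
    simp only [smul_smul] at e
    rw [mul_comm] at e
    rw [show ((1 : R) ⊗ₜ[k] w) * ((1 : R) ⊗ₜ[k] v) = 1 + D.yR R * ((1 : R) ⊗ₜ[k] z₁) by
      rw [Algebra.TensorProduct.tmul_mul_tmul, Algebra.TensorProduct.tmul_mul_tmul, mul_one, hwv,
        tmul_add]; rfl, add_smul, one_smul, mul_smul, smul_add, smul_comm _ (D.yR R)] at e
    rw [smul_sub, sub_eq_sub_iff_add_eq_add, e]
    abel
  refine (h2.smul _).trans ?_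
  refine ⟨((1 : R) ⊗ₜ[k] w) • ((1 : R) ⊗ₜ[k] v) • (γG' - γG - γ) • G, ?_⟩
  rw [sub_zero, smul_comm (tR D R) ((1 : R) ⊗ₜ[k] v), smul_comm (tR D R) (γG' - γG - γ),
    smul_smul (tR D R), ← pow_succ', show D.d - 1 + 1 = D.d by omega, hwR]
  simp only [← algebraMap_smul (D.AR₁ R) (γG' - γG - γ), smul_smul]
  congr 1
  ring

end Fermat.Agent.Jac.Chart
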