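import Fermat.Agent.Jac.Chart.Fibres

/-!
# The universal chart hom

`ChartRing D` is the polynomial ring in the coefficients of `σ`, modulo the equations of chart
homs; it is of finite type and `univHom D` is universal.
-/

set_option autoImplicit false
set_option linter.style.haveILetI false

universe u

noncomputable section

open LaurentPolynomial TensorProduct

namespace Fermat.Agent.Jac.Chart

variable {k : Type u} [Field k] (D : CurveData.{u} k)

theorem exists_window (b : D.B) : ∃ l m : ℕ,
    (∃ a : D.A, b * D.i₀ D.x ^ l = D.i₀ a) ∧ ∃ a₁ : D.A₁, b * D.i₁ D.y ^ m = D.i₁ a₁ := by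
  obtain ⟨l, a, ha⟩ := IsLocalization.Away.surj D.x b
  obtain ⟨m, a₁, ha₁⟩ := IsLocalization.Away.surj D.y b
  exact ⟨l, m, ⟨a, ha⟩, a₁, ha₁⟩

/-- The lower end of the window of `b`. -/
def lowWin (b : D.B) : ℕ := (exists_window D b).choose

/-- The upper end of the window of `b`. -/
def upWin (b : D.B) : ℕ := (exists_window D b).choose_spec.choose

theorem lowWin_spec (b : D.B) : ∃ a : D.A, b * D.i₀ D.x ^ lowWin D b = D.i₀ a :=
  (exists_window D b).choose_spec.choose_spec.1

theorem upWin_spec (b : D.B) : ∃ a₁ : D.A₁, b * D.i₁ D.y ^ upWin D b = D.i₁ a₁ :=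
  (exists_window D b).choose_spec.choose_spec.2

variable {D}

theorem IsChartHom.geSupp_window {R : Type u} [CommRing R] [Algebra k R]
    {σ : D.B →ₐ[k] Mat D R} (h : IsChartHom D σ) (b : D.B) (i j : Fin D.d) :
    GeSupp (-(lowWin D b : ℤ)) (σ b i j) := by
  obtain ⟨a, ha⟩ := lowWin_spec D b
  intro n hn
  have h1 := h.poly a i j (n + (lowWin D b : ℤ)) (by omega)
  rw [← ha, map_mul, map_pow, h.map_x, smul_pow, one_pow, T_pow, mul_one, mul_smul_comm, mul_one,
    Matrix.smul_apply, smul_eq_mul, mul_comm, coeff_mul_T, add_sub_cancel_right] at h1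
  exact h1

theorem IsChartHom.leSupp_window {R : Type u} [CommRing R] [Algebra k R]
    {σ : D.B →ₐ[k] Mat D R} (h : IsChartHom D σ) (b : D.B) (i j : Fin D.d) :
    LeSupp (upWin D b : ℤ) (σ b i j) := by
  obtain ⟨a, ha⟩ := upWin_spec D b
  intro n hn
  have h1 := h.neg a i j (n + -(upWin D b : ℤ)) (by omega)
  rw [← ha, map_mul, map_pow, h.map_y, smul_pow, one_pow, T_pow, mul_smul_comm, mul_one,
    Matrix.smul_apply, smul_eq_mul, mul_comm, coeff_mul_T,
    show n + -(upWin D b : ℤ) - (upWin D b : ℕ) * (-1 : ℤ) = n by ring] at h1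
  exact h1

variable (D)

/-- Variables for the coefficients. -/
abbrev CoeffVar : Type u := D.B × Fin D.d × Fin D.d × ℤ

/-- The polynomial ring in the coefficients. -/
abbrev CoeffPoly : Type u := MvPolynomial (CoeffVar D) k

/-- The generic matrix of `b`. -/
def rawMat (b : D.B) : Mat D (CoeffPoly D) :=
  Matrix.of fun i j => ∑ n ∈ Finset.Icc (-(lowWin D b : ℤ)) (upWin D b : ℤ),
    C (MvPolynomial.X (b, i, j, n)) * T n

theorem coeff_rawMat (b : D.B) (i j : Fin D.d) (n : ℤ) :
    (rawMat D b i j).coeff n =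
      if n ∈ Finset.Icc (-(lowWin D b : ℤ)) (upWin D b : ℤ) then MvPolynomial.X (b, i, j, n)
      else 0 := by
  rw [rawMat, Matrix.of_apply, coeff_sum']
  simp only [coeff_C_mul, T_apply, mul_ite, mul_one, mul_zero, Finset.sum_ite_eq']

/-- The coefficients of a matrix. -/
def coeffAt (M : Mat D (CoeffPoly D)) (i j : Fin D.d) (n : ℤ) : CoeffPoly D := (M i j).coeff n

/-- The equations of chart homs. -/
inductive ChartRel : CoeffPoly D → Prop
  | add (a b : D.B) (i j : Fin D.d) (n : ℤ) :
      ChartRel (coeffAt D (rawMat D (a + b) - (rawMat D a + rawMat D b)) i j n)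
  | mul (a b : D.B) (i j : Fin D.d) (n : ℤ) :
      ChartRel (coeffAt D (rawMat D (a * b) - rawMat D a * rawMat D b) i j n)
  | one (i j : Fin D.d) (n : ℤ) : ChartRel (coeffAt D (rawMat D 1 - 1) i j n)
  | const (c : k) (i j : Fin D.d) (n : ℤ) :
      ChartRel (coeffAt D (rawMat D (algebraMap k D.B c) - algebraMap k _ c) i j n)
  | mapX (i j : Fin D.d) (n : ℤ) : ChartRel (coeffAt D
      (rawMat D (D.i₀ D.x) - (T 1 : (CoeffPoly D)[T;T⁻¹]) • (1 : Mat D (CoeffPoly D))) i j n)
  | poly (a : D.A) (i j : Fin D.d) (n : ℤ) (hn : n < 0) :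
      ChartRel (coeffAt D (rawMat D (D.i₀ a)) i j n)
  | neg (b : D.A₁) (i j : Fin D.d) (n : ℤ) (hn : 0 < n) :
      ChartRel (coeffAt D (rawMat D (D.i₁ b)) i j n)
  | shift (i j : Fin D.d) : ChartRel (coeffAt D (rawMat D (D.i₁ D.t)) i j 0 -
      if (i : ℕ) = (j : ℕ) + 1 then 1 else 0)
  | norm (i j : Fin D.d) (hj : (j : ℕ) = 0) (hi : (i : ℕ) + 1 < D.d) :
      ChartRel (coeffAt D (rawMat D (D.i₁ (D.t ^ (D.d - 1)))) i j (-1))
  | window (v : CoeffVar D)
      (hv : v.2.2.2 ∉ Finset.Icc (-(lowWin D v.1 : ℤ)) (upWin D v.1 : ℤ)) :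
      ChartRel (MvPolynomial.X v)

/-- The ideal of the equations. -/
def chartIdeal : Ideal (CoeffPoly D) := Ideal.span {p | ChartRel D p}

/-- The coordinate ring of the chart. -/
abbrev ChartRing : Type u := CoeffPoly D ⧸ chartIdeal D

/-- The quotient map. -/
def chartProj : CoeffPoly D →ₐ[k] ChartRing D := Ideal.Quotient.mkₐ k (chartIdeal D)

theorem chartProj_eq_zero {p : CoeffPoly D} (h : ChartRel D p) : chartProj D p = 0 :=
  Ideal.Quotient.eq_zero_iff_mem.mpr (Ideal.subset_span h)

theorem mapMatrix_eq_of_coeff {R : Type u} [CommRing R] [Algebra k R] (f : CoeffPoly D →ₐ[k] R)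
    (M N : Mat D (CoeffPoly D)) (h : ∀ i j n, f (coeffAt D (M - N) i j n) = 0) :
    (mapLau f).mapMatrix M = (mapLau f).mapMatrix N := by
  refine Matrix.ext fun i j => LaurentPolynomial.ext fun n => ?_
  rw [AlgHom.mapMatrix_apply, AlgHom.mapMatrix_apply, Matrix.map_apply, Matrix.map_apply,
    coeff_mapLau, coeff_mapLau, ← sub_eq_zero, ← map_sub]
  have := h i j n
  rwa [coeffAt, Matrix.sub_apply, AddMonoidAlgebra.coeff_sub, Finsupp.sub_apply] at this

/-- The universal chart hom. -/
def univHom : D.B →ₐ[k] Mat D (ChartRing D) :=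
  AlgHom.ofLinearMap
    { toFun := fun b => (mapLau (chartProj D)).mapMatrix (rawMat D b)
      map_add' := fun a b => by
        rw [mapMatrix_eq_of_coeff D (chartProj D) _ _
          (fun i j n => chartProj_eq_zero D (ChartRel.add a b i j n)), map_add]
      map_smul' := fun c b => by
        rw [Algebra.smul_def, mapMatrix_eq_of_coeff D (chartProj D) _ _
          (fun i j n => chartProj_eq_zero D (ChartRel.mul _ b i j n)), map_mul,
          mapMatrix_eq_of_coeff D (chartProj D) _ _
          (fun i j n => chartProj_eq_zero D (ChartRel.const c i j n)), AlgHom.commutes,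
          RingHom.id_apply, Algebra.smul_def] }
    (by
      show (mapLau (chartProj D)).mapMatrix (rawMat D 1) = 1
      rw [mapMatrix_eq_of_coeff D (chartProj D) _ _
        (fun i j n => chartProj_eq_zero D (ChartRel.one i j n)), map_one])
    (fun a b => by
      show (mapLau (chartProj D)).mapMatrix (rawMat D (a * b)) =
        (mapLau (chartProj D)).mapMatrix (rawMat D a) *
          (mapLau (chartProj D)).mapMatrix (rawMat D b)
      rw [mapMatrix_eq_of_coeff D (chartProj D) _ _
        (fun i j n => chartProj_eq_zero D (ChartRel.mul a b i j n)), map_mul])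

theorem univHom_apply (b : D.B) (i j : Fin D.d) :
    univHom D b i j = mapLau (chartProj D) (rawMat D b i j) := rfl

theorem coeff_univHom (b : D.B) (i j : Fin D.d) (n : ℤ) :
    (univHom D b i j).coeff n = chartProj D ((rawMat D b i j).coeff n) := by
  rw [univHom_apply, coeff_mapLau]

theorem isChartHom_univHom : IsChartHom D (univHom D) where
  poly a i j n hn := by rw [coeff_univHom]; exact chartProj_eq_zero D (ChartRel.poly a i j n hn)
  neg b i j n hn := by rw [coeff_univHom]; exact chartProj_eq_zero D (ChartRel.neg b i j n hn)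
  map_x := by
    show (mapLau (chartProj D)).mapMatrix (rawMat D (D.i₀ D.x)) = _
    rw [mapMatrix_eq_of_coeff D (chartProj D) _ _
      (fun i j n => chartProj_eq_zero D (ChartRel.mapX i j n))]
    refine Matrix.ext fun i j => ?_
    simp [Matrix.one_apply, apply_ite (mapLau (chartProj D))]
  shift i j := by
    have h := chartProj_eq_zero D (ChartRel.shift i j)
    rw [map_sub, sub_eq_zero, apply_ite (chartProj D), map_one, map_zero] at h
    rw [coeff_univHom]
    exact h
  norm i j hj hi := by
    rw [coeff_univHom]; exact chartProj_eq_zero D (ChartRel.norm i j hj hi)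

theorem chartProj_X (b : D.B) (i j : Fin D.d) (n : ℤ) :
    chartProj D (MvPolynomial.X (b, i, j, n)) = (univHom D b i j).coeff n := by
  rw [coeff_univHom, coeff_rawMat]
  by_cases h : n ∈ Finset.Icc (-(lowWin D b : ℤ)) (upWin D b : ℤ)
  · rw [if_pos h]
  · rw [if_neg h, map_zero]
    exact chartProj_eq_zero D (ChartRel.window (b, i, j, n) h)

theorem finiteType_chartRing : Algebra.FiniteType k (ChartRing D) := by
  classical
  obtain ⟨sA, hsA⟩ := (inferInstance : Algebra.FiniteType k D.A).out
  let gens : Finset D.B := insert (D.i₁ D.y) (sA.image D.i₀)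
  let coeffs : Finset (ChartRing D) := gens.biUnion fun b => Finset.univ.biUnion fun i =>
    Finset.univ.biUnion fun j => (Finset.Icc (-(lowWin D b : ℤ)) (upWin D b : ℤ)).image
      fun n => (univHom D b i j).coeff n
  let S : Subalgebra k (ChartRing D) := Algebra.adjoin k (coeffs : Set (ChartRing D))
  let G : Subalgebra k D.B :=
    { carrier := {b | ∀ i j n, (univHom D b i j).coeff n ∈ S}
      mul_mem' := fun {a b} ha hb i j n => by
        rw [map_mul, Matrix.mul_apply, coeff_sum']
        refine sum_mem fun l _ => ?_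
        rw [coeff_mul', Finsupp.sum]
        refine sum_mem fun p _ => ?_
        rw [Finsupp.sum]
        refine sum_mem fun q _ => ?_
        split
        · exact mul_mem (ha i l p) (hb l j q)
        · exact zero_mem S
      add_mem' := fun {a b} ha hb i j n => by
        rw [map_add, Matrix.add_apply, AddMonoidAlgebra.coeff_add, Finsupp.add_apply]
        exact add_mem (ha i j n) (hb i j n)
      algebraMap_mem' := fun c i j n => by
        rw [AlgHom.commutes, Matrix.algebraMap_matrix_apply]
        split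
        · rw [LaurentPolynomial.algebraMap_apply, C_apply]
          split
          · exact S.algebraMap_mem c
          · exact zero_mem S
        · exact zero_mem S }
  have hgens : ∀ b ∈ gens, b ∈ G := fun b hb i j n => by
    by_cases hn : n ∈ Finset.Icc (-(lowWin D b : ℤ)) (upWin D b : ℤ)
    · exact Algebra.subset_adjoin (Finset.mem_coe.mpr (Finset.mem_biUnion.mpr ⟨b, hb,
        Finset.mem_biUnion.mpr ⟨i, Finset.mem_univ _, Finset.mem_biUnion.mpr ⟨j, Finset.mem_univ _,
          Finset.mem_image.mpr ⟨n, hn, rfl⟩⟩⟩⟩))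
    · rw [coeff_univHom, coeff_rawMat, if_neg hn, map_zero]
      exact zero_mem S
  have hy : D.i₁ D.y ∈ G := hgens _ (Finset.mem_insert_self _ _)
  have hA : ∀ a : D.A, D.i₀ a ∈ G := fun a => by
    have : Algebra.adjoin k (sA : Set D.A) ≤ G.comap D.i₀ := Algebra.adjoin_le fun v hv =>
      hgens _ (Finset.mem_insert_of_mem (Finset.mem_image_of_mem _ hv))
    exact this (hsA ▸ Algebra.mem_top)
  have hB : ∀ b : D.B, b ∈ G := fun b => by
    obtain ⟨a, ha⟩ := lowWin_spec D b
    have e : b = D.i₀ a * D.i₁ D.y ^ lowWin D b := by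
      rw [← ha, mul_assoc, ← mul_pow, D.xy, one_pow, mul_one]
    rw [e]
    exact mul_mem (hA a) (pow_mem hy _)
  refine ⟨⟨coeffs, eq_top_iff.mpr ?_⟩⟩
  rintro z -
  obtain ⟨p, rfl⟩ := Ideal.Quotient.mkₐ_surjective k (chartIdeal D) z
  show chartProj D p ∈ S
  induction p using MvPolynomial.induction_on with
  | C c => exact (chartProj D).commutes c ▸ S.algebraMap_mem c
  | add p q hp hq => rw [map_add]; exact add_mem hp hq
  | mul_X p v hp =>
    rw [map_mul]
    refine mul_mem hp ?_
    obtain ⟨b, i, j, n⟩ := v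
    rw [chartProj_X]
    exact hB b i j n

variable {D} {R : Type u} [CommRing R] [Algebra k R]

theorem map_rawMat {σ : D.B →ₐ[k] Mat D R} (h : IsChartHom D σ) (b : D.B) :
    (mapLau (MvPolynomial.aeval fun v : CoeffVar D =>
      (σ v.1 v.2.1 v.2.2.1).coeff v.2.2.2)).mapMatrix (rawMat D b) = σ b := by
  refine Matrix.ext fun i j => LaurentPolynomial.ext fun n => ?_
  rw [AlgHom.mapMatrix_apply, Matrix.map_apply, coeff_mapLau, coeff_rawMat]
  split_ifs with hn
  · rw [MvPolynomial.aeval_X]
  · rw [map_zero]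
    rw [Finset.mem_Icc, not_and_or, not_le, not_le] at hn
    rcases hn with hn | hn
    · exact (h.geSupp_window b i j n hn).symm
    · exact (h.leSupp_window b i j n hn).symm

theorem exists_point_hom {σ : D.B →ₐ[k] Mat D R} (h : IsChartHom D σ) :
    ∃ φ : ChartRing D →ₐ[k] R, mapHom φ (univHom D) = σ := by
  set f : CoeffPoly D →ₐ[k] R :=
    MvPolynomial.aeval fun v : CoeffVar D => (σ v.1 v.2.1 v.2.2.1).coeff v.2.2.2 with hf
  have hraw : ∀ b, (mapLau f).mapMatrix (rawMat D b) = σ b := map_rawMat h
  have hat : ∀ (M : Mat D (CoeffPoly D)) i j n,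
      f (coeffAt D M i j n) = ((mapLau f).mapMatrix M i j).coeff n := fun M i j n => by
    rw [AlgHom.mapMatrix_apply, Matrix.map_apply, coeff_mapLau]; rfl
  have hker : ∀ p, ChartRel D p → f p = 0 := by
    intro p hp
    cases hp with
    | add a b i j n => rw [hat, map_sub, map_add, hraw, hraw, hraw, map_add, sub_self]; rfl
    | mul a b i j n => rw [hat, map_sub, map_mul, hraw, hraw, hraw, map_mul, sub_self]; rfl
    | one i j n => rw [hat, map_sub, map_one, hraw, map_one, sub_self]; rfl
    | const c i j n =>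
      rw [hat, map_sub, hraw, AlgHom.commutes, AlgHom.commutes, sub_self]; rfl
    | mapX i j n =>
      rw [hat, map_sub, hraw, h.map_x]
      have e : (mapLau f).mapMatrix ((T 1 : (CoeffPoly D)[T;T⁻¹]) • (1 : Mat D (CoeffPoly D))) =
          (T 1 : R[T;T⁻¹]) • (1 : Mat D R) := by
        refine Matrix.ext fun i j => ?_
        simp [Matrix.one_apply, apply_ite (mapLau f)]
      rw [e, sub_self]; rfl
    | poly a i j n hn => rw [hat, hraw]; exact h.poly a i j n hn
    | neg b i j n hn => rw [hat, hraw]; exact h.neg b i j n hn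
    | shift i j => rw [map_sub, hat, hraw, h.shift, apply_ite f, map_one, map_zero, sub_self]
    | norm i j hj hi => rw [hat, hraw]; exact h.norm i j hj hi
    | window v hv =>
      rw [hf, MvPolynomial.aeval_X]
      rw [Finset.mem_Icc, not_and_or, not_le, not_le] at hv
      rcases hv with hn | hn
      · exact h.geSupp_window _ _ _ _ hn
      · exact h.leSupp_window _ _ _ _ hn
  have hle : ∀ p ∈ chartIdeal D, f p = 0 := fun p hp => by
    have : chartIdeal D ≤ RingHom.ker f.toRingHom := Ideal.span_le.mpr fun q hq => hker q hq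
    exact this hp
  refine ⟨Ideal.Quotient.liftₐ (chartIdeal D) f hle, AlgHom.ext fun b => ?_⟩
  rw [← hraw b]
  refine Matrix.ext fun i j => LaurentPolynomial.ext fun n => ?_
  show (mapLau _ (univHom D b i j)).coeff n = _
  rw [coeff_mapLau, coeff_univHom, AlgHom.mapMatrix_apply, Matrix.map_apply, coeff_mapLau]
  rfl

theorem point_hom_unique {φ ψ : ChartRing D →ₐ[k] R}
    (h : mapHom φ (univHom D) = mapHom ψ (univHom D)) : φ = ψ := by
  refine Ideal.Quotient.algHom_ext _ (MvPolynomial.algHom_ext fun v => ?_)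
  obtain ⟨b, i, j, n⟩ := v
  show φ (chartProj D (MvPolynomial.X (b, i, j, n))) = ψ (chartProj D (MvPolynomial.X (b, i, j, n)))
  rw [chartProj_X, ← coeff_mapLau φ, ← coeff_mapLau ψ]
  exact congrArg (fun M : Mat D R => (M i j).coeff n) (DFunLike.congr_fun h b)

end Fermat.Agent.Jac.Chart
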